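import Mathlib
import Fermat.Agent.S05.Core

/-!
# S13 WP-LP: residue characteristic `p`

`core_P` = `Fermat.Agent.S05.core_K` without the hypotheses that `p` is a unit: a ring
endomorphism acting trivially on the residue field moves every `p`-torsion point by an element
of the kernel of reduction `E₁`.
-/

set_option autoImplicit false

open WeierstrassCurve WeierstrassCurve.Affine

namespace Fermat.Agent.S13

open Fermat.Agent.S05 Fermat.Agent.S05.OrdData

section Abstract

variable {K : Type*} [Field K] [DecidableEq K] {G : Type*} [AddCommGroup G] [LinearOrder G]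
  [IsOrderedAddMonoid G]

open Fermat.Agent.S05.CoreAux in
theorem core_P (V : OrdData K G) (W : Affine K)
    (h2 : (2 : K) ≠ 0) (h2u : V.ord (2 : K) = 0)
    (p : ℕ) (hp : p.Prime) (hp2 : p ≠ 2)
    (ha₁ : V.Ge W.a₁ 0) (ha₂ : V.Ge W.a₂ 0) (ha₃ : V.Ge W.a₃ 0) (ha₄ : V.Ge W.a₄ 0)
    (ha₆ : V.Ge W.a₆ 0)
    (ε₁ ε₂ ε₃ ω : K)
    (hb₂ : W.b₂ = -4 * (ε₁ + ε₂ + ε₃)) (hb₄ : W.b₄ = 2 * (ε₁ * ε₂ + ε₁ * ε₃ + ε₂ * ε₃))
    (hb₆ : W.b₆ = -4 * (ε₁ * ε₂ * ε₃))
    (hε₁ : V.Ge ε₁ 0) (hε₂ : V.Ge ε₂ 0) (hε₃ : V.Ge ε₃ 0)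
    (hγ0 : ε₁ - ε₃ ≠ 0) (hγ : V.ord (ε₁ - ε₃) = 0)
    (h230 : ε₂ - ε₃ ≠ 0) (h23 : V.ord (ε₂ - ε₃) = 0)
    (hδ0 : ε₁ - ε₂ ≠ 0) (hω0 : ω ≠ 0) (hδ : V.ord (ε₁ - ε₂) = p • V.ord ω)
    (σ : K →+* K) (hσ : ∀ a : K, V.Ge a 0 → V.Gt (σ a - a) 0)
    (hσ₁ : σ W.a₁ = W.a₁) (hσ₃ : σ W.a₃ = W.a₃) (hσε : σ ε₁ = ε₁) (hσω : σ ω = ω)
    {x y : K} (h : W.Nonsingular x y) (hT : p • Point.some x y h = 0)
    (h' : W.Nonsingular (σ x) (σ y)) :
    inE1 V (Point.some (σ x) (σ y) h' - Point.some x y h) := by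
  -- integrality of the b-invariants
  have hB₂ : V.Ge W.b₂ 0 := by
    simp only [WeierstrassCurve.b₂]
    exact (ha₁.pow0 2).add ((Ge.ofNat 4).mul0 ha₂)
  have hB₄ : V.Ge W.b₄ 0 := by
    simp only [WeierstrassCurve.b₄]
    exact ((Ge.ofNat 2).mul0 ha₄).add (ha₁.mul0 ha₃)
  have hB₆ : V.Ge W.b₆ 0 := by
    simp only [WeierstrassCurve.b₆]
    exact (ha₃.pow0 2).add ((Ge.ofNat 4).mul0 ha₆)
  have hB₈ : V.Ge W.b₈ 0 := by
    simp only [WeierstrassCurve.b₈]
    exact ((((ha₁.pow0 2).mul0 ha₆).add (((Ge.ofNat 4).mul0 ha₂).mul0 ha₆)).sub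
      ((ha₁.mul0 ha₃).mul0 ha₄)).add (ha₂.mul0 (ha₃.pow0 2)) |>.sub (ha₄.pow0 2)
  have hodd : Odd p := hp.odd_of_ne_two hp2
  have hT0 : Point.some x y h ≠ 0 := Point.some_ne_zero h
  -- first case: `x` is not integral, i.e. `T` itself lies in the kernel of reduction
  by_cases hx : V.Ge x 0
  swap
  · have hx0 : x ≠ 0 := fun h0 => hx (Or.inl h0)
    have hxneg : V.ord x < 0 := by
      by_contra h1
      exact hx (Or.inr (not_lt.mp h1))
    have hTE : inE1 V (Point.some x y h) := Or.inr ⟨hx0, hxneg⟩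
    have hzint : V.Gt x⁻¹ 0 := gt_of_ne (inv_ne_zero hx0) (by rw [V.ord_inv hx0]; grind)
    have hσz : V.Gt (σ x⁻¹) 0 := by
      have e : σ x⁻¹ = x⁻¹ + (σ x⁻¹ - x⁻¹) := by ring
      rw [e]
      exact hzint.add (hσ _ hzint.ge)
    have hσx0 : σ x ≠ 0 := (map_ne_zero σ).mpr hx0
    have hσxneg : V.ord (σ x) < 0 := by
      rw [map_inv₀] at hσz
      have h1 := hσz.lt (inv_ne_zero hσx0)
      rw [V.ord_inv hσx0] at h1
      grind
    have hσTE : inE1 V (Point.some (σ x) (σ y) h') := Or.inr ⟨hσx0, hσxneg⟩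
    exact (E1_add h2 h2u hB₂ hB₄ hB₆ hB₈ _ _ hσTE hTE).2.1
  -- from now on `x` is integral, so `T` is not in the kernel of reduction
  have hTnot : ¬ inE1 V (Point.some x y h) := by
    rintro (h0 | ⟨h0, h1⟩)
    · exact hT0 h0
    · simp only [xOf_some] at h0 h1
      have h2' := hx.le h0
      exact absurd h1 (not_lt.mpr h2')
  obtain ⟨h40, h4u⟩ := ord_four h2 h2u
  -- notation
  obtain ⟨u, hu⟩ : ∃ u, u = x - ε₁ := ⟨_, rfl⟩
  obtain ⟨δ, hδdef⟩ : ∃ δ, δ = ε₁ - ε₂ := ⟨_, rfl⟩
  obtain ⟨γ, hγdef⟩ : ∃ γ, γ = ε₁ - ε₃ := ⟨_, rfl⟩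
  obtain ⟨Y, hY⟩ : ∃ Y, Y = y - W.negY x y := ⟨_, rfl⟩
  rw [← hδdef] at hδ0 hδ
  rw [← hγdef] at hγ0 hγ
  have hδint : V.Ge δ 0 := by rw [hδdef]; exact hε₁.sub hε₂
  have hγint : V.Ge γ 0 := by rw [hγdef]; exact hε₁.sub hε₃
  have huint : V.Ge u 0 := by rw [hu]; exact hx.sub hε₁
  have hpsi : psiSq W x = 4 * u * (u + δ) * (u + γ) := by
    simp only [psiSq, hb₂, hb₄, hb₆, hu, hδdef, hγdef]; ring
  have hY2 : Y ^ 2 = 4 * u * (u + δ) * (u + γ) := by
    rw [hY, psi_sq_eq h.1, hpsi]
  have hYint : V.Ge Y 0 := by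
    apply ge_of_sq
    rw [hY2]
    exact (((Ge.ofNat 4).mul0 huint).mul0 (huint.add hδint)).mul0 (huint.add hγint)
  have hYexp : Y = 2 * y + W.a₁ * x + W.a₃ := by
    rw [hY]; simp only [negY]; ring
  have hy : V.Ge y 0 := by
    have e : y = (Y - W.a₁ * x - W.a₃) / 2 := by
      rw [hYexp]; field_simp; ring
    rw [e]
    exact Ge.div_unit ((hYint.sub (ha₁.mul0 hx)).sub ha₃) h2 h2u
  -- the action of σ
  have gx : V.Gt (σ x - x) 0 := hσ x hx
  have gy : V.Gt (σ y - y) 0 := hσ y hy
  have hx' : V.Ge (σ x) 0 := by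
    have : σ x = x + (σ x - x) := by ring
    rw [this]; exact hx.add gx.ge
  have hσY : σ Y = σ y - W.negY (σ x) (σ y) := by
    rw [hYexp]
    simp only [negY, map_add, map_mul, hσ₁, hσ₃, map_ofNat]
    ring
  -- the final contradiction: a difference of two p-torsion points cannot be a nonzero
  -- element of the kernel of reduction
  have fin : σ x ≠ x → y - W.negY (σ x) (σ y) ≠ 0 →
      V.ord (y - W.negY (σ x) (σ y)) < V.ord (x - σ x) →
      inE1 V (Point.some (σ x) (σ y) h' - Point.some x y h) := by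
    intro hne hnum hlt
    obtain ⟨-, hD1⟩ := sub_mem_E1 V W ha₁ ha₂ h h' hx hx' (Ne.symm hne) hnum hlt
    have h1 := inE1_neg hD1
    rwa [neg_sub] at h1
  have same : σ x = x → σ y = y →
      inE1 V (Point.some (σ x) (σ y) h' - Point.some x y h) := by
    intro hxx hyy
    have e : Point.some (σ x) (σ y) h' = Point.some x y h := by
      rw [Point.some.injEq]
      exact ⟨hxx, hyy⟩
    rw [e, sub_self]
    exact inE1_zero
  have hnumexp : y - W.negY (σ x) (σ y) = Y + (σ y - y) + W.a₁ * (σ x - x) := by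
    rw [hYexp]; simp only [negY]; ring
  by_cases hYu : Y ≠ 0 ∧ V.ord Y = 0
  · -- the two-division function is a unit at T
    obtain ⟨hY0, hYord⟩ := hYu
    by_cases hxx : σ x = x
    · refine same hxx ?_
      rcases Y_eq_of_X_eq h.1 h'.1 hxx.symm with hyy | hyy
      · exact hyy.symm
      · exfalso
        have e : σ y - y = -Y := by
          rw [hYexp]
          simp only [negY] at hyy
          rw [hxx] at hyy
          linear_combination hyy
        rw [e] at gy
        have := gy.neg.lt (by simpa using hY0)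
        rw [neg_neg, hYord] at this
        exact lt_irrefl _ this
    · have hnum : y - W.negY (σ x) (σ y) ≠ 0 ∧ V.ord (y - W.negY (σ x) (σ y)) = 0 := by
        rw [hnumexp, add_assoc]
        exact unit_add hY0 hYord (gy.add (Gt.mul_left0 ha₁ gx))
      have hden : x - σ x ≠ 0 := sub_ne_zero.mpr (Ne.symm hxx)
      have hdeng : V.Gt (x - σ x) 0 := by
        have : x - σ x = -(σ x - x) := by ring
        rw [this]; exact gx.neg
      exact fin hxx hnum.1 (by rw [hnum.2]; exact hdeng.lt hden)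
  · -- the two-division function is not a unit at T
    have hY0 : Y ≠ 0 := by
      intro hY0
      have hps : psiSq W x = 0 := by rw [← psi_sq_eq h.1, ← hY, hY0]; ring
      exact hT0 (eq_zero_of_two_of_odd hodd (dbl_zero h hps) hT)
    have hYpos : 0 < V.ord Y := by
      have h1 := hYint.le hY0
      rcases lt_or_eq_of_le h1 with h2 | h2
      · exact h2
      · exact absurd ⟨hY0, h2.symm⟩ hYu
    have hps0 : psiSq W x ≠ 0 := by rw [← psi_sq_eq h.1, ← hY]; exact pow_ne_zero 2 hY0
    -- Step A: u² - δγ is not a unit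
    have hnuint : V.Ge (u ^ 2 - δ * γ) 0 := (huint.pow0 2).sub (hδint.mul0 hγint)
    have hnu : V.Gt (u ^ 2 - δ * γ) 0 := by
      by_contra hcon
      have hne0 : u ^ 2 - δ * γ ≠ 0 := fun h0 => hcon (Or.inl h0)
      have hord0 : V.ord (u ^ 2 - δ * γ) = 0 := by
        have h1 := hnuint.le hne0
        rcases lt_or_eq_of_le h1 with h2 | h2
        · exact absurd (Or.inr h2) hcon
        · exact h2.symm
      obtain ⟨hTT0, hform⟩ := dbl_formula h2 h hps0
      have hrel := W.b_relation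
      have hb₈ : 4 * W.b₈ = W.b₂ * W.b₆ - W.b₄ ^ 2 := hrel
      have key : (xOf (Point.some x y h + Point.some x y h) - ε₁) * Y ^ 2 =
          (u ^ 2 - δ * γ) ^ 2 := by
        have e1 : (xOf (Point.some x y h + Point.some x y h) - ε₁) * psiSq W x =
            dblNum W x - ε₁ * psiSq W x := by rw [← hform]; ring
        rw [hY, psi_sq_eq h.1, e1]
        apply mul_left_cancel₀ h40
        simp only [dblNum, psiSq, hu, hδdef, hγdef]
        rw [hb₂, hb₄, hb₆] at hb₈ ⊢
        linear_combination (-1 : K) * hb₈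
      have hv0 : xOf (Point.some x y h + Point.some x y h) - ε₁ ≠ 0 := by
        intro h0; rw [h0, zero_mul] at key
        exact pow_ne_zero 2 hne0 key.symm
      have hvord : V.ord (xOf (Point.some x y h + Point.some x y h) - ε₁) + 2 • V.ord Y = 0 := by
        have := congrArg V.ord key
        rw [V.ord_mul _ _ hv0 (pow_ne_zero 2 hY0), V.ord_pow hY0, V.ord_pow hne0, hord0,
          smul_zero] at this
        exact this
      have hvneg : V.ord (xOf (Point.some x y h + Point.some x y h) - ε₁) < 0 := by grind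
      have hxTT := ord_add_eq (V := V) hv0 (y := ε₁) (hε₁.gt_of_lt hvneg)
      rw [sub_add_cancel] at hxTT
      have hE1 : inE1 V (Point.some x y h + Point.some x y h) :=
        Or.inr ⟨hxTT.1, by rw [hxTT.2]; exact hvneg⟩
      -- then `T = ((p + 1) / 2) • (2T)` would lie in the kernel of reduction
      obtain ⟨m, hm⟩ := hodd
      have hmul := (E1_multiples h2 h2u hB₂ hB₄ hB₆ hB₈ _ hE1 (m + 1)).1.1
      have e : (m + 1) • (Point.some x y h + Point.some x y h) = Point.some x y h := by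
        have e1 : (m + 1) • (Point.some x y h + Point.some x y h) =
            p • Point.some x y h + Point.some x y h := by
          rw [hm, ← two_nsmul, ← mul_nsmul, ← succ_nsmul]
          congr 1
        rw [e1, hT, zero_add]
      rw [e] at hmul
      exact hTnot hmul
    -- Step B
    have hprod0 : 4 * u * (u + δ) * (u + γ) ≠ 0 := by rw [← hY2]; exact pow_ne_zero 2 hY0
    have hu0 : u ≠ 0 := by
      intro h0; apply hprod0; rw [h0]; ring
    have huδ0 : u + δ ≠ 0 := by
      intro h0; apply hprod0; rw [h0]; ring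
    have huγ0 : u + γ ≠ 0 := by
      intro h0; apply hprod0; rw [h0]; ring
    have hsum : V.ord u + V.ord (u + δ) + V.ord (u + γ) = 2 • V.ord Y := by
      have := congrArg V.ord hY2
      rw [V.ord_pow hY0, V.ord_mul _ _ (mul_ne_zero (mul_ne_zero h40 hu0) huδ0) huγ0,
        V.ord_mul _ _ (mul_ne_zero h40 hu0) huδ0, V.ord_mul _ _ h40 hu0, h4u, zero_add] at this
      exact this.symm
    have hu_ge : 0 ≤ V.ord u := huint.le hu0
    have huδ_ge : 0 ≤ V.ord (u + δ) := (huint.add hδint).le huδ0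
    have huγ_ge : 0 ≤ V.ord (u + γ) := (huint.add hγint).le huγ0
    have hnu0 : u ^ 2 - δ * γ ≠ 0 → 0 < V.ord (u ^ 2 - δ * γ) := fun h0 => hnu.lt h0
    -- Step C
    have hγδ0 : γ - δ ≠ 0 := by
      have : γ - δ = ε₂ - ε₃ := by rw [hγdef, hδdef]; ring
      rw [this]; exact h230
    have hγδ : V.ord (γ - δ) = 0 := by
      have : γ - δ = ε₂ - ε₃ := by rw [hγdef, hδdef]; ring
      rw [this]; exact h23
    have huγ_unit : V.ord (u + γ) = 0 := by
      by_contra hcon
      have hpos : 0 < V.ord (u + γ) := lt_of_le_of_ne huγ_ge (Ne.symm hcon)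
      have e : u ^ 2 - δ * γ = γ * (γ - δ) + (u + γ) * (u - γ) := by ring
      have h1 : γ * (γ - δ) ≠ 0 := mul_ne_zero hγ0 hγδ0
      have h2' : V.ord (γ * (γ - δ)) = 0 := by rw [V.ord_mul _ _ hγ0 hγδ0, hγ, hγδ, add_zero]
      have h3 := unit_add (V := V) h1 h2'
        (y := (u + γ) * (u - γ)) (Gt.mul_right0 (gt_of_ne huγ0 hpos) (huint.sub hγint))
      rw [← e] at h3
      have := hnu0 h3.1
      rw [h3.2] at this
      exact lt_irrefl _ this
    have hu_pos : 0 < V.ord u := by
      by_contra hcon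
      have hu_zero : V.ord u = 0 := le_antisymm (not_lt.mp hcon) hu_ge
      have hpos : 0 < V.ord (u + δ) := by grind
      have e : δ * (δ - γ) = (u ^ 2 - δ * γ) - (u + δ) * (u - δ) := by ring
      have hg : V.Gt (δ * (δ - γ)) 0 := by
        rw [e]
        exact hnu.sub (Gt.mul_right0 (gt_of_ne huδ0 hpos) (huint.sub hδint))
      have hδγ0 : δ - γ ≠ 0 := by
        intro h0; apply hγδ0; rw [← neg_sub, h0, neg_zero]
      have hδγ : V.ord (δ - γ) = 0 := by rw [← neg_sub, V.ord_neg, hγδ]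
      have hδpos : 0 < V.ord δ := by
        have := hg.lt (mul_ne_zero hδ0 hδγ0)
        rwa [V.ord_mul _ _ hδ0 hδγ0, hδγ, add_zero] at this
      have hug : V.Gt u 0 := by
        have : u = (u + δ) - δ := by ring
        rw [this]
        exact (gt_of_ne huδ0 hpos).sub (gt_of_ne hδ0 hδpos)
      have := hug.lt hu0
      rw [hu_zero] at this
      exact lt_irrefl _ this
    have hμ : 0 < V.ord δ := by
      have e : δ * γ = u ^ 2 - (u ^ 2 - δ * γ) := by ring
      have hg : V.Gt (δ * γ) 0 := by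
        rw [e]
        refine Gt.sub ?_ hnu
        have := Gt.mul_right0 (gt_of_ne hu0 hu_pos) huint
        simpa [pow_two] using this
      have := hg.lt (mul_ne_zero hδ0 hγ0)
      rwa [V.ord_mul _ _ hδ0 hγ0, hγ, add_zero] at this
    -- Step D: the component map
    obtain ⟨-, k, hk⟩ := iota_torsion V W h2 h2u ε₁ ε₂ ε₃ hb₂ hb₄ hb₆
      (by rw [← hδdef]; exact hδ0) (by rw [← hδdef]; exact hμ)
      (by rw [← hγdef]; exact hγ0) (by rw [← hγdef]; exact hγ) p hodd _ hT0 hT
    simp only [xOf_some] at hk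
    rw [← hδdef, ← hu] at hk
    -- Step E
    by_cases hmid : V.ord δ ≤ V.ord u
    · exfalso
      have hcl : clamp (V.ord δ) (V.ord u) = V.ord δ := by
        simp only [clamp]; grind
      rw [hcl] at hk
      have h1 : ((p : ℤ) - 2 * k) • V.ord δ = 0 := by
        have e2 : (2 : ℕ) • V.ord δ = (2 : ℤ) • V.ord δ := (natCast_zsmul _ 2).symm
        have ep : (p : ℕ) • V.ord δ = (p : ℤ) • V.ord δ := (natCast_zsmul _ p).symm
        rw [e2, ep] at hk
        rw [sub_smul, hk, smul_smul, mul_comm, sub_self]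
      have h2' := zsmul_eq_zero_imp hμ h1
      obtain ⟨m, hm⟩ := hodd
      omega
    · have hlt : V.ord u < V.ord δ := not_le.mp hmid
      have hcl : clamp (V.ord δ) (V.ord u) = V.ord u := by
        simp only [clamp]; grind
      rw [hcl, hδ] at hk
      have hi : V.ord u = (2 * k) • V.ord ω := by
        have h1 : p • (V.ord u - (2 * k) • V.ord ω) = 0 := by
          have e2 : ∀ g : G, (2 : ℕ) • g = (2 : ℤ) • g := fun g => (natCast_zsmul _ 2).symm
          have ep : ∀ g : G, (p : ℕ) • g = (p : ℤ) • g := fun g => (natCast_zsmul _ p).symm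
          rw [e2, ep, ep] at hk
          rw [ep, smul_sub, hk, smul_smul, smul_smul, smul_smul, sub_eq_zero]
          congr 1
          ring
        have := nsmul_eq_zero_imp hp.ne_zero h1
        exact sub_eq_zero.mp this
      obtain ⟨c, hc⟩ : ∃ c, c = ω ^ (2 * k) := ⟨_, rfl⟩
      have hc0 : c ≠ 0 := by rw [hc]; exact zpow_ne_zero _ hω0
      have hcord : V.ord c = V.ord u := by rw [hc, V.ord_zpow hω0, hi]
      have hσc : σ c = c := by rw [hc, map_zpow₀, hσω]
      have huδ_ord : V.ord (u + δ) = V.ord u :=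
        (ord_add_eq (V := V) hu0 (gt_of_ne hδ0 hlt)).2
      have hYord : V.ord Y = V.ord u := by grind
      -- the units ξ = u / c and η = Y / c
      have hξ : V.Ge (u / c) 0 := by
        right; rw [V.ord_div hu0 hc0, hcord, sub_self]
      have hη : V.Ge (Y / c) 0 := by
        right; rw [V.ord_div hY0 hc0, hcord, hYord, sub_self]
      have gξ := hσ _ hξ
      have gη := hσ _ hη
      have hcge : V.Ge c (V.ord u) := ge_of_ne hc0 (le_of_eq hcord.symm)
      have gu : V.Gt (σ x - x) (V.ord u) := by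
        have e : σ x - x = c * (σ (u / c) - u / c) := by
          rw [map_div₀, hσc, hu, map_sub, hσε]; field_simp; ring
        rw [e]
        have := hcge.mul_gt gξ
        rwa [add_zero] at this
      have gY : V.Gt (σ Y - Y) (V.ord u) := by
        have e : σ Y - Y = c * (σ (Y / c) - Y / c) := by
          rw [map_div₀, hσc]; field_simp
        rw [e]
        have := hcge.mul_gt gη
        rwa [add_zero] at this
      have h2Y : (2 : K) * Y ≠ 0 ∧ V.ord (2 * Y) = V.ord u := by
        refine ⟨mul_ne_zero h2 hY0, ?_⟩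
        rw [V.ord_mul _ _ h2 hY0, h2u, zero_add, hYord]
      by_cases hxx : σ x = x
      · refine same hxx ?_
        rcases Y_eq_of_X_eq h.1 h'.1 hxx.symm with hyy | hyy
        · exact hyy.symm
        · exfalso
          have e : σ Y - Y = -(2 * Y) := by
            rw [hσY, hYexp]
            simp only [negY] at hyy ⊢
            rw [hxx] at hyy ⊢
            linear_combination (2 : K) * hyy
          rw [e] at gY
          have := gY.neg.lt (by simpa using h2Y.1)
          rw [neg_neg, h2Y.2] at this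
          exact lt_irrefl _ this
      · have e2 : 2 * (y - W.negY (σ x) (σ y)) = 2 * Y + ((σ Y - Y) + W.a₁ * (σ x - x)) := by
          rw [hσY, hYexp]; simp only [negY]; ring
        have h3 := ord_add_eq (V := V) h2Y.1 (y := (σ Y - Y) + W.a₁ * (σ x - x))
          (by rw [h2Y.2]; exact gY.add (Gt.mul_left0 ha₁ gu))
        rw [← e2] at h3
        have hnum0 : y - W.negY (σ x) (σ y) ≠ 0 := right_ne_zero_of_mul h3.1
        have hnumord : V.ord (y - W.negY (σ x) (σ y)) = V.ord u := by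
          have := h3.2
          rwa [V.ord_mul _ _ h2 hnum0, h2u, zero_add, h2Y.2] at this
        have hden : x - σ x ≠ 0 := sub_ne_zero.mpr (Ne.symm hxx)
        have hdeng : V.Gt (x - σ x) (V.ord u) := by
          have : x - σ x = -(σ x - x) := by ring
          rw [this]; exact gu.neg
        exact fin hxx hnum0 (by rw [hnumord]; exact hdeng.lt hden)

end Abstract

end Fermat.Agent.S13
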