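import Mathlib
import Fermat.Prelude.Def_FLTPrelim_Ramification
import Fermat.Agent.S05.OfSubring
import Fermat.Agent.S05.Inertia

set_option autoImplicit false

namespace Fermat.Agent.S13

open Fermat.Agent.S05 Fermat.Agent.S05.OrdData

open scoped Pointwise

namespace ValQbar

section Abstract

variable {K : Type*} [Field K] {G : Type*} [AddCommGroup G] [LinearOrder G]
  [IsOrderedAddMonoid G] (V : OrdData K G)

/-- Finite sums of elements of order `> g` have order `> g`. -/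
lemma gt_sum {ι : Type*} (s : Finset ι) (t : ι → K) (g : G) (h : ∀ i ∈ s, V.Gt (t i) g) :
    V.Gt (∑ i ∈ s, t i) g :=
  Finset.sum_induction t (fun x => V.Gt x g) (fun _ _ ha hb => ha.add hb) (Gt.zero g) h

/-- In a vanishing finite sum of nonzero terms, two distinct terms have the same order. -/
lemma exists_ord_eq_of_sum_eq_zero {ι : Type*} [DecidableEq ι] (s : Finset ι) (t : ι → K)
    (hs : s.Nonempty) (ht : ∀ i ∈ s, t i ≠ 0) (hsum : ∑ i ∈ s, t i = 0) :
    ∃ i ∈ s, ∃ j ∈ s, i ≠ j ∧ V.ord (t i) = V.ord (t j) := by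
  obtain ⟨i₀, hi₀, hmin⟩ := Finset.exists_min_image s (fun i => V.ord (t i)) hs
  by_contra hcon
  push Not at hcon
  have hgt : ∀ j ∈ s.erase i₀, V.Gt (t j) (V.ord (t i₀)) := by
    intro j hj
    have hj' := Finset.mem_erase.mp hj
    refine gt_of_ne (ht j hj'.2) (lt_of_le_of_ne (hmin j hj'.2) ?_)
    exact hcon i₀ hi₀ j hj'.2 (Ne.symm hj'.1)
  have h1 := gt_sum V (s.erase i₀) t _ hgt
  have h2 := ord_add_eq (V := V) (ht i₀ hi₀) h1
  rw [Finset.add_sum_erase s t hi₀] at h2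
  exact h2.1 hsum

end Abstract

section General

variable {K : Type*} [Field K] [CharZero K] (A : ValuationSubring K) {ℓ : ℕ}

lemma natCast_ne_zero' (hℓ : ℓ.Prime) : (ℓ : K) ≠ 0 := Nat.cast_ne_zero.mpr hℓ.ne_zero

lemma ord_prime_pos' (hℓ : ℓ.Prime) (hA : (ℓ : K) ∈ A.nonunits) :
    0 < (ordOfSubring A).ord (ℓ : K) :=
  ((ordOfSubring_gt_iff A _).mpr hA).lt (natCast_ne_zero' hℓ)

/-- The order of a nonzero natural number is a multiple of the order of `ℓ`. -/
lemma ord_natCast (hℓ : ℓ.Prime) (hA : (ℓ : K) ∈ A.nonunits) (n : ℕ) (hn : n ≠ 0) :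
    ∃ k : ℕ, (ordOfSubring A).ord (n : K) = k • (ordOfSubring A).ord (ℓ : K) := by
  obtain ⟨e, n', hn', rfl⟩ := Nat.exists_eq_pow_mul_and_not_dvd hn ℓ hℓ.ne_one
  have h1 := ordOfSubring_intCast_unit A hℓ hA (n := (n' : ℤ)) (by exact_mod_cast hn')
  refine ⟨e, ?_⟩
  have hℓ0 : (ℓ : K) ≠ 0 := natCast_ne_zero' hℓ
  have h2 : ((n' : ℤ) : K) = (n' : K) := by push_cast; rfl
  rw [h2] at h1
  push_cast
  rw [(ordOfSubring A).ord_mul _ _ (pow_ne_zero _ hℓ0) h1.1, (ordOfSubring A).ord_pow hℓ0, h1.2,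
    add_zero]

/-- The order of a nonzero integer is a multiple of the order of `ℓ`. -/
lemma ord_intCast (hℓ : ℓ.Prime) (hA : (ℓ : K) ∈ A.nonunits) (n : ℤ) (hn : n ≠ 0) :
    ∃ k : ℕ, (ordOfSubring A).ord (n : K) = k • (ordOfSubring A).ord (ℓ : K) := by
  obtain ⟨k, hk⟩ := ord_natCast A hℓ hA n.natAbs (Int.natAbs_ne_zero.mpr hn)
  refine ⟨k, ?_⟩
  rcases Int.natAbs_eq n with h | h
  · rw [h]; simpa using hk
  · rw [h, Int.cast_neg, (ordOfSubring A).ord_neg]; simpa using hk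

/-- The order of a nonzero rational number is an integer multiple of the order of `ℓ`. -/
lemma ord_ratCast' (hℓ : ℓ.Prime) (hA : (ℓ : K) ∈ A.nonunits) (q : ℚ) (hq : q ≠ 0) :
    ∃ m : ℤ, (ordOfSubring A).ord (q : K) = m • (ordOfSubring A).ord (ℓ : K) := by
  obtain ⟨k₁, hk₁⟩ := ord_intCast A hℓ hA q.num (Rat.num_ne_zero.mpr hq)
  obtain ⟨k₂, hk₂⟩ := ord_natCast A hℓ hA q.den q.den_ne_zero
  refine ⟨(k₁ : ℤ) - k₂, ?_⟩
  have hnum : (q.num : K) ≠ 0 := Int.cast_ne_zero.mpr (Rat.num_ne_zero.mpr hq)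
  have hden : (q.den : K) ≠ 0 := Nat.cast_ne_zero.mpr q.den_ne_zero
  rw [Rat.cast_def, (ordOfSubring A).ord_div hnum hden, hk₁, hk₂, sub_zsmul, natCast_zsmul,
    natCast_zsmul, sub_eq_add_neg]


omit [CharZero K] in
/-- Valuation one from order zero. -/
lemma valuation_eq_one_of_ord {x : K} (hx : x ≠ 0) (h : (ordOfSubring A).ord x = 0) :
    A.valuation x = 1 :=
  (OfSubring.ordFun_eq_zero_iff A hx).mp h

omit [CharZero K] in
lemma ord_eq_zero_of_valuation {x : K} (hx : x ≠ 0) (h : A.valuation x = 1) :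
    (ordOfSubring A).ord x = 0 :=
  (OfSubring.ordFun_eq_zero_iff A hx).mpr h

/-- Natural numbers prime to `ℓ` have valuation one. -/
lemma valuation_natCast_eq_one (hℓ : ℓ.Prime) (hA : (ℓ : K) ∈ A.nonunits) (n : ℕ)
    (hn : ¬ ℓ ∣ n) : A.valuation (n : K) = 1 := by
  have h1 := ordOfSubring_intCast_unit A hℓ hA (n := (n : ℤ)) (by exact_mod_cast hn)
  have h2 : ((n : ℤ) : K) = (n : K) := by push_cast; rfl
  rw [h2] at h1
  exact valuation_eq_one_of_ord A h1.1 h1.2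

/-- A rational unit at a place over `2` is congruent to `1`. -/
lemma ratCast_sub_one_mem (hA : ((2 : ℕ) : K) ∈ A.nonunits) (q : ℚ) (hq : q ≠ 0)
    (hu : A.valuation (q : K) = 1) : (q : K) - 1 ∈ A.nonunits := by
  have h2lt : A.valuation ((2 : ℕ) : K) < 1 := A.mem_nonunits_iff.mp hA
  have hvint : ∀ m : ℤ, A.valuation (m : K) ≤ 1 := fun m =>
    (A.valuation_le_one_iff _).mpr (intCast_mem A m)
  have hodd : ∀ m : ℤ, ¬ (2 : ℤ) ∣ m → A.valuation (m : K) = 1 := by
    intro m hm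
    have h1 := ordOfSubring_intCast_unit A Nat.prime_two hA (n := m) (by exact_mod_cast hm)
    exact valuation_eq_one_of_ord A h1.1 h1.2
  have heven : ∀ m : ℤ, (2 : ℤ) ∣ m → A.valuation (m : K) < 1 := by
    rintro m ⟨c, rfl⟩
    have : ((2 * c : ℤ) : K) = ((2 : ℕ) : K) * (c : K) := by push_cast; ring
    rw [this, map_mul]
    calc A.valuation ((2 : ℕ) : K) * A.valuation (c : K)
        ≤ A.valuation ((2 : ℕ) : K) * 1 := mul_le_mul_right (hvint c) _
      _ = A.valuation ((2 : ℕ) : K) := mul_one _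
      _ < 1 := h2lt
  have hden0 : (q.den : K) ≠ 0 := Nat.cast_ne_zero.mpr q.den_ne_zero
  have hq' : (q : K) = (q.num : K) / (q.den : K) := Rat.cast_def q
  have hvq : A.valuation (q.num : K) = A.valuation ((q.den : ℤ) : K) := by
    have h1 : (q : K) * (q.den : K) = (q.num : K) := by rw [hq']; field_simp
    have h2 := congrArg A.valuation h1
    rw [map_mul, hu, one_mul] at h2
    rw [← h2]; push_cast; rfl
  -- the denominator is odd
  have hdodd : ¬ (2 : ℤ) ∣ (q.den : ℤ) := by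
    intro hd
    have hnodd : ¬ (2 : ℤ) ∣ q.num := by
      intro hn
      have hcop := q.reduced
      have h2n : 2 ∣ q.num.natAbs := Int.natCast_dvd.mp hn
      have h2d : 2 ∣ q.den := by exact_mod_cast hd
      have := Nat.dvd_gcd h2n h2d
      rw [Nat.Coprime] at hcop
      rw [hcop] at this
      omega
    have h1 := hodd _ hnodd
    have h2 := heven _ hd
    rw [hvq] at h1
    exact absurd h1 (ne_of_lt h2)
  have hnodd : ¬ (2 : ℤ) ∣ q.num := by
    intro hn
    have h1 := heven _ hn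
    have h2 := hodd _ hdodd
    rw [hvq, h2] at h1
    exact lt_irrefl _ h1
  have hdiff : (2 : ℤ) ∣ q.num - (q.den : ℤ) := by omega
  rw [A.mem_nonunits_iff]
  have h3 : (q : K) - 1 = ((q.num - (q.den : ℤ) : ℤ) : K) / ((q.den : ℤ) : K) := by
    rw [hq']; push_cast; field_simp
  rw [h3, map_div₀, hodd _ hdodd, div_one]
  exact heven _ hdiff

end General

end ValQbar

/-! ## WP-V (valuation facts for valuation subrings of `AlgebraicClosure ℚ`) -/

section WPV

variable (A : ValuationSubring (AlgebraicClosure ℚ)) (ℓ : ℕ)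

/-- Orders of rational numbers are integer multiples of `ord ℓ`. -/
theorem ord_ratCast (hℓ : ℓ.Prime) (hA : A.LiesOverPrime ℓ) (q : ℚ) (hq : q ≠ 0) :
    ∃ m : ℤ, (ordOfSubring A).ord (q : AlgebraicClosure ℚ) =
      m • (ordOfSubring A).ord (ℓ : AlgebraicClosure ℚ) :=
  ValQbar.ord_ratCast' A hℓ hA q hq

/-- `0 < ord ℓ`. -/
theorem ord_prime_pos (hℓ : ℓ.Prime) (hA : A.LiesOverPrime ℓ) :
    (ℓ : AlgebraicClosure ℚ) ≠ 0 ∧ 0 < (ordOfSubring A).ord (ℓ : AlgebraicClosure ℚ) :=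
  ⟨ValQbar.natCast_ne_zero' hℓ, ValQbar.ord_prime_pos' A hℓ hA⟩

/-- Newton polygon, two-term form: if `x ≠ 0` is a root of a nonzero rational polynomial of
degree `≤ d`, some positive multiple `n ≤ d` of `ord x` is an integer multiple of `ord ℓ`. -/
theorem exists_nsmul_ord_eq (hℓ : ℓ.Prime) (hA : A.LiesOverPrime ℓ) (x : AlgebraicClosure ℚ)
    (hx : x ≠ 0) (f : Polynomial ℚ) (hf : f ≠ 0) (hfx : Polynomial.aeval x f = 0) :
    ∃ n : ℕ, 1 ≤ n ∧ n ≤ f.natDegree ∧ ∃ m : ℤ,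
      n • (ordOfSubring A).ord x = m • (ordOfSubring A).ord (ℓ : AlgebraicClosure ℚ) := by
  classical
  have hsum : ∑ i ∈ f.support, ((f.coeff i : ℚ) : AlgebraicClosure ℚ) * x ^ i = 0 := by
    rw [← hfx, Polynomial.aeval_def, Polynomial.eval₂_eq_sum, Polynomial.sum_def]
    refine Finset.sum_congr rfl fun i _ => ?_
    rw [eq_ratCast]
  have hsupp : f.support.Nonempty := Polynomial.support_nonempty.mpr hf
  have hc0 : ∀ i ∈ f.support, ((f.coeff i : ℚ) : AlgebraicClosure ℚ) ≠ 0 := fun i hi =>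
    Rat.cast_ne_zero.mpr (Polynomial.mem_support_iff.mp hi)
  have ht0 : ∀ i ∈ f.support, ((f.coeff i : ℚ) : AlgebraicClosure ℚ) * x ^ i ≠ 0 := fun i hi =>
    mul_ne_zero (hc0 i hi) (pow_ne_zero _ hx)
  obtain ⟨i, hi, j, hj, hij, hord⟩ :=
    ValQbar.exists_ord_eq_of_sum_eq_zero (ordOfSubring A) f.support _ hsupp ht0 hsum
  -- the key computation, for `i < j`
  have key : ∀ i ∈ f.support, ∀ j ∈ f.support, i < j →
      (ordOfSubring A).ord (((f.coeff i : ℚ) : AlgebraicClosure ℚ) * x ^ i) =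
        (ordOfSubring A).ord (((f.coeff j : ℚ) : AlgebraicClosure ℚ) * x ^ j) →
      ∃ n : ℕ, 1 ≤ n ∧ n ≤ f.natDegree ∧ ∃ m : ℤ,
        n • (ordOfSubring A).ord x = m • (ordOfSubring A).ord (ℓ : AlgebraicClosure ℚ) := by
    intro i hi j hj hlt h
    obtain ⟨n, rfl⟩ : ∃ n, j = i + n := ⟨j - i, by omega⟩
    obtain ⟨mi, hmi⟩ := ord_ratCast A ℓ hℓ hA (f.coeff i) (Polynomial.mem_support_iff.mp hi)
    obtain ⟨mj, hmj⟩ := ord_ratCast A ℓ hℓ hA (f.coeff (i + n)) (Polynomial.mem_support_iff.mp hj)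
    refine ⟨n, by omega, ?_, mi - mj, ?_⟩
    · have := Polynomial.le_natDegree_of_mem_supp _ hj
      omega
    · rw [(ordOfSubring A).ord_mul _ _ (hc0 i hi) (pow_ne_zero _ hx),
        (ordOfSubring A).ord_mul _ _ (hc0 _ hj) (pow_ne_zero _ hx),
        (ordOfSubring A).ord_pow hx, (ordOfSubring A).ord_pow hx, hmi, hmj, add_nsmul,
        ← add_assoc] at h
      rw [sub_zsmul]
      apply add_left_cancel (a := mj • (ordOfSubring A).ord (ℓ : AlgebraicClosure ℚ) +
        i • (ordOfSubring A).ord x)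
      rw [← h]
      abel
  rcases lt_or_gt_of_ne hij with hlt | hlt
  · exact key i hi j hj hlt hord
  · exact key j hj i hi hlt hord.symm


/-- Elements of the decomposition group preserve the order function. -/
theorem ord_decomposition (hℓ : ℓ.Prime) (hA : A.LiesOverPrime ℓ)
    (σ : AlgebraicClosure ℚ ≃ₐ[ℚ] AlgebraicClosure ℚ) (hσ : σ ∈ A.decompositionSubgroup ℚ)
    (x : AlgebraicClosure ℚ) (hx : x ≠ 0) :
    (ordOfSubring A).ord (σ x) = (ordOfSubring A).ord x := by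
  have hmem : ∀ a : AlgebraicClosure ℚ, a ∈ A → σ a ∈ A := by
    intro a ha
    have h1 := ValuationSubring.smul_mem_pointwise_smul σ a A ha
    rw [MulAction.mem_stabilizer_iff.mp hσ] at h1
    exact h1
  have hint : IsIntegral ℚ x := ((AlgebraicClosure.isAlgebraic ℚ).isAlgebraic x).isIntegral
  obtain ⟨n, hn1, -, m, hnm⟩ := exists_nsmul_ord_eq A ℓ hℓ hA x hx (minpoly ℚ x)
    (minpoly.ne_zero hint) (minpoly.aeval ℚ x)
  have hℓ0 : (ℓ : AlgebraicClosure ℚ) ≠ 0 := ValQbar.natCast_ne_zero' hℓ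
  have hσx : σ x ≠ 0 := by simpa using hx
  set V := ordOfSubring A with hV
  set u : AlgebraicClosure ℚ := x ^ n * (ℓ : AlgebraicClosure ℚ) ^ (-m) with hu
  have hu0 : u ≠ 0 := mul_ne_zero (pow_ne_zero _ hx) (zpow_ne_zero _ hℓ0)
  have hordu : V.ord u = 0 := by
    rw [hu, V.ord_mul _ _ (pow_ne_zero _ hx) (zpow_ne_zero _ hℓ0), V.ord_pow hx,
      V.ord_zpow hℓ0, hnm, neg_zsmul, add_neg_cancel]
  have huA : u ∈ A := (ordOfSubring_ge_iff A u).mp (Or.inr (le_of_eq hordu.symm))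
  have huA' : u⁻¹ ∈ A := by
    refine (ordOfSubring_ge_iff A u⁻¹).mp (Or.inr ?_)
    rw [← hV, V.ord_inv hu0, hordu, neg_zero]
  have hσu : σ u = σ x ^ n * (ℓ : AlgebraicClosure ℚ) ^ (-m) := by
    rw [hu, map_mul, map_pow, map_zpow₀, map_natCast]
  have hσu0 : σ u ≠ 0 := by simpa using hu0
  have h1 : 0 ≤ V.ord (σ u) := ((ordOfSubring_ge_iff A _).mpr (hmem u huA)).le hσu0
  have h2 : 0 ≤ V.ord (σ u)⁻¹ := by
    have := hmem u⁻¹ huA'
    rw [map_inv₀] at this
    exact ((ordOfSubring_ge_iff A _).mpr this).le (inv_ne_zero hσu0)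
  rw [V.ord_inv hσu0] at h2
  have h3 : V.ord (σ u) = 0 := le_antisymm (by simpa using h2) h1
  rw [hσu, V.ord_mul _ _ (pow_ne_zero _ hσx) (zpow_ne_zero _ hℓ0), V.ord_pow hσx,
    V.ord_zpow hℓ0, neg_zsmul, add_neg_eq_zero, ← hnm] at h3
  have h4 : n • (V.ord (σ x) - V.ord x) = 0 := by rw [nsmul_sub, h3, sub_self]
  have h5 := nsmul_eq_zero_imp (by omega) h4
  exact sub_eq_zero.mp h5

/-- The residue field is infinite: every finite set of elements misses some residue class. -/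
theorem exists_not_congr (hℓ : ℓ.Prime) (hA : A.LiesOverPrime ℓ)
    (s : Finset (AlgebraicClosure ℚ)) :
    ∃ x : AlgebraicClosure ℚ, (ordOfSubring A).Ge x 0 ∧
      ∀ r ∈ s, ¬ (ordOfSubring A).Gt (x - r) 0 := by
  classical
  set n := ℓ * s.card with hn
  have hcop : ¬ ℓ ∣ n + 1 := by
    intro h
    have h1 : ℓ ∣ 1 := (Nat.dvd_add_right (dvd_mul_right ℓ s.card)).mp h
    exact hℓ.one_lt.ne' (Nat.dvd_one.mp h1)
  obtain ⟨ζ, hζ⟩ : ∃ ζ : AlgebraicClosure ℚ, IsPrimitiveRoot ζ (n + 1) :=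
    HasEnoughRootsOfUnity.exists_primitiveRoot (AlgebraicClosure ℚ) (n + 1)
  have hv1 : A.valuation ζ = 1 := by
    have h := congrArg A.valuation hζ.pow_eq_one
    rw [map_pow, map_one] at h
    exact (pow_eq_one_iff_left (Nat.succ_ne_zero n)).mp h
  have hζA : ζ ∈ A := (A.valuation_le_one_iff ζ).mp hv1.le
  have hprod : ∏ k ∈ Finset.range n, A.valuation (1 - ζ ^ (k + 1)) = 1 := by
    rw [← map_prod, hζ.prod_one_sub_pow_eq_order]
    have := ValQbar.valuation_natCast_eq_one A hℓ hA (n + 1) hcop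
    push_cast at this
    exact this
  have hle : ∀ k ∈ Finset.range n, A.valuation (1 - ζ ^ (k + 1)) ≤ 1 := fun k _ =>
    (A.valuation_le_one_iff _).mpr (A.sub_mem A.one_mem (A.pow_mem hζA _))
  have hone : ∀ k ∈ Finset.range n, A.valuation (1 - ζ ^ (k + 1)) = 1 :=
    (Finset.prod_eq_one_iff_of_le_one' hle).mp hprod
  -- distinct powers of `ζ` are incongruent
  have hdist : ∀ i j : ℕ, i < j → j < n + 1 → A.valuation (ζ ^ i - ζ ^ j) = 1 := by
    intro i j hij hj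
    obtain ⟨d, rfl⟩ : ∃ d, j = i + (d + 1) := ⟨j - i - 1, by omega⟩
    have : ζ ^ i - ζ ^ (i + (d + 1)) = ζ ^ i * (1 - ζ ^ (d + 1)) := by ring
    rw [this, map_mul, map_pow, hv1, one_pow, one_mul]
    exact hone d (Finset.mem_range.mpr (by omega))
  by_contra hcon
  push Not at hcon
  have hex : ∀ i : Fin (n + 1), ∃ r ∈ s, (ordOfSubring A).Gt (ζ ^ (i : ℕ) - r) 0 := fun i =>
    hcon (ζ ^ (i : ℕ)) ((ordOfSubring_ge_iff A _).mpr (A.pow_mem hζA _))
  choose r hr hgt using hex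
  have hinj : Function.Injective (fun i : Fin (n + 1) => (⟨r i, hr i⟩ : s)) := by
    intro i j hij
    have hrij : r i = r j := congrArg Subtype.val hij
    by_contra hne
    have h1 : (ordOfSubring A).Gt (ζ ^ (i : ℕ) - ζ ^ (j : ℕ)) 0 := by
      have := (hgt i).sub (hgt j)
      rw [hrij] at this
      simpa using this
    rw [ordOfSubring_gt_iff, A.mem_nonunits_iff] at h1
    rcases lt_or_gt_of_ne (fun h => hne (Fin.ext h)) with h | h
    · rw [hdist _ _ h j.2] at h1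
      exact lt_irrefl _ h1
    · have h2 := hdist _ _ h i.2
      rw [← neg_sub, Valuation.map_neg, h2] at h1
      exact lt_irrefl _ h1
  have hcard := Fintype.card_le_of_injective _ hinj
  simp only [Fintype.card_fin, Fintype.card_coe] at hcard
  have : s.card ≤ ℓ * s.card := Nat.le_mul_of_pos_left _ hℓ.pos
  omega

/-- `p`-th roots of unity modulo the maximal ideal are powers of a nontrivial one. -/
theorem exists_pow_congr (p : ℕ) (hp : p.Prime) (t s : AlgebraicClosure ℚ)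
    (ht : (ordOfSubring A).Ge t 0) (hs : (ordOfSubring A).Ge s 0)
    (htp : (ordOfSubring A).Gt (t ^ p - 1) 0) (ht1 : ¬ (ordOfSubring A).Gt (t - 1) 0)
    (hsp : (ordOfSubring A).Gt (s ^ p - 1) 0) :
    ∃ k : ℕ, (ordOfSubring A).Gt (s - t ^ k) 0 := by
  rw [ordOfSubring_ge_iff] at ht hs
  rw [ordOfSubring_gt_iff] at htp hsp ht1
  have key : ∀ a : A, (a : AlgebraicClosure ℚ) ∈ A.nonunits ↔ IsLocalRing.residue A a = 0 := by
    intro a
    rw [IsLocalRing.residue_eq_zero_iff, ValuationSubring.coe_mem_nonunits_iff]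
  have h1 : IsLocalRing.residue A ⟨t, ht⟩ ^ p = 1 := by
    have := (key (⟨t, ht⟩ ^ p - 1)).mp (by simpa using htp)
    rwa [map_sub, map_pow, map_one, sub_eq_zero] at this
  have h2 : IsLocalRing.residue A ⟨t, ht⟩ ≠ 1 := by
    intro h
    apply ht1
    have := (key (⟨t, ht⟩ - 1)).mpr (by rw [map_sub, map_one, h, sub_self])
    simpa using this
  have h3 : IsLocalRing.residue A ⟨s, hs⟩ ^ p = 1 := by
    have := (key (⟨s, hs⟩ ^ p - 1)).mp (by simpa using hsp)
    rwa [map_sub, map_pow, map_one, sub_eq_zero] at this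
  have : Fact p.Prime := Fact.mk hp
  have hord : orderOf (IsLocalRing.residue A ⟨t, ht⟩) = p := orderOf_eq_prime h1 h2
  have hprim : IsPrimitiveRoot (IsLocalRing.residue A ⟨t, ht⟩) p :=
    IsPrimitiveRoot.iff_orderOf.mpr hord
  have : NeZero p := ⟨hp.ne_zero⟩
  obtain ⟨k, -, hk⟩ := hprim.eq_pow_of_pow_eq_one h3
  refine ⟨k, ?_⟩
  rw [ordOfSubring_gt_iff]
  have := (key (⟨s, hs⟩ - ⟨t, ht⟩ ^ k)).mpr (by rw [map_sub, map_pow, hk, sub_self])
  simpa using this

/-- A rational `2`-adic unit is congruent to `1`. -/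
theorem ratCast_sub_one_gt (hA : A.LiesOverPrime 2) (q : ℚ) (hq : q ≠ 0)
    (hu : (ordOfSubring A).ord (q : AlgebraicClosure ℚ) = 0) :
    (ordOfSubring A).Gt ((q : AlgebraicClosure ℚ) - 1) 0 := by
  rw [ordOfSubring_gt_iff]
  exact ValQbar.ratCast_sub_one_mem A hA q hq
    (ValQbar.valuation_eq_one_of_ord A (Rat.cast_ne_zero.mpr hq) hu)

/-- The inertia group acts trivially on the residue field (all of `inertiaSubgroupIn`). -/
theorem inertia_gt (σ : AlgebraicClosure ℚ ≃ₐ[ℚ] AlgebraicClosure ℚ)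
    (hσ : σ ∈ A.inertiaSubgroupIn ℚ) :
    σ ∈ A.decompositionSubgroup ℚ ∧
    ∀ a : AlgebraicClosure ℚ, (ordOfSubring A).Ge a 0 → (ordOfSubring A).Gt (σ a - a) 0 := by
  refine ⟨?_, fun a ha => ?_⟩
  · obtain ⟨τ, -, rfl⟩ := hσ
    exact τ.2
  · rw [ordOfSubring_gt_iff]
    exact inertia_sub_mem_nonunits A σ hσ a ((ordOfSubring_ge_iff A a).mp ha)

end WPV

end Fermat.Agent.S13
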