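import Mathlib
import Fermat.Prelude.Def_FLTPrelim_FreyPackage
import Fermat.Prelude.Def_FLTPrelim_GaloisRep
import Fermat.Prelude.Def_FLTPrelim_Ramification
import Fermat.Agent.S05.Assembly
import Fermat.Agent.S05.OfSubring
import Fermat.Agent.S13.LocalP
import Fermat.Agent.S13.ValQbar

/-!
# S13, WP-Fp (part 1): the Frey curve at places over `p`

* `FreyP.frey_roots`: the three `2`-torsion abscissae `x/4, y/4, z/4` of the Frey curve, ordered
  so that `x - z`, `y - z` are prime to a given prime `q` and `x - y` is a `p`-th power up to sign.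
* `FreyP.frey_integral`, `FreyP.frey_b`, `FreyP.frey_Δ_ne_zero`: integrality of the coefficients,
  the `b`-invariants in terms of the roots, nonvanishing of the discriminant.
* `frey_inertia_p`: for `σ` in an inertia group over `p` and `T ∈ E[p]`, `σT - T ∈ E₁`.
-/

set_option autoImplicit false

open WeierstrassCurve WeierstrassCurve.Affine WeierstrassCurve.Affine.Point
open FreyPackage

namespace Fermat.Agent.S13

open Fermat.Agent.S05 Fermat.Agent.S05.OrdData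

local notation "Qb" => AlgebraicClosure ℚ

namespace FreyP

/-- The `2`-torsion data of the Frey curve adapted to a prime `q`: integers `x, y, z` (four times
the abscissae of the points of order two) with `q ∤ x - z`, `q ∤ y - z`, and `x - y = ± w ^ p`. -/
theorem frey_roots (P : FreyPackage) {q : ℕ} (hq : q.Prime) :
    ∃ x y z w ε : ℤ, (ε = 1 ∨ ε = -1) ∧ x + y + z = P.a ^ P.p - P.b ^ P.p ∧
      x * y + x * z + y * z = -(P.a ^ P.p * P.b ^ P.p) ∧ x * y * z = 0 ∧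
      ¬ (q : ℤ) ∣ x - z ∧ ¬ (q : ℤ) ∣ y - z ∧ x - y = ε * w ^ P.p ∧ w ≠ 0 := by
  have hqZ : Prime (q : ℤ) := Nat.prime_iff_prime_int.mp hq
  have hcop : ∀ {u v : ℤ}, gcd u v = 1 → (q : ℤ) ∣ u → ¬ (q : ℤ) ∣ v := by
    intro u v huv hu hv
    have := dvd_gcd hu hv
    rw [huv] at this
    exact hqZ.not_dvd_one this
  have hpow : ∀ {u : ℤ}, ¬ (q : ℤ) ∣ u → ¬ (q : ℤ) ∣ u ^ P.p :=
    fun hu h => hu (hqZ.dvd_of_dvd_pow h)
  have hFLT := P.hFLT
  by_cases hb : (q : ℤ) ∣ P.b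
  · have ha : ¬ (q : ℤ) ∣ P.a := fun ha => hcop P.hgcdab ha hb
    have hc : ¬ (q : ℤ) ∣ P.c := hcop P.hgcdbc hb
    refine ⟨0, -(P.b ^ P.p), P.a ^ P.p, P.b, 1, Or.inl rfl, ?_, ?_, ?_, ?_, ?_, ?_, P.hb0⟩
    · ring
    · ring
    · ring
    · rw [zero_sub, dvd_neg]; exact hpow ha
    · have e : -(P.b ^ P.p) - P.a ^ P.p = -(P.c ^ P.p) := by rw [← hFLT]; ring
      rw [e, dvd_neg]; exact hpow hc
    · ring
  · by_cases ha : (q : ℤ) ∣ P.a
    · have hc : ¬ (q : ℤ) ∣ P.c := hcop P.hgcdac ha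
      refine ⟨0, P.a ^ P.p, -(P.b ^ P.p), P.a, -1, Or.inr rfl, ?_, ?_, ?_, ?_, ?_, ?_, P.ha0⟩
      · ring
      · ring
      · ring
      · have e : (0 : ℤ) - -(P.b ^ P.p) = P.b ^ P.p := by ring
        rw [e]; exact hpow hb
      · have e : P.a ^ P.p - -(P.b ^ P.p) = P.c ^ P.p := by rw [← hFLT]; ring
        rw [e]; exact hpow hc
      · ring
    · refine ⟨P.a ^ P.p, -(P.b ^ P.p), 0, P.c, 1, Or.inl rfl, ?_, ?_, ?_, ?_, ?_, ?_, P.hc0⟩
      · ring
      · ring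
      · ring
      · rw [sub_zero]; exact hpow ha
      · rw [sub_zero, dvd_neg]; exact hpow hb
      · rw [← hFLT]; ring

/-- The discriminant of the Frey curve is nonzero. -/
theorem frey_Δ_ne_zero_rat (P : FreyPackage) : P.freyCurve.Δ ≠ 0 := by
  have hΔ : P.freyCurve.Δ = (((P.a * P.b * P.c) ^ P.p : ℤ) : ℚ) ^ 2 / 256 := by
    have hFLT : ((P.a : ℚ)) ^ P.p + (P.b : ℚ) ^ P.p = (P.c : ℚ) ^ P.p := by
      exact_mod_cast P.hFLT
    simp only [WeierstrassCurve.Δ, WeierstrassCurve.b₂, WeierstrassCurve.b₄,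
      WeierstrassCurve.b₆, WeierstrassCurve.b₈, freyCurve]
    push_cast
    rw [mul_pow, mul_pow, ← hFLT]
    ring
  rw [hΔ]
  have h0 : (((P.a * P.b * P.c) ^ P.p : ℤ) : ℚ) ≠ 0 := by
    exact_mod_cast pow_ne_zero _ P.habc0
  exact div_ne_zero (pow_ne_zero _ h0) (by norm_num)

section
variable {K : Type*} [Field K] [CharZero K] [Algebra ℚ K]

omit [CharZero K] in
/-- The discriminant of the base-changed Frey curve is nonzero. -/
theorem frey_Δ_ne_zero (P : FreyPackage) : (P.freyCurve⁄K).Δ ≠ 0 := by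
  have h : (P.freyCurve⁄K).Δ = algebraMap ℚ K P.freyCurve.Δ := by
    simp [WeierstrassCurve.baseChange, WeierstrassCurve.map_Δ]
  rw [h]
  exact (map_ne_zero _).mpr (frey_Δ_ne_zero_rat P)

/-- The `b`-invariants of the Frey curve in terms of its `2`-torsion abscissae. -/
theorem frey_b (P : FreyPackage) (x y z : ℤ)
    (h1 : x + y + z = P.a ^ P.p - P.b ^ P.p)
    (h2 : x * y + x * z + y * z = -(P.a ^ P.p * P.b ^ P.p))
    (h3 : x * y * z = 0) :
    (P.freyCurve⁄K).b₂ = -4 * ((x : K) / 4 + (y : K) / 4 + (z : K) / 4) ∧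
    (P.freyCurve⁄K).b₄ = 2 * ((x : K) / 4 * ((y : K) / 4) + (x : K) / 4 * ((z : K) / 4) +
      (y : K) / 4 * ((z : K) / 4)) ∧
    (P.freyCurve⁄K).b₆ = -4 * ((x : K) / 4 * ((y : K) / 4) * ((z : K) / 4)) := by
  have h1' : (x:ℚ) + y + z = (P.a:ℚ) ^ P.p - (P.b:ℚ) ^ P.p := by exact_mod_cast h1
  have h2' : (x:ℚ) * y + x * z + y * z = -((P.a:ℚ) ^ P.p * (P.b:ℚ) ^ P.p) := by exact_mod_cast h2
  have h3' : (x:ℚ) * y * z = 0 := by exact_mod_cast h3
  have e2 : P.freyCurve.b₂ = -4 * ((x : ℚ) / 4 + (y : ℚ) / 4 + (z : ℚ) / 4) := by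
    simp only [WeierstrassCurve.b₂, freyCurve]
    linear_combination h1'
  have e4 : P.freyCurve.b₄ = 2 * ((x : ℚ) / 4 * ((y : ℚ) / 4) + (x : ℚ) / 4 * ((z : ℚ) / 4) +
      (y : ℚ) / 4 * ((z : ℚ) / 4)) := by
    simp only [WeierstrassCurve.b₄, freyCurve]
    linear_combination (-1/8:ℚ) * h2'
  have e6 : P.freyCurve.b₆ = -4 * ((x : ℚ) / 4 * ((y : ℚ) / 4) * ((z : ℚ) / 4)) := by
    simp only [WeierstrassCurve.b₆, freyCurve]
    linear_combination (1/16:ℚ) * h3'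
  refine ⟨?_, ?_, ?_⟩
  · have h : (P.freyCurve⁄K).b₂ = algebraMap ℚ K P.freyCurve.b₂ := by
      simp [WeierstrassCurve.baseChange, WeierstrassCurve.map_b₂]
    rw [h, e2, eq_ratCast]; push_cast; ring
  · have h : (P.freyCurve⁄K).b₄ = algebraMap ℚ K P.freyCurve.b₄ := by
      simp [WeierstrassCurve.baseChange, WeierstrassCurve.map_b₄]
    rw [h, e4, eq_ratCast]; push_cast; ring
  · have h : (P.freyCurve⁄K).b₆ = algebraMap ℚ K P.freyCurve.b₆ := by
      simp [WeierstrassCurve.baseChange, WeierstrassCurve.map_b₆]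
    rw [h, e6, eq_ratCast]; push_cast; ring

variable {G : Type*} [AddCommGroup G] [LinearOrder G] [IsOrderedAddMonoid G]

/-- Integrality of the coefficients of the Frey curve away from `2`. -/
theorem frey_integral (V : OrdData K G) (P : FreyPackage) {q : ℕ}
    (hU : ∀ n : ℤ, ¬ (q : ℤ) ∣ n → (n : K) ≠ 0 ∧ V.ord (n : K) = 0) (h4 : ¬ (q : ℤ) ∣ 4) :
    V.Ge (P.freyCurve⁄K).a₁ 0 ∧ V.Ge (P.freyCurve⁄K).a₂ 0 ∧ V.Ge (P.freyCurve⁄K).a₃ 0 ∧
      V.Ge (P.freyCurve⁄K).a₄ 0 ∧ V.Ge (P.freyCurve⁄K).a₆ 0 := by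
  obtain ⟨h40, h4u⟩ := hU 4 h4
  have e4 : ((4 : ℤ) : K) = 4 := by norm_num
  rw [e4] at h40 h4u
  refine ⟨?_, ?_, ?_, ?_, ?_⟩
  · have : (P.freyCurve⁄K).a₁ = 1 := by
      change algebraMap ℚ K P.freyCurve.a₁ = 1
      simp [freyCurve]
    rw [this]; exact Ge.one
  · have : (P.freyCurve⁄K).a₂ = ((P.b ^ P.p - 1 - P.a ^ P.p : ℤ) : K) / 4 := by
      change algebraMap ℚ K P.freyCurve.a₂ = _
      rw [← Assembly.algebraMap_quarter]; congr 1; simp [freyCurve]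
    rw [this]; exact Assembly.quarter_ge hU h4 _
  · have : (P.freyCurve⁄K).a₃ = 0 := by
      change algebraMap ℚ K P.freyCurve.a₃ = 0
      simp [freyCurve]
    rw [this]; exact Ge.zero 0
  · have : (P.freyCurve⁄K).a₄ = ((-(P.a ^ P.p) * P.b ^ P.p : ℤ) : K) / 4 / 4 := by
      change algebraMap ℚ K P.freyCurve.a₄ = _
      rw [eq_ratCast]; simp [freyCurve]; ring
    rw [this]
    exact Ge.div_unit (Assembly.quarter_ge hU h4 _) h40 h4u
  · have : (P.freyCurve⁄K).a₆ = 0 := by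
      change algebraMap ℚ K P.freyCurve.a₆ = 0
      simp [freyCurve]
    rw [this]; exact Ge.zero 0

/-- The `2`-torsion abscissa `z / 4` is a root of `psiSq` at which the derivative
`6 ε ^ 2 + b₂ ε + b₄ = 2 (ε - x / 4) (ε - y / 4)` is a unit. -/
theorem frey_eps (V : OrdData K G) (P : FreyPackage) {q : ℕ}
    (hU : ∀ n : ℤ, ¬ (q : ℤ) ∣ n → (n : K) ≠ 0 ∧ V.ord (n : K) = 0)
    (hq2 : ¬ (q : ℤ) ∣ 2) (h4 : ¬ (q : ℤ) ∣ 4)
    (x y z : ℤ)
    (h1 : x + y + z = P.a ^ P.p - P.b ^ P.p)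
    (h2 : x * y + x * z + y * z = -(P.a ^ P.p * P.b ^ P.p))
    (h3 : x * y * z = 0)
    (hxz : ¬ (q : ℤ) ∣ x - z) (hyz : ¬ (q : ℤ) ∣ y - z) :
    psiSq (P.freyCurve⁄K) ((z : K) / 4) = 0 ∧ V.Ge ((z : K) / 4) 0 ∧
      6 * ((z : K) / 4) ^ 2 + (P.freyCurve⁄K).b₂ * ((z : K) / 4) + (P.freyCurve⁄K).b₄ ≠ 0 ∧
      V.ord (6 * ((z : K) / 4) ^ 2 + (P.freyCurve⁄K).b₂ * ((z : K) / 4) +
        (P.freyCurve⁄K).b₄) = 0 := by
  obtain ⟨h20, h2u⟩ := hU 2 hq2
  have e2 : ((2 : ℤ) : K) = 2 := by norm_num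
  rw [e2] at h20 h2u
  obtain ⟨hb₂, hb₄, hb₆⟩ := frey_b (K := K) P x y z h1 h2 h3
  have hzx : ¬ (q : ℤ) ∣ z - x := fun h => hxz ((dvd_sub_comm).mp h)
  have hzy : ¬ (q : ℤ) ∣ z - y := fun h => hyz ((dvd_sub_comm).mp h)
  obtain ⟨hzx0, hzxu⟩ := Assembly.quarter_unit (V := V) hU h4 hzx
  obtain ⟨hzy0, hzyu⟩ := Assembly.quarter_unit (V := V) hU h4 hzy
  have hκ : 6 * ((z : K) / 4) ^ 2 + (P.freyCurve⁄K).b₂ * ((z : K) / 4) + (P.freyCurve⁄K).b₄ =
      2 * (((z - x : ℤ) : K) / 4) * (((z - y : ℤ) : K) / 4) := by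
    rw [hb₂, hb₄]; push_cast; ring
  refine ⟨?_, Assembly.quarter_ge hU h4 _, ?_, ?_⟩
  · simp only [psiSq]
    rw [hb₂, hb₄, hb₆]; ring
  · rw [hκ]
    exact mul_ne_zero (mul_ne_zero h20 hzx0) hzy0
  · rw [hκ, V.ord_mul _ _ (mul_ne_zero h20 hzx0) hzy0, V.ord_mul _ _ h20 hzx0, h2u, hzxu, hzyu]
    simp

variable [DecidableEq K]

/-- The local statement at a place of odd residue characteristic `q` (possibly `q = p`): a field
automorphism acting trivially on the residue field moves `p`-torsion points of the Frey curve by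
elements of the kernel of reduction. -/
theorem frey_apply_P (V : OrdData K G) (P : FreyPackage) {q : ℕ}
    (hU : ∀ n : ℤ, ¬ (q : ℤ) ∣ n → (n : K) ≠ 0 ∧ V.ord (n : K) = 0)
    (hq2 : ¬ (q : ℤ) ∣ 2) (h4 : ¬ (q : ℤ) ∣ 4)
    (σ : K →ₐ[ℚ] K) (hσ : ∀ a : K, V.Ge a 0 → V.Gt (σ a - a) 0)
    (x y z w ε : ℤ) (hε : ε = 1 ∨ ε = -1)
    (h1 : x + y + z = P.a ^ P.p - P.b ^ P.p)
    (h2 : x * y + x * z + y * z = -(P.a ^ P.p * P.b ^ P.p))
    (h3 : x * y * z = 0)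
    (hxz : ¬ (q : ℤ) ∣ x - z) (hyz : ¬ (q : ℤ) ∣ y - z)
    (hxy : x - y = ε * w ^ P.p) (hw : w ≠ 0)
    (T : (P.freyCurve⁄K).Point) (hT : P.p • T = 0) :
    inE1 V (Point.map (W' := P.freyCurve) σ T - T) := by
  obtain ⟨h20, h2u⟩ := hU 2 hq2
  have e2 : ((2 : ℤ) : K) = 2 := by norm_num
  rw [e2] at h20 h2u
  have hp2 : P.p ≠ 2 := by have := P.hp5; omega
  obtain ⟨h40, h4u⟩ := hU 4 h4
  have e4 : ((4 : ℤ) : K) = 4 := by norm_num
  rw [e4] at h40 h4u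
  have hw0 : (w : K) ≠ 0 := by exact_mod_cast hw
  have hε0 : (ε : K) ≠ 0 ∧ V.ord (ε : K) = 0 := by
    rcases hε with rfl | rfl
    · simp [V.ord_one]
    · simp [V.ord_neg_one]
  obtain ⟨ha₁, ha₂, ha₃, ha₄, ha₆⟩ := frey_integral V P hU h4
  obtain ⟨hb₂, hb₄, hb₆⟩ := frey_b (K := K) P x y z h1 h2 h3
  have hsub : ∀ m n : ℤ, (m : K) / 4 - (n : K) / 4 = ((m - n : ℤ) : K) / 4 := by
    intro m n; push_cast; ring
  rcases T with _ | ⟨X, Y, hXY⟩
  · exact inE1_zero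
  · have hXY' : (P.freyCurve⁄K).Nonsingular (σ X) (σ Y) :=
      (WeierstrassCurve.Affine.baseChange_nonsingular P.freyCurve σ.injective ..).mpr hXY
    have key := core_P V (P.freyCurve⁄K) h20 h2u P.p P.pp hp2 ha₁ ha₂ ha₃ ha₄ ha₆
      ((x : K) / 4) ((y : K) / 4) ((z : K) / 4) (w : K) hb₂ hb₄ hb₆
      (Assembly.quarter_ge hU h4 _) (Assembly.quarter_ge hU h4 _) (Assembly.quarter_ge hU h4 _)
      (by rw [hsub]; exact (Assembly.quarter_unit hU h4 hxz).1)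
      (by rw [hsub]; exact (Assembly.quarter_unit hU h4 hxz).2)
      (by rw [hsub]; exact (Assembly.quarter_unit hU h4 hyz).1)
      (by rw [hsub]; exact (Assembly.quarter_unit hU h4 hyz).2)
      (by
        rw [hsub, hxy]
        exact div_ne_zero (by push_cast; exact mul_ne_zero hε0.1 (pow_ne_zero _ hw0)) h40)
      hw0
      (by
        rw [hsub, hxy]
        push_cast
        rw [V.ord_div (mul_ne_zero hε0.1 (pow_ne_zero _ hw0)) h40, h4u, sub_zero,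
          V.ord_mul _ _ hε0.1 (pow_ne_zero _ hw0), hε0.2, zero_add, V.ord_pow hw0])
      (σ : K →+* K) hσ
      (by
        change σ (algebraMap ℚ K P.freyCurve.a₁) = algebraMap ℚ K P.freyCurve.a₁
        exact σ.commutes _)
      (by
        change σ (algebraMap ℚ K P.freyCurve.a₃) = algebraMap ℚ K P.freyCurve.a₃
        exact σ.commutes _)
      (by
        have : (x : K) / 4 = algebraMap ℚ K ((x : ℚ) / 4) := by
          rw [Assembly.algebraMap_quarter]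
        change σ ((x : K) / 4) = (x : K) / 4
        rw [this]; exact σ.commutes _)
      (by
        have : (w : K) = algebraMap ℚ K (w : ℚ) := by
          rw [eq_ratCast]; push_cast; rfl
        change σ (w : K) = (w : K)
        rw [this]; exact σ.commutes _)
      hXY hT hXY'
    exact key

end

end FreyP

/-- `σT - T ∈ E₁` for `σ` in an inertia group over `p` and `T ∈ E[p]`. -/
theorem frey_inertia_p (P : FreyPackage) (A : ValuationSubring Qb) (hA : A.LiesOverPrime P.p)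
    (σ : Qb ≃ₐ[ℚ] Qb) (hσ : σ ∈ A.inertiaSubgroupIn ℚ)
    (T : (P.freyCurve⁄Qb).Point) (hT : P.p • T = 0) :
    inE1 (ordOfSubring A) (σ • T - T) := by
  have hq := P.pp
  have hU : ∀ n : ℤ, ¬ (P.p : ℤ) ∣ n → (n : Qb) ≠ 0 ∧ (ordOfSubring A).ord (n : Qb) = 0 :=
    fun n hn => ordOfSubring_intCast_unit A hq hA hn
  have hσ' : ∀ a, (ordOfSubring A).Ge a 0 → (ordOfSubring A).Gt (σ.toAlgHom a - a) 0 :=
    (inertia_gt A σ hσ).2
  have hqZ : Prime (P.p : ℤ) := Nat.prime_iff_prime_int.mp hq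
  have hp5 := P.hp5
  have hq2' : ¬ (P.p : ℤ) ∣ 2 := by
    intro h
    have h' : P.p ∣ 2 := by exact_mod_cast h
    have := Nat.le_of_dvd (by norm_num) h'
    omega
  have hq4 : ¬ (P.p : ℤ) ∣ 4 := by
    intro h
    have h' : P.p ∣ 4 := by exact_mod_cast h
    have := Nat.le_of_dvd (by norm_num) h'
    omega
  obtain ⟨x, y, z, w, ε, hε, h1, h2, h3, hxz, hyz, hxy, hw⟩ := FreyP.frey_roots P hq
  exact FreyP.frey_apply_P (ordOfSubring A) P hU hq2' hq4 σ.toAlgHom hσ'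
    x y z w ε hε h1 h2 h3 hxz hyz hxy hw T hT

end Fermat.Agent.S13
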