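import Mathlib
import Fermat.Agent.S05.EOne

/-!
# S13 WP-E: the kernel of reduction `E₁` without the hypothesis `ord 2 = 0`

Same statements as `Fermat/Agent/S05/EOne.lean`, but `2` is only assumed nonzero (so the
residue characteristic may be `2`).  In the duplication step the case `psiSq W x = 0` gives
`2T = 0`; otherwise `U = 4 + b₂ z + 2 b₄ z² + b₆ z³ ≠ 0` is integral, which is all that is needed.
-/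

set_option autoImplicit false

open WeierstrassCurve WeierstrassCurve.Affine

namespace Fermat.Agent.S13

open Fermat.Agent.S05 Fermat.Agent.S05.OrdData

namespace EOne2

variable {K : Type*} [Field K] {G : Type*} [AddCommGroup G] [LinearOrder G]
  [IsOrderedAddMonoid G] {V : OrdData K G} {W : Affine K}

/-- Valuation analysis of the duplication formula in the kernel of reduction, `2` arbitrary. -/
theorem E1_dbl (hb₂ : V.Ge W.b₂ 0) (hb₄ : V.Ge W.b₄ 0) (hb₆ : V.Ge W.b₆ 0) (hb₈ : V.Ge W.b₈ 0)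
    {z x' : K} (hz0 : z ≠ 0) (hz : 0 < V.ord z)
    (hU0 : 4 + (W.b₂ * z + 2 * W.b₄ * z * z + W.b₆ * z * z ^ 2) ≠ 0)
    (hd : x' * (4 * z + W.b₂ * z ^ 2 + 2 * W.b₄ * z ^ 3 + W.b₆ * z ^ 4) =
      1 - W.b₄ * z ^ 2 - 2 * W.b₆ * z ^ 3 - W.b₈ * z ^ 4) :
    x' ≠ 0 ∧ V.ord x' < 0 ∧ ∃ c, V.Ge c 0 ∧ x'⁻¹ - 4 * z = z ^ 2 * c := by
  have gz : V.Gt z 0 := gt_of_ne hz0 hz
  have i2 : V.Ge (2 : K) 0 := Ge.ofNat 2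
  obtain ⟨D, hDdef⟩ : ∃ D, D = 1 - W.b₄ * z ^ 2 - 2 * W.b₆ * z ^ 3 - W.b₈ * z ^ 4 := ⟨_, rfl⟩
  rw [← hDdef] at hd
  have hD : D ≠ 0 ∧ V.ord D = 0 := by
    have e : D = 1 + (-(W.b₄ * (z * z)) - 2 * W.b₆ * z * (z ^ 2) - W.b₈ * z * z ^ 3) := by
      rw [hDdef]; ring
    rw [e]
    refine unit_add one_ne_zero V.ord_one ?_
    refine Gt.sub (Gt.sub ?_ ?_) ?_
    · exact (Gt.mul_left0 hb₄ (Gt.mul_right0 gz gz.ge)).neg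
    · exact Gt.mul_right0 (Gt.mul_left0 (i2.mul0 hb₆) gz) (gz.ge.pow0 2)
    · exact Gt.mul_right0 (Gt.mul_left0 hb₈ gz) (gz.ge.pow0 3)
  obtain ⟨hD0, hDord⟩ := hD
  obtain ⟨U, hUdef⟩ : ∃ U, U = 4 + (W.b₂ * z + 2 * W.b₄ * z * z + W.b₆ * z * z ^ 2) := ⟨_, rfl⟩
  rw [← hUdef] at hU0
  have hUge : V.Ge U 0 := by
    rw [hUdef]
    refine Ge.add (Ge.ofNat 4) (Ge.add (Ge.add ?_ ?_) ?_)
    · exact hb₂.mul0 gz.ge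
    · exact ((i2.mul0 hb₄).mul0 gz.ge).mul0 gz.ge
    · exact (hb₆.mul0 gz.ge).mul0 (gz.ge.pow0 2)
  have hUord : 0 ≤ V.ord U := hUge.le hU0
  have hd' : x' * (z * U) = D := by rw [← hd, hUdef]; ring
  have hx' : x' ≠ 0 := by
    intro h; rw [h, zero_mul] at hd'; exact hD0 hd'.symm
  have hord : V.ord x' + (V.ord z + V.ord U) = 0 := by
    have := congrArg V.ord hd'
    rwa [V.ord_mul _ _ hx' (mul_ne_zero hz0 hU0), V.ord_mul _ _ hz0 hU0, hDord] at this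
  refine ⟨hx', by grind, (W.b₂ + 6 * W.b₄ * z + 9 * W.b₆ * z ^ 2 + 4 * W.b₈ * z ^ 3) / D, ?_, ?_⟩
  · refine Ge.div_unit ?_ hD0 hDord
    refine Ge.add (Ge.add (Ge.add hb₂ ?_) ?_) ?_
    · exact ((Ge.ofNat 6).mul0 hb₄).mul0 gz.ge
    · exact ((Ge.ofNat 9).mul0 hb₆).mul0 (gz.ge.pow0 2)
    · exact ((Ge.ofNat 4).mul0 hb₈).mul0 (gz.ge.pow0 3)
  · have e1 : x'⁻¹ = z * U / D := by
      rw [← hd']; field_simp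
    rw [e1]
    field_simp
    rw [hUdef, hDdef]
    ring

variable [DecidableEq K]

theorem E1_double (h2 : (2 : K) ≠ 0)
    (hb₂ : V.Ge W.b₂ 0) (hb₄ : V.Ge W.b₄ 0) (hb₆ : V.Ge W.b₆ 0) (hb₈ : V.Ge W.b₈ 0)
    (P : W.Point) (hP : inE1 V P) :
    inE1 V (P + P) ∧ ∃ c, V.Ge c 0 ∧
      (xOf (P + P))⁻¹ - 4 * (xOf P)⁻¹ = ((xOf P)⁻¹) ^ 2 * c := by
  rcases P with _ | ⟨x, y, h⟩
  · refine ⟨Or.inl rfl, 0, Ge.zero 0, ?_⟩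
    change (xOf ((0 : W.Point) + 0))⁻¹ - 4 * (xOf (0 : W.Point))⁻¹ = _
    simp
  · rcases hP with hP | ⟨hx0, hxord⟩
    · exact absurd hP (Point.some_ne_zero h)
    simp only [xOf_some] at hx0 hxord ⊢
    have hz0 : x⁻¹ ≠ 0 := inv_ne_zero hx0
    have hz : 0 < V.ord x⁻¹ := by rw [V.ord_inv hx0]; grind
    have gz : V.Gt x⁻¹ 0 := gt_of_ne hz0 hz
    have hpsiU : 4 + (W.b₂ * x⁻¹ + 2 * W.b₄ * x⁻¹ * x⁻¹ + W.b₆ * x⁻¹ * x⁻¹ ^ 2) =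
        psiSq W x * x⁻¹ ^ 3 := by
      simp only [psiSq]; field_simp; ring
    by_cases hpsi : psiSq W x = 0
    · rw [dbl_zero h hpsi]
      refine ⟨inE1_zero, W.b₂ + 2 * W.b₄ * x⁻¹ + W.b₆ * x⁻¹ ^ 2, ?_, ?_⟩
      · refine Ge.add (Ge.add hb₂ ?_) ?_
        · exact ((Ge.ofNat 2).mul0 hb₄).mul0 gz.ge
        · exact hb₆.mul0 (gz.ge.pow0 2)
      · rw [hpsi, zero_mul] at hpsiU
        simp only [xOf_zero, inv_zero, zero_sub]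
        linear_combination (-x⁻¹) * hpsiU
    · have key : ∀ x' : K, x' * psiSq W x = dblNum W x →
          x' * (4 * x⁻¹ + W.b₂ * x⁻¹ ^ 2 + 2 * W.b₄ * x⁻¹ ^ 3 + W.b₆ * x⁻¹ ^ 4) =
            1 - W.b₄ * x⁻¹ ^ 2 - 2 * W.b₆ * x⁻¹ ^ 3 - W.b₈ * x⁻¹ ^ 4 := by
        intro x' hx'
        simp only [psiSq, dblNum] at hx'
        field_simp
        linear_combination hx'
      have hU0 : 4 + (W.b₂ * x⁻¹ + 2 * W.b₄ * x⁻¹ * x⁻¹ + W.b₆ * x⁻¹ * x⁻¹ ^ 2) ≠ 0 := by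
        rw [hpsiU]
        exact mul_ne_zero hpsi (pow_ne_zero 3 hz0)
      obtain ⟨hne, hform⟩ := dbl_formula h2 h hpsi
      obtain ⟨hx'0, hx'ord, c, hc, hc'⟩ := E1_dbl hb₂ hb₄ hb₆ hb₈ hz0 hz hU0 (key _ hform)
      exact ⟨Or.inr ⟨hx'0, hx'ord⟩, c, hc, hc'⟩

end EOne2

section Abstract

variable {K : Type*} [Field K] [DecidableEq K] {G : Type*} [AddCommGroup G] [LinearOrder G]
  [IsOrderedAddMonoid G]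

open EOne2 in
theorem E1_add' (V : OrdData K G) (W : Affine K) (h2 : (2 : K) ≠ 0)
    (hb₂ : V.Ge W.b₂ 0) (hb₄ : V.Ge W.b₄ 0) (hb₆ : V.Ge W.b₆ 0) (hb₈ : V.Ge W.b₈ 0)
    (P Q : W.Point) (hP : inE1 V P) (hQ : inE1 V Q) :
    inE1 V (P + Q) ∧ inE1 V (P - Q) ∧ ∃ c, V.Ge c 0 ∧
      (xOf (P + Q))⁻¹ + (xOf (P - Q))⁻¹ - 2 * ((xOf P)⁻¹ + (xOf Q)⁻¹) =
        (xOf P)⁻¹ * (xOf Q)⁻¹ * c := by
  by_cases hP0 : P = 0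
  · subst hP0
    rw [zero_add, zero_sub]
    refine ⟨hQ, inE1_neg hQ, 0, Ge.zero 0, ?_⟩
    simp only [xOf_neg, xOf_zero, inv_zero]
    ring
  by_cases hQ0 : Q = 0
  · subst hQ0
    rw [add_zero, sub_zero]
    refine ⟨hP, hP, 0, Ge.zero 0, ?_⟩
    simp only [xOf_zero, inv_zero]
    ring
  obtain ⟨x₁, y₁, h₁, rfl⟩ := exists_of_ne_zero hP0
  obtain ⟨x₂, y₂, h₂, rfl⟩ := exists_of_ne_zero hQ0
  obtain ⟨hx₁0, hx₁⟩ := hP.resolve_left hP0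
  obtain ⟨hx₂0, hx₂⟩ := hQ.resolve_left hQ0
  simp only [xOf_some] at hx₁0 hx₁ hx₂0 hx₂ ⊢
  by_cases hx : x₁ = x₂
  · rcases (Point.X_eq_iff (h₁ := h₁) (h₂ := h₂)).mp hx with hPQ | hPQ
    · rw [hPQ, sub_self]
      obtain ⟨hd, c, hc, hc'⟩ := E1_double h2 hb₂ hb₄ hb₆ hb₈ (Point.some x₂ y₂ h₂) hQ
      refine ⟨hd, inE1_zero, c, hc, ?_⟩
      simp only [xOf_zero, inv_zero, xOf_some] at hc' ⊢
      rw [hx]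
      linear_combination hc'
    · rw [hPQ, neg_add_cancel]
      have e : -Point.some x₂ y₂ h₂ - Point.some x₂ y₂ h₂ =
          -(Point.some x₂ y₂ h₂ + Point.some x₂ y₂ h₂) := by abel
      rw [e]
      obtain ⟨hd, c, hc, hc'⟩ := E1_double h2 hb₂ hb₄ hb₆ hb₈ (Point.some x₂ y₂ h₂) hQ
      refine ⟨inE1_zero, inE1_neg hd, c, hc, ?_⟩
      simp only [xOf_zero, inv_zero, xOf_some, xOf_neg] at hc' ⊢
      rw [hx]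
      linear_combination hc'
  · obtain ⟨hp0, hm0, hK1, hK2⟩ := kummer_generic h2 h₁ h₂ hx
    generalize hxpdef : xOf (Point.some x₁ y₁ h₁ + Point.some x₂ y₂ h₂) = xp at hK1 hK2 ⊢
    generalize hxmdef : xOf (Point.some x₁ y₁ h₁ - Point.some x₂ y₂ h₂) = xm at hK1 hK2 ⊢
    have hz₁ : 0 < V.ord x₁⁻¹ := by rw [V.ord_inv hx₁0]; grind
    have hz₂ : 0 < V.ord x₂⁻¹ := by rw [V.ord_inv hx₂0]; grind
    have h1z : (x₂⁻¹ - x₁⁻¹) ^ 2 * (xp * xm) =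
        1 - W.b₄ * x₁⁻¹ * x₂⁻¹ - W.b₆ * x₁⁻¹ * x₂⁻¹ * (x₁⁻¹ + x₂⁻¹) -
          W.b₈ * x₁⁻¹ ^ 2 * x₂⁻¹ ^ 2 := by
      simp only [kumProd] at hK1
      field_simp
      linear_combination hK1
    have h2z : (x₂⁻¹ - x₁⁻¹) ^ 2 * (xp + xm) =
        2 * (x₁⁻¹ + x₂⁻¹) + W.b₂ * x₁⁻¹ * x₂⁻¹ + W.b₄ * x₁⁻¹ * x₂⁻¹ * (x₁⁻¹ + x₂⁻¹) +
          W.b₆ * x₁⁻¹ ^ 2 * x₂⁻¹ ^ 2 := by
      simp only [kumSum] at hK2
      field_simp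
      linear_combination hK2
    obtain ⟨hxp, hxpo, hxm, hxmo, c, hc, hc'⟩ := E1_pair hb₂ hb₄ hb₆ hb₈ (inv_ne_zero hx₁0) hz₁
      (inv_ne_zero hx₂0) hz₂ (fun h => hx (inv_injective h)) h1z h2z
    exact ⟨Or.inr ⟨by rw [hxpdef]; exact hxp, by rw [hxpdef]; exact hxpo⟩,
      Or.inr ⟨by rw [hxmdef]; exact hxm, by rw [hxmdef]; exact hxmo⟩, c, hc, hc'⟩

namespace EOne2

theorem E1_multiples (V : OrdData K G) (W : Affine K) (h2 : (2 : K) ≠ 0)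
    (hb₂ : V.Ge W.b₂ 0) (hb₄ : V.Ge W.b₄ 0) (hb₆ : V.Ge W.b₆ 0) (hb₈ : V.Ge W.b₈ 0)
    (T : W.Point) (hT : inE1 V T) (n : ℕ) :
    (inE1 V (n • T) ∧ ∃ c, V.Ge c 0 ∧
      (xOf (n • T))⁻¹ - (n : K) ^ 2 * (xOf T)⁻¹ = ((xOf T)⁻¹) ^ 2 * c) ∧
    (inE1 V ((n + 1) • T) ∧ ∃ c, V.Ge c 0 ∧
      (xOf ((n + 1) • T))⁻¹ - ((n + 1 : ℕ) : K) ^ 2 * (xOf T)⁻¹ = ((xOf T)⁻¹) ^ 2 * c) := by
  induction n with
  | zero =>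
    refine ⟨⟨by rw [zero_smul]; exact inE1_zero, 0, Ge.zero 0, ?_⟩,
      ⟨by rw [zero_add, one_smul]; exact hT, 0, Ge.zero 0, ?_⟩⟩
    · simp
    · simp
  | succ n ih =>
    obtain ⟨⟨hn, c₀, hc₀, e₀⟩, ⟨hn1, c₁, hc₁, e₁⟩⟩ := ih
    refine ⟨⟨hn1, c₁, hc₁, e₁⟩, ?_⟩
    obtain ⟨hadd, -, c, hc, e⟩ := E1_add' V W h2 hb₂ hb₄ hb₆ hb₈ ((n + 1) • T) T hn1 hT
    have e2 : (n + 1) • T + T = (n + 1 + 1) • T := (succ_nsmul T (n + 1)).symm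
    have e3 : (n + 1) • T - T = n • T := by rw [succ_nsmul, add_sub_cancel_right]
    rw [e2, e3] at e
    rw [e2] at hadd
    have hζ : V.Ge (xOf T)⁻¹ 0 := inE1_inv_ge hT
    refine ⟨hadd, -c₀ + 2 * c₁ + ((n + 1 : ℕ) : K) ^ 2 * c + (xOf T)⁻¹ * c₁ * c, ?_, ?_⟩
    · refine Ge.add (Ge.add (Ge.add hc₀.neg ((Ge.ofNat 2).mul0 hc₁)) ?_) ?_
      · exact ((Ge.natCast (n + 1)).pow0 2).mul0 hc
      · exact (hζ.mul0 hc₁).mul0 hc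
    · push_cast at e₀ e₁ e ⊢
      linear_combination e - e₀ + (2 + (xOf T)⁻¹ * c) * e₁

end EOne2

theorem E1_nsmul' (V : OrdData K G) (W : Affine K) (h2 : (2 : K) ≠ 0)
    (hb₂ : V.Ge W.b₂ 0) (hb₄ : V.Ge W.b₄ 0) (hb₆ : V.Ge W.b₆ 0) (hb₈ : V.Ge W.b₈ 0)
    (T : W.Point) (hT : inE1 V T) (n : ℕ) :
    inE1 V (n • T) ∧ ∃ c, V.Ge c 0 ∧
      (xOf (n • T))⁻¹ - (n : K) ^ 2 * (xOf T)⁻¹ = ((xOf T)⁻¹) ^ 2 * c :=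
  (EOne2.E1_multiples V W h2 hb₂ hb₄ hb₆ hb₈ T hT n).1

theorem E1_torsion' (V : OrdData K G) (W : Affine K) (h2 : (2 : K) ≠ 0)
    (hb₂ : V.Ge W.b₂ 0) (hb₄ : V.Ge W.b₄ 0) (hb₆ : V.Ge W.b₆ 0) (hb₈ : V.Ge W.b₈ 0)
    (T : W.Point) (hT : inE1 V T) (n : ℕ) (hn : (n : K) ≠ 0) (hnu : V.ord (n : K) = 0)
    (h : n • T = 0) : T = 0 := by
  by_contra hT0
  obtain ⟨hx0, hxord⟩ := hT.resolve_left hT0
  obtain ⟨-, c, hc, e⟩ := E1_nsmul' V W h2 hb₂ hb₄ hb₆ hb₈ T hT n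
  rw [h] at e
  simp only [xOf_zero, inv_zero, zero_sub] at e
  have hz0 : (xOf T)⁻¹ ≠ 0 := inv_ne_zero hx0
  have e' : -((n : K) ^ 2) = (xOf T)⁻¹ * c := by
    apply mul_left_cancel₀ hz0
    linear_combination e
  have h1 : V.ord (-((n : K) ^ 2)) = 0 := by
    rw [V.ord_neg, V.ord_pow hn, hnu, smul_zero]
  have hgt : V.Gt ((xOf T)⁻¹ * c) 0 :=
    Gt.mul_right0 (gt_of_ne hz0 (by rw [V.ord_inv hx0]; grind)) hc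
  rw [← e'] at hgt
  have := hgt.lt (neg_ne_zero.mpr (pow_ne_zero 2 hn))
  rw [h1] at this
  exact lt_irrefl _ this

theorem E1_ord_nsmul' (V : OrdData K G) (W : Affine K) (h2 : (2 : K) ≠ 0)
    (hb₂ : V.Ge W.b₂ 0) (hb₄ : V.Ge W.b₄ 0) (hb₆ : V.Ge W.b₆ 0) (hb₈ : V.Ge W.b₈ 0)
    (T : W.Point) (hT : inE1 V T) (hT0 : T ≠ 0) (n : ℕ) (hn : (n : K) ≠ 0)
    (hnu : V.ord (n : K) = 0) :
    n • T ≠ 0 ∧ xOf (n • T) ≠ 0 ∧ V.ord (xOf (n • T)) = V.ord (xOf T) := by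
  have hnT0 : n • T ≠ 0 := fun h => hT0 (E1_torsion' V W h2 hb₂ hb₄ hb₆ hb₈ T hT n hn hnu h)
  obtain ⟨hx0, hxord⟩ := hT.resolve_left hT0
  obtain ⟨hin, c, hc, e⟩ := E1_nsmul' V W h2 hb₂ hb₄ hb₆ hb₈ T hT n
  obtain ⟨hnx0, hnxord⟩ := hin.resolve_left hnT0
  refine ⟨hnT0, hnx0, ?_⟩
  have hz0 : (xOf T)⁻¹ ≠ 0 := inv_ne_zero hx0
  have hzpos : 0 < V.ord (xOf T)⁻¹ := by rw [V.ord_inv hx0]; grind
  have hn2 : ((n : K) ^ 2) ≠ 0 := pow_ne_zero 2 hn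
  have hn2u : V.ord ((n : K) ^ 2) = 0 := by rw [V.ord_pow hn, hnu, smul_zero]
  have hu : (n : K) ^ 2 + (xOf T)⁻¹ * c ≠ 0 ∧ V.ord ((n : K) ^ 2 + (xOf T)⁻¹ * c) = 0 :=
    unit_add hn2 hn2u (Gt.mul_right0 (gt_of_ne hz0 hzpos) hc)
  have e' : (xOf (n • T))⁻¹ = (xOf T)⁻¹ * ((n : K) ^ 2 + (xOf T)⁻¹ * c) := by
    linear_combination e
  have h1 := congrArg V.ord e'
  rw [V.ord_mul _ _ hz0 hu.1, hu.2, add_zero, V.ord_inv hnx0, V.ord_inv hx0] at h1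
  exact neg_injective h1

end Abstract

end Fermat.Agent.S13
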