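import Mathlib
import Fermat.Agent.S05.Iota

set_option autoImplicit false

/-!
# S13, work package T: generalized node tables

Adaptation of `Fermat/Agent/S05/Table.lean` and `Fermat/Agent/S05/Iota.lean` to a general node
of the reduction (Kummer forms `(u₁u₂ - κ)²` and `2u₁u₂(u₁+u₂) + c₂u₁u₂ + c₃(u₁+u₂)` in the
coordinate `u = x - ε`), with no hypothesis on `ord 2`.
-/

open WeierstrassCurve WeierstrassCurve.Affine

namespace Fermat.Agent.S13

open Fermat.Agent.S05 Fermat.Agent.S05.OrdData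

section Abstract

variable {K : Type*} [Field K] [DecidableEq K] {G : Type*} [AddCommGroup G] [LinearOrder G]
  [IsOrderedAddMonoid G]

/-- Kummer data at a node of the reduction: in the coordinate `u = x - ε` the Kummer forms are
`(u₁u₂ - κ)²` and `2u₁u₂(u₁+u₂) + c₂u₁u₂ + c₃(u₁+u₂)`, with `ord κ > 0`, `c₂` a unit and
`ord c₃ ≥ ord κ`. -/
structure NodeData (V : OrdData K G) (W : Affine K) where
  ε : K
  κ : K
  c₂ : K
  c₃ : K
  hprod : ∀ x₁ x₂ : K, kumProd W x₁ x₂ - ε * kumSum W x₁ x₂ + ε ^ 2 * (x₁ - x₂) ^ 2 =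
    ((x₁ - ε) * (x₂ - ε) - κ) ^ 2
  hsum : ∀ x₁ x₂ : K, kumSum W x₁ x₂ - 2 * ε * (x₁ - x₂) ^ 2 =
    2 * (x₁ - ε) * (x₂ - ε) * ((x₁ - ε) + (x₂ - ε)) + c₂ * (x₁ - ε) * (x₂ - ε) +
      c₃ * ((x₁ - ε) + (x₂ - ε))
  hε : V.Ge ε 0
  hκ0 : κ ≠ 0
  hκ : 0 < V.ord κ
  hc₂0 : c₂ ≠ 0
  hc₂ : V.ord c₂ = 0
  hc₃ : V.Ge c₃ (V.ord κ)

namespace NodeData

variable {V : OrdData K G} {W : Affine K}

/-- Points not reducing to the node (`ord (x - ε) ≤ 0`), together with the origin. -/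
def inE0 (D : NodeData V W) (P : W.Point) : Prop :=
  P = 0 ∨ (xOf P - D.ε ≠ 0 ∧ V.ord (xOf P - D.ε) ≤ 0)

end NodeData

end Abstract

/-! ### Helpers: the duplication forms in the coordinate `u` -/

namespace Node

section forms

variable {K : Type*} [Field K] {G : Type*} [AddCommGroup G] [LinearOrder G]
  [IsOrderedAddMonoid G] {V : OrdData K G} {W : Affine K}

lemma psiSq_eq (D : NodeData V W) (x : K) :
    psiSq W x = (x - D.ε) * (4 * (x - D.ε) ^ 2 + D.c₂ * (x - D.ε) + 2 * D.c₃) := by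
  have h := D.hsum x x
  simp only [kumSum] at h
  simp only [psiSq]
  linear_combination h

lemma dblNum_eq (D : NodeData V W) (x : K) :
    dblNum W x - D.ε * psiSq W x = ((x - D.ε) ^ 2 - D.κ) ^ 2 := by
  have h := D.hprod x x
  simp only [kumProd, kumSum] at h
  simp only [psiSq, dblNum]
  linear_combination h

end forms

/-! ### The valuation tables at a general node -/

section pure

variable {G : Type*} [AddCommGroup G] [LinearOrder G] [IsOrderedAddMonoid G]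

omit [IsOrderedAddMonoid G] in
lemma clamp_nonneg (μ g : G) : 0 ≤ clamp μ g := by
  unfold clamp; grind

omit [IsOrderedAddMonoid G] in
lemma clamp_le {μ : G} (hμ : 0 ≤ μ) (g : G) : clamp μ g ≤ μ := by
  unfold clamp; grind

omit [IsOrderedAddMonoid G] in
lemma clamp_eq_zero_iff {μ g : G} (hμ : 0 < μ) : clamp μ g = 0 ↔ g ≤ 0 := by
  unfold clamp
  rw [max_eq_left_iff, min_le_iff]
  exact ⟨fun h => h.resolve_right (not_le.mpr hμ), Or.inl⟩

/-- The purely order-theoretic core of `table_dbl` (no hypothesis on `ord 2`). -/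
theorem dbl_pure {a q e s μ : G} (hμ : 0 < μ)
    (hsum : s + (a + q) = 2 • e)
    (hq : min (2 • a) (min a μ) ≤ q) (hq' : 0 < a → a < μ → q = a)
    (he1 : 2 • a < μ → e = 2 • a) (he2 : μ < 2 • a → e = μ) (he3 : 2 • a = μ → μ ≤ e) :
    clamp μ s = 2 • clamp μ a ∨ clamp μ s = 2 • μ - 2 • clamp μ a := by
  have hμ0 : 0 ≤ μ := hμ.le
  rcases le_or_gt a 0 with ha0 | ha0
  · -- `a ≤ 0`
    have h1 : s ≤ 0 := by grind
    rw [Table.clamp_of_le hμ0 h1, Table.clamp_of_le hμ0 ha0]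
    left; simp
  rcases le_or_gt μ a with haμ | haμ
  · -- `μ ≤ a`
    have h1 : s ≤ 0 := by grind
    rw [Table.clamp_of_le hμ0 h1, Table.clamp_of_ge hμ0 haμ]
    right; simp
  -- `0 < a < μ`
  rw [Table.clamp_of_mem ha0.le haμ.le]
  have hq1 : q = a := hq' ha0 haμ
  rcases lt_trichotomy (2 • a) μ with h | h | h
  · left; exact (Table.clamp_of_mem (by grind) (by grind)).trans (by grind)
  · left; exact (Table.clamp_of_ge hμ0 (by grind)).trans (by grind)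
  · right; exact (Table.clamp_of_mem (by grind) (by grind)).trans (by grind)

end pure

section table

variable {K : Type*} [Field K] {G : Type*} [AddCommGroup G] [LinearOrder G]
  [IsOrderedAddMonoid G]

/-- `table_generic` under the extra assumption `ord u₁ ≤ ord u₂`. -/
theorem generic_le (V : OrdData K G) {κ c₂ c₃ u₁ u₂ up um : K} {μ : G}
    (hκ0 : κ ≠ 0) (hκ : V.ord κ = μ) (hμ : 0 < μ) (hc₂0 : c₂ ≠ 0) (hc₂ : V.ord c₂ = 0)
    (hc₃ : V.Ge c₃ μ)
    (hu₁ : u₁ ≠ 0) (hu₂ : u₂ ≠ 0) (hup : up ≠ 0) (hum : um ≠ 0) (hne : u₁ ≠ u₂)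
    (hK1 : (u₁ - u₂) ^ 2 * (up * um) = (u₁ * u₂ - κ) ^ 2)
    (hK2 : (u₁ - u₂) ^ 2 * (up + um) =
      2 * u₁ * u₂ * (u₁ + u₂) + c₂ * u₁ * u₂ + c₃ * (u₁ + u₂))
    (hab : V.ord u₁ ≤ V.ord u₂) :
    ((clamp μ (V.ord up) = clamp μ (V.ord u₁) + clamp μ (V.ord u₂) ∨
        clamp μ (V.ord up) = 2 • μ - clamp μ (V.ord u₁) - clamp μ (V.ord u₂)) ∧
      (clamp μ (V.ord um) = clamp μ (V.ord u₁) - clamp μ (V.ord u₂) ∨
        clamp μ (V.ord um) = clamp μ (V.ord u₂) - clamp μ (V.ord u₁))) ∨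
    ((clamp μ (V.ord um) = clamp μ (V.ord u₁) + clamp μ (V.ord u₂) ∨
        clamp μ (V.ord um) = 2 • μ - clamp μ (V.ord u₁) - clamp μ (V.ord u₂)) ∧
      (clamp μ (V.ord up) = clamp μ (V.ord u₁) - clamp μ (V.ord u₂) ∨
        clamp μ (V.ord up) = clamp μ (V.ord u₂) - clamp μ (V.ord u₁))) := by
  have hD0 : u₁ - u₂ ≠ 0 := sub_ne_zero.mpr hne
  have hD2 : (u₁ - u₂) ^ 2 ≠ 0 := pow_ne_zero 2 hD0
  have hpm : up * um ≠ 0 := mul_ne_zero hup hum
  have hE2 : (u₁ * u₂ - κ) ^ 2 ≠ 0 := by rw [← hK1]; exact mul_ne_zero hD2 hpm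
  have hE0 : u₁ * u₂ - κ ≠ 0 := fun h => hE2 (by rw [h]; ring)
  -- (f1)
  have hsum : 2 • V.ord (u₁ - u₂) + (V.ord up + V.ord um) = 2 • V.ord (u₁ * u₂ - κ) := by
    have := congrArg V.ord hK1
    rwa [V.ord_mul _ _ hD2 hpm, V.ord_pow hD0, V.ord_mul _ _ hup hum, V.ord_pow hE0] at this
  -- (f2)
  have g1 : V.Ge u₁ (V.ord u₁) := ge_of_ne hu₁ le_rfl
  have g2 : V.Ge u₂ (V.ord u₁) := ge_of_ne hu₂ hab
  have g2' : V.Ge u₂ (V.ord u₂) := ge_of_ne hu₂ le_rfl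
  have hd : V.ord u₁ ≤ V.ord (u₁ - u₂) := (Ge.sub g1 g2).le hD0
  have hd' : V.ord u₁ < V.ord u₂ → V.ord (u₁ - u₂) = V.ord u₁ := fun h =>
    (ord_sub_eq hu₁ (gt_of_ne hu₂ h)).2
  -- (f3)
  have h12 : u₁ * u₂ ≠ 0 := mul_ne_zero hu₁ hu₂
  have o12 : V.ord (u₁ * u₂) = V.ord u₁ + V.ord u₂ := V.ord_mul _ _ hu₁ hu₂
  have he1 : V.ord u₁ + V.ord u₂ < μ → V.ord (u₁ * u₂ - κ) = V.ord u₁ + V.ord u₂ :=
    fun h => (ord_sub_eq h12 (gt_of_ne hκ0 (by rw [o12, hκ]; exact h))).2.trans o12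
  have he2 : μ < V.ord u₁ + V.ord u₂ → V.ord (u₁ * u₂ - κ) = μ :=
    fun h => (ord_sub_eq' hκ0 (gt_of_ne h12 (by rw [o12, hκ]; exact h))).2.trans hκ
  have he3 : V.ord u₁ + V.ord u₂ = μ → μ ≤ V.ord (u₁ * u₂ - κ) := fun h =>
    (Ge.sub (ge_of_ne h12 (by rw [o12, h])) (ge_of_ne hκ0 (le_of_eq hκ.symm))).le hE0
  -- (f5)
  obtain ⟨N, hN⟩ : ∃ N, N = 2 * u₁ * u₂ * (u₁ + u₂) + c₂ * u₁ * u₂ + c₃ * (u₁ + u₂) :=
    ⟨_, rfl⟩
  rw [← hN] at hK2
  have hZ : N ≠ 0 → up + um ≠ 0 := fun h h' => h (by rw [← hK2, h', mul_zero])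
  have hZ' : up + um ≠ 0 → N ≠ 0 := fun h => by rw [← hK2]; exact mul_ne_zero hD2 h
  have hν : ¬ N = 0 → V.ord (up + um) + 2 • V.ord (u₁ - u₂) = V.ord N := fun h => by
    rw [← hK2, V.ord_mul _ _ hD2 (hZ h), V.ord_pow hD0, add_comm]
  -- (f4)
  have h4 : V.ord up ≠ V.ord um →
      ¬ N = 0 ∧ V.ord (up + um) = min (V.ord up) (V.ord um) := fun h =>
    ⟨hZ' (ord_add_of_ne hup hum h).1, (ord_add_of_ne hup hum h).2⟩
  have h4' : ¬ N = 0 → min (V.ord up) (V.ord um) ≤ V.ord (up + um) := fun h =>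
    V.ord_add _ _ hup hum (hZ h)
  -- (f6)
  have i2 : V.Ge (2 : K) 0 := Ge.ofNat 2
  have gc₂ : V.Ge c₂ 0 := ge_of_ne hc₂0 (le_of_eq hc₂.symm)
  have gs : V.Ge (u₁ + u₂) (V.ord u₁) := g1.add g2
  have t1 : V.Ge (2 * u₁ * u₂ * (u₁ + u₂)) (V.ord u₁ + V.ord u₂ + V.ord u₁) :=
    ((Ge.mul_left0 i2 g1).mul g2').mul gs
  have t2 : V.Ge (c₂ * u₁ * u₂) (V.ord u₁ + V.ord u₂) :=
    (Ge.mul_left0 gc₂ g1).mul g2'
  have t3 : V.Ge (c₃ * (u₁ + u₂)) (μ + V.ord u₁) := hc₃.mul gs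
  have h6 : V.Ge N (min (V.ord u₁ + V.ord u₂ + V.ord u₁)
      (min (V.ord u₁ + V.ord u₂) (μ + V.ord u₁))) := by
    rw [hN]
    exact Ge.add (Ge.add (t1.mono (min_le_left _ _))
      (t2.mono ((min_le_right _ _).trans (min_le_left _ _))))
      (t3.mono ((min_le_right _ _).trans (min_le_right _ _)))
  have h6' : 0 < V.ord u₁ → V.ord u₂ < μ → ¬ N = 0 ∧ V.ord N = V.ord u₁ + V.ord u₂ := by
    intro ha hb
    have hm2 : c₂ * u₁ ≠ 0 := mul_ne_zero hc₂0 hu₁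
    have hm : c₂ * u₁ * u₂ ≠ 0 := mul_ne_zero hm2 hu₂
    have om : V.ord (c₂ * u₁ * u₂) = V.ord u₁ + V.ord u₂ := by
      rw [V.ord_mul _ _ hm2 hu₂, V.ord_mul _ _ hc₂0 hu₁, hc₂, zero_add]
    have e : N = c₂ * u₁ * u₂ + (2 * u₁ * u₂ * (u₁ + u₂) + c₃ * (u₁ + u₂)) := by
      rw [hN]; ring
    have hgt : V.Gt (2 * u₁ * u₂ * (u₁ + u₂) + c₃ * (u₁ + u₂)) (V.ord (c₂ * u₁ * u₂)) := by
      rw [om]
      refine Gt.add ?_ ?_
      · exact t1.gt_of_lt (by grind)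
      · exact t3.gt_of_lt (by grind)
    have := ord_add_eq hm hgt
    rw [← e, om] at this
    exact this
  exact Table.pure_le hμ hab hsum hd hd' he1 he2 he3 hν h4 h4' h6 h6'

/-- **Valuation table at a node, generic case.**  The Kummer relations for `u(P ± Q)` determine
the truncated orders of `u(P + Q)`, `u(P - Q)` (up to swapping) from those of `u(P)`, `u(Q)`. -/
theorem table_generic (V : OrdData K G) {κ c₂ c₃ u₁ u₂ up um : K} {μ : G}
    (hκ0 : κ ≠ 0) (hκ : V.ord κ = μ) (hμ : 0 < μ) (hc₂0 : c₂ ≠ 0) (hc₂ : V.ord c₂ = 0)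
    (hc₃ : V.Ge c₃ μ)
    (hu₁ : u₁ ≠ 0) (hu₂ : u₂ ≠ 0) (hup : up ≠ 0) (hum : um ≠ 0) (hne : u₁ ≠ u₂)
    (hK1 : (u₁ - u₂) ^ 2 * (up * um) = (u₁ * u₂ - κ) ^ 2)
    (hK2 : (u₁ - u₂) ^ 2 * (up + um) =
      2 * u₁ * u₂ * (u₁ + u₂) + c₂ * u₁ * u₂ + c₃ * (u₁ + u₂)) :
    ((clamp μ (V.ord up) = clamp μ (V.ord u₁) + clamp μ (V.ord u₂) ∨
        clamp μ (V.ord up) = 2 • μ - clamp μ (V.ord u₁) - clamp μ (V.ord u₂)) ∧
      (clamp μ (V.ord um) = clamp μ (V.ord u₁) - clamp μ (V.ord u₂) ∨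
        clamp μ (V.ord um) = clamp μ (V.ord u₂) - clamp μ (V.ord u₁))) ∨
    ((clamp μ (V.ord um) = clamp μ (V.ord u₁) + clamp μ (V.ord u₂) ∨
        clamp μ (V.ord um) = 2 • μ - clamp μ (V.ord u₁) - clamp μ (V.ord u₂)) ∧
      (clamp μ (V.ord up) = clamp μ (V.ord u₁) - clamp μ (V.ord u₂) ∨
        clamp μ (V.ord up) = clamp μ (V.ord u₂) - clamp μ (V.ord u₁))) := by
  rcases le_total (V.ord u₁) (V.ord u₂) with hab | hab
  · exact generic_le V hκ0 hκ hμ hc₂0 hc₂ hc₃ hu₁ hu₂ hup hum hne hK1 hK2 hab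
  · have h := generic_le V hκ0 hκ hμ hc₂0 hc₂ hc₃ hu₂ hu₁ hup hum (Ne.symm hne)
      (by linear_combination hK1) (by linear_combination hK2) hab
    rw [add_comm (clamp μ (V.ord u₂)) (clamp μ (V.ord u₁)),
      sub_right_comm (2 • μ) (clamp μ (V.ord u₂)) (clamp μ (V.ord u₁))] at h
    exact h.imp (And.imp id Or.symm) (And.imp id Or.symm)

/-- **Valuation table at a node, duplication.**  The duplication formula determines the
truncated order of `u(2P)` from that of `u(P)`. -/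
theorem table_dbl (V : OrdData K G) {κ c₂ c₃ u u' : K} {μ : G}
    (hκ0 : κ ≠ 0) (hκ : V.ord κ = μ) (hμ : 0 < μ) (hc₂0 : c₂ ≠ 0) (hc₂ : V.ord c₂ = 0)
    (hc₃ : V.Ge c₃ μ) (hu : u ≠ 0) (hu' : u' ≠ 0)
    (hD : u' * (u * (4 * u ^ 2 + c₂ * u + 2 * c₃)) = (u ^ 2 - κ) ^ 2) :
    clamp μ (V.ord u') = 2 • clamp μ (V.ord u) ∨
      clamp μ (V.ord u') = 2 • μ - 2 • clamp μ (V.ord u) := by
  have hu2 : u ^ 2 ≠ 0 := pow_ne_zero 2 hu
  have ou2 : V.ord (u ^ 2) = 2 • V.ord u := V.ord_pow hu 2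
  -- the quadratic factor `q = 4u² + c₂u + 2c₃`
  have i4 : V.Ge (4 : K) 0 := Ge.ofNat 4
  have i2 : V.Ge (2 : K) 0 := Ge.ofNat 2
  have gu : V.Ge u (V.ord u) := ge_of_ne hu le_rfl
  have gc₂ : V.Ge c₂ 0 := ge_of_ne hc₂0 (le_of_eq hc₂.symm)
  have t1 : V.Ge (4 * u ^ 2) (2 • V.ord u) := Ge.mul_left0 i4 (gu.pow 2)
  have t3 : V.Ge (2 * c₃) μ := Ge.mul_left0 i2 hc₃
  have hcu : c₂ * u ≠ 0 := mul_ne_zero hc₂0 hu
  have ocu : V.ord (c₂ * u) = V.ord u := by rw [V.ord_mul _ _ hc₂0 hu, hc₂, zero_add]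
  have t2 : V.Ge (c₂ * u) (V.ord u) := ge_of_ne hcu (le_of_eq ocu.symm)
  have gq : V.Ge (4 * u ^ 2 + c₂ * u + 2 * c₃) (min (2 • V.ord u) (min (V.ord u) μ)) :=
    Ge.add (Ge.add (t1.mono (min_le_left _ _))
      (t2.mono ((min_le_right _ _).trans (min_le_left _ _))))
      (t3.mono ((min_le_right _ _).trans (min_le_right _ _)))
  have hq' : 0 < V.ord u → V.ord u < μ →
      4 * u ^ 2 + c₂ * u + 2 * c₃ ≠ 0 ∧ V.ord (4 * u ^ 2 + c₂ * u + 2 * c₃) = V.ord u := by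
    intro ha hb
    have e : 4 * u ^ 2 + c₂ * u + 2 * c₃ = c₂ * u + (4 * u ^ 2 + 2 * c₃) := by ring
    have hgt : V.Gt (4 * u ^ 2 + 2 * c₃) (V.ord (c₂ * u)) := by
      rw [ocu]
      refine Gt.add ?_ ?_
      · exact t1.gt_of_lt (by grind)
      · exact t3.gt_of_lt hb
    have := ord_add_eq hcu hgt
    rw [← e, ocu] at this
    exact this
  -- the numerator `u ^ 2 - κ`
  have he1 : 2 • V.ord u < μ → u ^ 2 - κ ≠ 0 ∧ V.ord (u ^ 2 - κ) = 2 • V.ord u := fun h => by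
    have := ord_sub_eq (V := V) hu2 (gt_of_ne hκ0 (by rw [ou2, hκ]; exact h))
    rwa [ou2] at this
  have he2 : μ < 2 • V.ord u → u ^ 2 - κ ≠ 0 ∧ V.ord (u ^ 2 - κ) = μ := fun h => by
    have := ord_sub_eq' (V := V) hκ0 (gt_of_ne hu2 (by rw [ou2, hκ]; exact h))
    rwa [hκ] at this
  have he3 : u ^ 2 - κ ≠ 0 → 2 • V.ord u = μ → μ ≤ V.ord (u ^ 2 - κ) := fun h0 h =>
    (Ge.sub (ge_of_ne hu2 (by rw [ou2, h])) (ge_of_ne hκ0 (le_of_eq hκ.symm))).le h0
  have hE : u ^ 2 - κ ≠ 0 := by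
    rcases lt_trichotomy (2 • V.ord u) μ with h | h | h
    · exact (he1 h).1
    · have ha0 : 0 < V.ord u := by grind
      have haμ : V.ord u < μ := by grind
      intro hE0
      rw [hE0] at hD
      have hne : u' * (u * (4 * u ^ 2 + c₂ * u + 2 * c₃)) ≠ 0 :=
        mul_ne_zero hu' (mul_ne_zero hu (hq' ha0 haμ).1)
      exact hne (by rw [hD]; ring)
    · exact (he2 h).1
  have hq0 : 4 * u ^ 2 + c₂ * u + 2 * c₃ ≠ 0 := by
    intro h
    rw [h, mul_zero, mul_zero] at hD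
    exact pow_ne_zero 2 hE hD.symm
  have hsum : V.ord u' + (V.ord u + V.ord (4 * u ^ 2 + c₂ * u + 2 * c₃)) =
      2 • V.ord (u ^ 2 - κ) := by
    have := congrArg V.ord hD
    rwa [V.ord_mul _ _ hu' (mul_ne_zero hu hq0), V.ord_mul _ _ hu hq0, V.ord_pow hE] at this
  exact dbl_pure hμ hsum (gq.le hq0) (fun h h' => (hq' h h').2)
    (fun h => (he1 h).2) (fun h => (he2 h).2) (he3 hE)

end table

end Node

section Abstract

variable {K : Type*} [Field K] [DecidableEq K] {G : Type*} [AddCommGroup G] [LinearOrder G]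
  [IsOrderedAddMonoid G]

namespace NodeData

variable {V : OrdData K G} {W : Affine K}

theorem u_ne_zero (D : NodeData V W) {p : ℕ} (hp : Odd p) {S : W.Point} (hS0 : S ≠ 0)
    (hS : p • S = 0) : xOf S - D.ε ≠ 0 := by
  intro hu
  obtain ⟨x, y, h, rfl⟩ := Iota.exists_some hS0
  rw [xOf_some] at hu
  have hpsi : psiSq W x = 0 := by
    rw [Node.psiSq_eq D, hu, zero_mul]
  exact Iota.add_self_ne_zero hp hS0 hS (dbl_zero h hpsi)

theorem inE0_neg (D : NodeData V W) {P : W.Point} (hP : D.inE0 P) : D.inE0 (-P) := by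
  rcases hP with rfl | h
  · left; simp
  · right; rwa [xOf_neg]

end NodeData

end Abstract

/-! ### Point-level tables and the component class -/

namespace Node

section cls

variable {K : Type*} [Field K] [DecidableEq K] {G : Type*} [AddCommGroup G] [LinearOrder G]
  [IsOrderedAddMonoid G] {V : OrdData K G} {W : Affine K}

/-- The clamp-level table for the sum and difference of two odd-torsion points with distinct
`x`-coordinates. -/
lemma table_generic_pt (D : NodeData V W) (h2 : (2 : K) ≠ 0) {p : ℕ} (hp : Odd p)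
    {P R : W.Point} (hP0 : P ≠ 0) (hR0 : R ≠ 0) (hP : p • P = 0) (hR : p • R = 0)
    (hx : xOf P ≠ xOf R) :
    P + R ≠ 0 ∧ P - R ≠ 0 ∧
    (((clamp (V.ord D.κ) (V.ord (xOf (P + R) - D.ε)) =
          clamp (V.ord D.κ) (V.ord (xOf P - D.ε)) + clamp (V.ord D.κ) (V.ord (xOf R - D.ε)) ∨
        clamp (V.ord D.κ) (V.ord (xOf (P + R) - D.ε)) =
          2 • V.ord D.κ - clamp (V.ord D.κ) (V.ord (xOf P - D.ε)) -
            clamp (V.ord D.κ) (V.ord (xOf R - D.ε))) ∧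
      (clamp (V.ord D.κ) (V.ord (xOf (P - R) - D.ε)) =
          clamp (V.ord D.κ) (V.ord (xOf P - D.ε)) - clamp (V.ord D.κ) (V.ord (xOf R - D.ε)) ∨
        clamp (V.ord D.κ) (V.ord (xOf (P - R) - D.ε)) =
          clamp (V.ord D.κ) (V.ord (xOf R - D.ε)) - clamp (V.ord D.κ) (V.ord (xOf P - D.ε)))) ∨
    ((clamp (V.ord D.κ) (V.ord (xOf (P - R) - D.ε)) =
          clamp (V.ord D.κ) (V.ord (xOf P - D.ε)) + clamp (V.ord D.κ) (V.ord (xOf R - D.ε)) ∨
        clamp (V.ord D.κ) (V.ord (xOf (P - R) - D.ε)) =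
          2 • V.ord D.κ - clamp (V.ord D.κ) (V.ord (xOf P - D.ε)) -
            clamp (V.ord D.κ) (V.ord (xOf R - D.ε))) ∧
      (clamp (V.ord D.κ) (V.ord (xOf (P + R) - D.ε)) =
          clamp (V.ord D.κ) (V.ord (xOf P - D.ε)) - clamp (V.ord D.κ) (V.ord (xOf R - D.ε)) ∨
        clamp (V.ord D.κ) (V.ord (xOf (P + R) - D.ε)) =
          clamp (V.ord D.κ) (V.ord (xOf R - D.ε)) -
            clamp (V.ord D.κ) (V.ord (xOf P - D.ε))))) := by
  have hPR : p • (P + R) = 0 := by rw [smul_add, hP, hR, add_zero]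
  have hPR' : p • (P - R) = 0 := by rw [smul_sub, hP, hR, sub_zero]
  obtain ⟨x₁, y₁, h₁, rfl⟩ := Iota.exists_some hP0
  obtain ⟨x₂, y₂, h₂, rfl⟩ := Iota.exists_some hR0
  simp only [xOf_some] at hx
  obtain ⟨hp0, hm0, hK1, hK2⟩ := kummer_generic h2 h₁ h₂ hx
  have hu₁ := D.u_ne_zero hp hP0 hP
  have hu₂ := D.u_ne_zero hp hR0 hR
  have hup := D.u_ne_zero hp hp0 hPR
  have hum := D.u_ne_zero hp hm0 hPR'
  refine ⟨hp0, hm0, ?_⟩
  simp only [xOf_some] at hu₁ hu₂ ⊢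
  generalize xOf (Point.some x₁ y₁ h₁ + Point.some x₂ y₂ h₂) = xp at hK1 hK2 hup ⊢
  generalize xOf (Point.some x₁ y₁ h₁ - Point.some x₂ y₂ h₂) = xm at hK1 hK2 hum ⊢
  have hne : x₁ - D.ε ≠ x₂ - D.ε := fun h => hx (sub_left_injective h)
  have hK1' : ((x₁ - D.ε) - (x₂ - D.ε)) ^ 2 * ((xp - D.ε) * (xm - D.ε)) =
      ((x₁ - D.ε) * (x₂ - D.ε) - D.κ) ^ 2 := by
    linear_combination hK1 - D.ε * hK2 + D.hprod x₁ x₂
  have hK2' : ((x₁ - D.ε) - (x₂ - D.ε)) ^ 2 * ((xp - D.ε) + (xm - D.ε)) =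
      2 * (x₁ - D.ε) * (x₂ - D.ε) * ((x₁ - D.ε) + (x₂ - D.ε)) +
        D.c₂ * (x₁ - D.ε) * (x₂ - D.ε) + D.c₃ * ((x₁ - D.ε) + (x₂ - D.ε)) := by
    linear_combination hK2 + D.hsum x₁ x₂
  exact table_generic V D.hκ0 rfl D.hκ D.hc₂0 D.hc₂ D.hc₃ hu₁ hu₂ hup hum hne hK1' hK2'

/-- The clamp-level table for the double of an odd-torsion point. -/
lemma table_dbl_pt (D : NodeData V W) (h2 : (2 : K) ≠ 0) {p : ℕ} (hp : Odd p)
    {S : W.Point} (hS0 : S ≠ 0) (hS : p • S = 0) :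
    S + S ≠ 0 ∧
    (clamp (V.ord D.κ) (V.ord (xOf (S + S) - D.ε)) =
        2 • clamp (V.ord D.κ) (V.ord (xOf S - D.ε)) ∨
      clamp (V.ord D.κ) (V.ord (xOf (S + S) - D.ε)) =
        2 • V.ord D.κ - 2 • clamp (V.ord D.κ) (V.ord (xOf S - D.ε))) := by
  have hSS : p • (S + S) = 0 := by rw [smul_add, hS, add_zero]
  have hSS0 := Iota.add_self_ne_zero hp hS0 hS
  have hu := D.u_ne_zero hp hS0 hS
  have hu' := D.u_ne_zero hp hSS0 hSS
  refine ⟨hSS0, ?_⟩
  obtain ⟨x, y, h, rfl⟩ := Iota.exists_some hS0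
  simp only [xOf_some] at hu ⊢
  have hpsi : psiSq W x ≠ 0 := by
    intro hpsi
    exact hSS0 (dbl_zero h hpsi)
  obtain ⟨-, hform⟩ := dbl_formula h2 h hpsi
  generalize xOf (Point.some x y h + Point.some x y h) = x' at hform hu' ⊢
  have hD : (x' - D.ε) * ((x - D.ε) * (4 * (x - D.ε) ^ 2 + D.c₂ * (x - D.ε) + 2 * D.c₃)) =
      ((x - D.ε) ^ 2 - D.κ) ^ 2 := by
    rw [← psiSq_eq D, ← dblNum_eq D]
    linear_combination hform
  exact table_dbl V D.hκ0 rfl D.hκ D.hc₂0 D.hc₂ D.hc₃ hu hu' hD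

/-- The class of the component of a point, modulo `2 ord κ`. -/
def comp (D : NodeData V W) (S : W.Point) : G ⧸ AddSubgroup.zmultiples (2 • V.ord D.κ) :=
  Iota.cls (V.ord D.κ) (Iota.iota V D.ε (V.ord D.κ) S)

omit [DecidableEq K] in
lemma comp_zero (D : NodeData V W) : comp D (0 : W.Point) = 0 := rfl

omit [DecidableEq K] in
lemma comp_neg (D : NodeData V W) (S : W.Point) : comp D (-S) = comp D S := by
  unfold comp; rw [Iota.iota_neg]

omit [DecidableEq K] in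
lemma comp_of_ne_zero (D : NodeData V W) {S : W.Point} (hS : S ≠ 0) :
    comp D S = Iota.cls (V.ord D.κ) (clamp (V.ord D.κ) (V.ord (xOf S - D.ε))) := by
  unfold comp; rw [Iota.iota_of_ne_zero V D.ε _ hS]

lemma table_generic_cls (D : NodeData V W) (h2 : (2 : K) ≠ 0) {p : ℕ} (hp : Odd p)
    {P R : W.Point} (hP0 : P ≠ 0) (hR0 : R ≠ 0) (hP : p • P = 0) (hR : p • R = 0)
    (hx : xOf P ≠ xOf R) :
    (Iota.PM (comp D (P + R)) (comp D P + comp D R) ∧
        Iota.PM (comp D (P - R)) (comp D P - comp D R)) ∨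
      (Iota.PM (comp D (P - R)) (comp D P + comp D R) ∧
        Iota.PM (comp D (P + R)) (comp D P - comp D R)) := by
  obtain ⟨hp0, hm0, htab⟩ := table_generic_pt D h2 hp hP0 hR0 hP hR hx
  rw [comp_of_ne_zero D hP0, comp_of_ne_zero D hR0, comp_of_ne_zero D hp0,
    comp_of_ne_zero D hm0]
  rcases htab with ⟨t1, t2⟩ | ⟨t1, t2⟩
  · exact Or.inl ⟨Iota.pm_add t1, Iota.pm_sub t2⟩
  · exact Or.inr ⟨Iota.pm_add t1, Iota.pm_sub t2⟩

lemma table_dbl_cls (D : NodeData V W) (h2 : (2 : K) ≠ 0) {p : ℕ} (hp : Odd p)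
    {S : W.Point} (hS0 : S ≠ 0) (hS : p • S = 0) :
    Iota.PM (comp D (S + S)) (2 • comp D S) := by
  obtain ⟨hSS0, htab⟩ := table_dbl_pt D h2 hp hS0 hS
  rw [comp_of_ne_zero D hS0, comp_of_ne_zero D hSS0]
  exact Iota.pm_two htab

theorem multiples (D : NodeData V W) (h2 : (2 : K) ≠ 0) {p : ℕ} (hp : Odd p)
    (T : W.Point) (hT0 : T ≠ 0) (hT : p • T = 0) (n : ℕ) :
    Iota.PM (comp D (n • T)) (n • comp D T) ∧
      Iota.PM (comp D ((n + 1) • T)) ((n + 1) • comp D T) := by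
  induction n with
  | zero =>
    refine ⟨?_, ?_⟩
    · rw [zero_smul, zero_smul]; exact Iota.PM.refl _
    · rw [zero_add, one_smul, one_smul]; exact Iota.PM.refl _
  | succ n ih =>
    obtain ⟨ih0, ih1⟩ := ih
    refine ⟨ih1, ?_⟩
    have hPp : p • ((n + 1) • T) = 0 := by rw [smul_comm, hT, smul_zero]
    have eadd : (n + 1 + 1) • T = (n + 1) • T + T := succ_nsmul T (n + 1)
    have esub : (n + 1) • T - T = n • T := by rw [succ_nsmul T n, add_sub_cancel_right]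
    by_cases hP0 : (n + 1) • T = 0
    · -- `(n+1)T = 0`
      rw [hP0, comp_zero] at ih1
      rw [eadd, hP0, zero_add]
      exact Iota.PM.step_zero ih1
    by_cases hx : xOf ((n + 1) • T) = xOf T
    · have hdbl := table_dbl_cls D h2 hp hT0 hT
      rcases Iota.eq_or_eq_neg_of_xOf_eq hP0 hT0 hx with hPT | hPT
      · -- `(n+1)T = T`
        have hn0 : n • T = 0 := by rw [← esub, hPT, sub_self]
        rw [hn0, comp_zero] at ih0
        rw [eadd, hPT]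
        exact Iota.PM.step_eq ih0 hdbl
      · -- `(n+1)T = -T`
        have hn0 : n • T = -(T + T) := by rw [← esub, hPT]; abel
        rw [hn0, comp_neg] at ih0
        rw [hPT, comp_neg] at ih1
        rw [eadd, hPT, neg_add_cancel, comp_zero]
        exact Iota.PM.step_neg ih0 ih1 hdbl
    · have htab := table_generic_cls D h2 hp hP0 hT0 hPp hT hx
      rw [esub] at htab
      rw [eadd]
      exact Iota.PM.step_generic ih0 ih1 htab

/-- A point whose component class vanishes lies in `E₀`. -/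
lemma inE0_of_comp_eq_zero (D : NodeData V W) {p : ℕ} (hp : Odd p) {S : W.Point}
    (hS : p • S = 0) (h : comp D S = 0) : D.inE0 S := by
  by_cases hS0 : S = 0
  · exact Or.inl hS0
  refine Or.inr ⟨D.u_ne_zero hp hS0 hS, ?_⟩
  rw [comp_of_ne_zero D hS0, Iota.cls, QuotientAddGroup.eq_zero_iff,
    AddSubgroup.mem_zmultiples_iff] at h
  obtain ⟨j, hj⟩ := h
  have h0 := clamp_nonneg (V.ord D.κ) (V.ord (xOf S - D.ε))
  have h1 := clamp_le D.hκ.le (V.ord (xOf S - D.ε))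
  have hμ := D.hκ
  rw [← hj] at h0 h1
  have hj0 : j = 0 := by
    by_contra hj0
    rcases lt_or_gt_of_ne hj0 with h | h
    · have := zsmul_pos (show 0 < 2 • V.ord D.κ by positivity) (neg_pos.mpr h)
      rw [neg_smul] at this
      grind
    · have := zsmul_le_zsmul_left (show 0 ≤ 2 • V.ord D.κ by positivity) (show 1 ≤ j by omega)
      rw [one_smul] at this
      grind
  rw [hj0, zero_smul] at hj
  exact (clamp_eq_zero_iff D.hκ).mp hj.symm

end cls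

section cyclic

variable {G : Type*} [AddCommGroup G] [LinearOrder G] [IsOrderedAddMonoid G]

/-- The `p`-torsion of `G ⧸ ℤ m` is cyclic (generated by any of its nonzero elements) when `G`
is a linearly ordered group. -/
lemma quot_cyclic {m : G} {p : ℕ} (hp : p.Prime) (x y : G ⧸ AddSubgroup.zmultiples m)
    (hx : p • x = 0) (hy : p • y = 0) (hx0 : x ≠ 0) : ∃ n : ℕ, y = n • x := by
  induction x using QuotientAddGroup.induction_on with | H a => ?_
  induction y using QuotientAddGroup.induction_on with | H b => ?_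
  rw [← QuotientAddGroup.mk_nsmul, QuotientAddGroup.eq_zero_iff,
    AddSubgroup.mem_zmultiples_iff] at hx hy
  obtain ⟨k, hk⟩ := hx
  obtain ⟨k', hk'⟩ := hy
  have hp0 : p ≠ 0 := hp.ne_zero
  have hpk : ¬ (p : ℤ) ∣ k := by
    rintro ⟨j, rfl⟩
    apply hx0
    rw [QuotientAddGroup.eq_zero_iff, AddSubgroup.mem_zmultiples_iff]
    refine ⟨j, ?_⟩
    apply nsmul_right_injective hp0
    simp only
    rw [← hk, mul_smul, natCast_zsmul]
  have := Fact.mk hp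
  have hk0 : (k : ZMod p) ≠ 0 := by rwa [Ne, ZMod.intCast_zmod_eq_zero_iff_dvd]
  obtain ⟨n, hn⟩ : ∃ n : ℕ, (n : ZMod p) = (k' : ZMod p) * (k : ZMod p)⁻¹ :=
    ⟨((k' : ZMod p) * (k : ZMod p)⁻¹).val, ZMod.natCast_zmod_val _⟩
  have hdvd : (p : ℤ) ∣ (n : ℤ) * k - k' := by
    rw [← ZMod.intCast_zmod_eq_zero_iff_dvd]
    push_cast
    rw [hn, mul_assoc, inv_mul_cancel₀ hk0, mul_one, sub_self]
  obtain ⟨j, hj⟩ := hdvd
  refine ⟨n, ?_⟩
  rw [← QuotientAddGroup.mk_nsmul, eq_comm, QuotientAddGroup.eq,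
    AddSubgroup.mem_zmultiples_iff]
  refine ⟨-j, ?_⟩
  apply nsmul_right_injective hp0
  simp only
  have e1 : p • (-(n • a) + b) = -(n • (p • a)) + p • b := by
    rw [smul_add, smul_neg, smul_comm]
  rw [e1, ← hk, ← hk', ← natCast_zsmul, ← mul_smul, ← natCast_zsmul (k • m) n, ← mul_smul,
    ← neg_smul, ← add_smul]
  congr 1
  linear_combination hj

end cyclic

end Node

section Abstract

variable {K : Type*} [Field K] [DecidableEq K] {G : Type*} [AddCommGroup G] [LinearOrder G]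
  [IsOrderedAddMonoid G]

namespace NodeData

variable {V : OrdData K G} {W : Affine K}

theorem iota_torsion (D : NodeData V W) (h2 : (2 : K) ≠ 0) {p : ℕ} (hp : Odd p) {T : W.Point}
    (hT0 : T ≠ 0) (hT : p • T = 0) :
    ∃ k : ℤ, p • clamp (V.ord D.κ) (V.ord (xOf T - D.ε)) = k • (2 • V.ord D.κ) := by
  have h := (Node.multiples D h2 hp T hT0 hT p).1
  rw [hT, Node.comp_zero, Node.comp_of_ne_zero D hT0] at h
  have h' := h.zero_left
  have h'' : Iota.cls (V.ord D.κ) (p • clamp (V.ord D.κ) (V.ord (xOf T - D.ε))) = 0 := h'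
  rw [Iota.cls, QuotientAddGroup.eq_zero_iff, AddSubgroup.mem_zmultiples_iff] at h''
  obtain ⟨k, hk⟩ := h''
  exact ⟨k, hk.symm⟩

/-- Odd torsion points never have `ord u ≥ ord κ`. -/
theorem ord_u_lt (D : NodeData V W) (h2 : (2 : K) ≠ 0) {p : ℕ} (hp : Odd p) {S : W.Point}
    (hS0 : S ≠ 0) (hS : p • S = 0) : V.ord (xOf S - D.ε) < V.ord D.κ := by
  by_contra hge
  rw [not_lt] at hge
  obtain ⟨k, hk⟩ := D.iota_torsion h2 hp hS0 hS
  rw [Table.clamp_of_ge D.hκ.le hge] at hk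
  have hz : ((p : ℤ) - 2 * k) • V.ord D.κ = 0 := by
    rw [sub_smul, natCast_zsmul, hk, mul_comm, mul_smul, ofNat_zsmul, sub_self]
  have hne : (p : ℤ) - 2 * k ≠ 0 := by
    obtain ⟨m, rfl⟩ := hp
    push_cast
    omega
  have h0 : V.ord D.κ = 0 := zsmul_right_injective hne
    (show ((p : ℤ) - 2 * k) • V.ord D.κ = ((p : ℤ) - 2 * k) • (0 : G) by rw [hz, smul_zero])
  exact absurd h0 D.hκ.ne'

theorem inE0_add (D : NodeData V W) (h2 : (2 : K) ≠ 0) {p : ℕ} (hp : Odd p) {P R : W.Point}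
    (hP : p • P = 0) (hR : p • R = 0) (hP0 : D.inE0 P) (hR0 : D.inE0 R) : D.inE0 (P + R) := by
  by_cases hP' : P = 0
  · rw [hP', zero_add]; exact hR0
  by_cases hR' : R = 0
  · rw [hR', add_zero]; exact hP0
  by_cases hPR0 : P + R = 0
  · exact Or.inl hPR0
  have hPR : p • (P + R) = 0 := by rw [smul_add, hP, hR, add_zero]
  refine Or.inr ⟨D.u_ne_zero hp hPR0 hPR, ?_⟩
  have ha := (hP0.resolve_left hP').2
  have hb := (hR0.resolve_left hR').2
  have hμ := D.hκ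
  have hca := Table.clamp_of_le hμ.le ha
  have hcb := Table.clamp_of_le hμ.le hb
  have hle := Node.clamp_le hμ.le (V.ord (xOf (P + R) - D.ε))
  rw [← Node.clamp_eq_zero_iff hμ]
  by_cases hx : xOf P = xOf R
  · rcases Iota.eq_or_eq_neg_of_xOf_eq hP' hR' hx with h | h
    · subst h
      obtain ⟨-, htab⟩ := Node.table_dbl_pt D h2 hp hP' hP
      rw [hca] at htab
      grind
    · exact absurd (by rw [h, neg_add_cancel]) hPR0
  · obtain ⟨-, -, htab⟩ := Node.table_generic_pt D h2 hp hP' hR' hP hR hx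
    rw [hca, hcb] at htab
    grind

theorem inE0_nsmul (D : NodeData V W) (h2 : (2 : K) ≠ 0) {p : ℕ} (hp : Odd p) {P : W.Point}
    (hP : p • P = 0) (hP0 : D.inE0 P) (n : ℕ) : D.inE0 (n • P) := by
  induction n with
  | zero => left; simp
  | succ n ih =>
    rw [succ_nsmul]
    exact D.inE0_add h2 hp (by rw [smul_comm, hP, smul_zero]) hP ih hP0

/-- (β) Modulo `E₀` the `p`-torsion is cyclic: if `T ∉ E₀` then every `p`-torsion point is
congruent to a multiple of `T` modulo `E₀`. -/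
theorem exists_sub_nsmul_inE0 (D : NodeData V W) (h2 : (2 : K) ≠ 0) {p : ℕ} (hp : p.Prime)
    (hp2 : p ≠ 2) {T T' : W.Point} (hT : p • T = 0) (hT' : p • T' = 0) (hTE : ¬ D.inE0 T) :
    ∃ k : ℕ, D.inE0 (T' - k • T) := by
  have hodd : Odd p := hp.odd_of_ne_two hp2
  have hT0 : T ≠ 0 := fun h => hTE (Or.inl h)
  by_cases hT'0 : T' = 0
  · exact ⟨0, by rw [hT'0, zero_smul, sub_zero]; exact Or.inl rfl⟩
  have hcT : p • Node.comp D T = 0 := by
    have h := (Node.multiples D h2 hodd T hT0 hT p).1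
    rw [hT, Node.comp_zero] at h
    exact h.zero_left
  have hcT' : p • Node.comp D T' = 0 := by
    have h := (Node.multiples D h2 hodd T' hT'0 hT' p).1
    rw [hT', Node.comp_zero] at h
    exact h.zero_left
  have hcT0 : Node.comp D T ≠ 0 := fun h => hTE (Node.inE0_of_comp_eq_zero D hodd hT h)
  obtain ⟨n, hn⟩ := Node.quot_cyclic hp (Node.comp D T) (Node.comp D T') hcT hcT' hcT0
  have hm := (Node.multiples D h2 hodd T hT0 hT n).1
  rw [← hn] at hm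
  have hnT : p • (n • T) = 0 := by rw [smul_comm, hT, smul_zero]
  -- `-(n • T)` is a natural multiple of `T`
  have hneg : ((p - 1) * n) • T = -(n • T) := by
    have e : (p - 1) • (n • T) + n • T = p • (n • T) := by
      rw [← succ_nsmul, Nat.sub_add_cancel hp.pos]
    rw [mul_smul]
    exact eq_neg_of_add_eq_zero_left (by rw [e, hnT])
  by_cases hnT0 : n • T = 0
  · refine ⟨0, ?_⟩
    rw [zero_smul, sub_zero]
    rw [hnT0, Node.comp_zero] at hm
    exact Node.inE0_of_comp_eq_zero D hodd hT' hm.zero_left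
  by_cases hx : xOf T' = xOf (n • T)
  · rcases Iota.eq_or_eq_neg_of_xOf_eq hT'0 hnT0 hx with h | h
    · exact ⟨n, Or.inl (by rw [h, sub_self])⟩
    · exact ⟨(p - 1) * n, Or.inl (by rw [hneg, h, sub_self])⟩
  · have htab := Node.table_generic_cls D h2 hodd hT'0 hnT0 hT' hnT hx
    have hsub : p • (T' - n • T) = 0 := by rw [smul_sub, hT', hnT, sub_zero]
    have hadd : p • (T' + n • T) = 0 := by rw [smul_add, hT', hnT, add_zero]
    have pm0 : ∀ {a : G ⧸ AddSubgroup.zmultiples (2 • V.ord D.κ)}, Iota.PM a 0 → a = 0 := by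
      intro a h
      rcases h with h | h
      · exact h
      · rw [h, neg_zero]
    have key : Node.comp D (T' - n • T) = 0 ∨ Node.comp D (T' + n • T) = 0 := by
      rcases hm with hm | hm
      · -- `comp (nT) = comp T'`
        rw [hm, sub_self] at htab
        rcases htab with ⟨-, h⟩ | ⟨-, h⟩
        · exact Or.inl (pm0 h)
        · exact Or.inr (pm0 h)
      · -- `comp (nT) = - comp T'`
        rw [hm, add_neg_cancel] at htab
        rcases htab with ⟨h, -⟩ | ⟨h, -⟩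
        · exact Or.inr (pm0 h)
        · exact Or.inl (pm0 h)
    rcases key with h | h
    · exact ⟨n, Node.inE0_of_comp_eq_zero D hodd hsub h⟩
    · refine ⟨(p - 1) * n, ?_⟩
      rw [hneg, sub_neg_eq_add]
      exact Node.inE0_of_comp_eq_zero D hodd hadd h

end NodeData

end Abstract

end Fermat.Agent.S13
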