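import Mathlib
import Fermat.Agent.S13.Node
import Fermat.Agent.S13.EOne2

set_option autoImplicit false

/-!
# S13, WP-A: the `p`-torsion inside `E₀` is cyclic

For a node datum `D` (Kummer relations in the coordinate `u = x - ε`), the invariant
`v(T) = 2 + c₂ / u(T)` (`v(0) = 2`) satisfies `v(P + R) + v(P - R) ≡ v(P) v(R)` modulo the
maximal ideal, for `p`-torsion points of `E₀` (`p` a unit).  Writing `v(T) = t + t⁻¹`, we get
`v(nT) ≡ tⁿ + t⁻ⁿ`, and `v` is injective up to sign modulo the maximal ideal.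
-/

open WeierstrassCurve WeierstrassCurve.Affine

namespace Fermat.Agent.S13

open Fermat.Agent.S05 Fermat.Agent.S05.OrdData

namespace Alpha

section Val

variable {K : Type*} [Field K] {G : Type*} [AddCommGroup G] [LinearOrder G]
  [IsOrderedAddMonoid G] {V : OrdData K G}

/-- Units: nonzero elements of order `0`. -/
def IsU (V : OrdData K G) (a : K) : Prop := a ≠ 0 ∧ V.ord a = 0

lemma IsU.ge {a : K} (h : IsU V a) : V.Ge a 0 := Or.inr (le_of_eq h.2.symm)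

lemma IsU.mul {a b : K} (ha : IsU V a) (hb : IsU V b) : IsU V (a * b) :=
  ⟨mul_ne_zero ha.1 hb.1, by rw [V.ord_mul _ _ ha.1 hb.1, ha.2, hb.2, add_zero]⟩

lemma IsU.inv {a : K} (ha : IsU V a) : IsU V a⁻¹ :=
  ⟨inv_ne_zero ha.1, by rw [V.ord_inv ha.1, ha.2, neg_zero]⟩

lemma IsU.pow {a : K} (ha : IsU V a) (n : ℕ) : IsU V (a ^ n) :=
  ⟨pow_ne_zero n ha.1, by rw [V.ord_pow ha.1, ha.2, smul_zero]⟩

lemma IsU.div {a b : K} (ha : IsU V a) (hb : IsU V b) : IsU V (a / b) := by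
  rw [div_eq_mul_inv]; exact ha.mul hb.inv

lemma IsU.add_gt {a b : K} (ha : IsU V a) (hb : V.Gt b 0) : IsU V (a + b) :=
  unit_add ha.1 ha.2 hb

lemma IsU.sub_gt {a b : K} (ha : IsU V a) (hb : V.Gt b 0) : IsU V (a - b) := by
  rw [sub_eq_add_neg]; exact ha.add_gt hb.neg

lemma IsU.not_gt {a : K} (ha : IsU V a) : ¬ V.Gt a 0 := by
  intro h
  have := h.lt ha.1
  rw [ha.2] at this
  exact lt_irrefl _ this

lemma IsU.neg {a : K} (ha : IsU V a) : IsU V (-a) :=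
  ⟨neg_ne_zero.mpr ha.1, by rw [V.ord_neg, ha.2]⟩

lemma gt_of_sq_gt {a : K} (h : V.Gt (a ^ 2) 0) : V.Gt a 0 := by
  by_cases ha : a = 0
  · exact Or.inl ha
  · right
    have h1 := h.lt (pow_ne_zero 2 ha)
    rw [V.ord_pow ha] at h1
    by_contra h2
    have h3 : V.ord a ≤ 0 := not_lt.mp h2
    have : 2 • V.ord a ≤ 0 := nsmul_nonpos h3 2
    exact absurd h1 (not_lt.mpr this)

/-- Two nonnegative elements with zero sum are zero. -/
lemma eq_zero_of_add_eq_zero {a b : G} (ha : 0 ≤ a) (hb : 0 ≤ b) (h : a + b = 0) :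
    a = 0 ∧ b = 0 := by
  have h1 : a ≤ 0 := by
    have : a ≤ a + b := le_add_of_nonneg_right hb
    rwa [h] at this
  have h2 : b ≤ 0 := by
    have : b ≤ a + b := le_add_of_nonneg_left ha
    rwa [h] at this
  exact ⟨le_antisymm h1 ha, le_antisymm h2 hb⟩

/-- Valuation analysis of the Kummer relations at two unit `u`-coordinates. -/
theorem pair_val {u₁ u₂ up um κ c₂ c₃ : K} (hu₁ : IsU V u₁) (hu₂ : IsU V u₂) (hκ : V.Gt κ 0)
    (hc₂ : IsU V c₂) (hc₃ : V.Gt c₃ 0) (hup : V.Ge up 0) (hum : V.Ge um 0) (hne : u₁ ≠ u₂)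
    (h1 : (u₁ - u₂) ^ 2 * (up * um) = (u₁ * u₂ - κ) ^ 2)
    (h2 : (u₁ - u₂) ^ 2 * (up + um) =
      2 * u₁ * u₂ * (u₁ + u₂) + c₂ * u₁ * u₂ + c₃ * (u₁ + u₂)) :
    IsU V up ∧ IsU V um ∧ IsU V (u₁ - u₂) ∧
      V.Gt ((2 + c₂ / up) + (2 + c₂ / um) - (2 + c₂ / u₁) * (2 + c₂ / u₂)) 0 := by
  have hq : IsU V (u₁ * u₂) := hu₁.mul hu₂
  have hE : IsU V (u₁ * u₂ - κ) := hq.sub_gt hκ
  have hE2 : IsU V ((u₁ * u₂ - κ) ^ 2) := hE.pow 2
  have hd : u₁ - u₂ ≠ 0 := sub_ne_zero.mpr hne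
  have hd2 : (u₁ - u₂) ^ 2 ≠ 0 := pow_ne_zero 2 hd
  have hpm : up * um ≠ 0 := by
    intro h; rw [h, mul_zero] at h1; exact hE2.1 h1.symm
  have hup0 : up ≠ 0 := left_ne_zero_of_mul hpm
  have hum0 : um ≠ 0 := right_ne_zero_of_mul hpm
  have hdge : 0 ≤ V.ord (u₁ - u₂) := (hu₁.ge.sub hu₂.ge).le hd
  have hupge : 0 ≤ V.ord up := hup.le hup0
  have humge : 0 ≤ V.ord um := hum.le hum0
  have hsum : 2 • V.ord (u₁ - u₂) + (V.ord up + V.ord um) = 0 := by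
    have := congrArg V.ord h1
    rw [V.ord_mul _ _ hd2 hpm, V.ord_pow hd, V.ord_mul _ _ hup0 hum0, hE2.2] at this
    exact this
  have h2d : 0 ≤ 2 • V.ord (u₁ - u₂) := nsmul_nonneg hdge 2
  obtain ⟨hz1, hz2⟩ := eq_zero_of_add_eq_zero h2d (add_nonneg hupge humge) hsum
  obtain ⟨hup1, hum1⟩ := eq_zero_of_add_eq_zero hupge humge hz2
  have hd0 : V.ord (u₁ - u₂) = 0 := nsmul_eq_zero_imp two_ne_zero hz1
  refine ⟨⟨hup0, hup1⟩, ⟨hum0, hum1⟩, ⟨hd, hd0⟩, ?_⟩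
  have key : (2 + c₂ / up) + (2 + c₂ / um) - (2 + c₂ / u₁) * (2 + c₂ / u₂) =
      (c₂ * (c₃ * (u₁ + u₂) * (u₁ * u₂) ^ 2 +
        κ * (2 * u₁ * u₂ * (u₁ + u₂) + c₂ * u₁ * u₂) * (2 * (u₁ * u₂) - κ))) *
        (((u₁ * u₂ - κ) ^ 2)⁻¹ * ((u₁ * u₂) ^ 2)⁻¹) := by
    have e1 : up⁻¹ + um⁻¹ = (2 * u₁ * u₂ * (u₁ + u₂) + c₂ * u₁ * u₂ + c₃ * (u₁ + u₂)) /
        (u₁ * u₂ - κ) ^ 2 := by
      rw [← h1, ← h2]; field_simp; ring
    have e2 : (2 + c₂ / up) + (2 + c₂ / um) = 4 + c₂ * (up⁻¹ + um⁻¹) := by ring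
    rw [e2, e1]
    have := hE.1
    have := hu₁.1
    have := hu₂.1
    field_simp
    ring
  rw [key]
  have i2 : V.Ge (2 : K) 0 := Ge.ofNat 2
  have hS : V.Ge (u₁ + u₂) 0 := hu₁.ge.add hu₂.ge
  have hA : V.Ge (2 * u₁ * u₂ * (u₁ + u₂) + c₂ * u₁ * u₂) 0 :=
    (((i2.mul0 hu₁.ge).mul0 hu₂.ge).mul0 hS).add ((hc₂.ge.mul0 hu₁.ge).mul0 hu₂.ge)
  have hB : V.Ge (2 * (u₁ * u₂) - κ) 0 := (i2.mul0 hq.ge).sub hκ.ge
  refine Gt.mul_right0 (Gt.mul_left0 hc₂.ge (Gt.add ?_ ?_)) ((hE2.inv.ge).mul0 ((hq.pow 2).inv.ge))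
  · exact Gt.mul_right0 (Gt.mul_right0 hc₃ hS) (hq.pow 2).ge
  · exact Gt.mul_right0 (Gt.mul_right0 hκ hA) hB

/-- Valuation analysis of the duplication formula at a unit `u`-coordinate. -/
theorem dbl_val {u u' κ c₂ c₃ : K} (hu : IsU V u) (hκ : V.Gt κ 0) (hc₂ : IsU V c₂)
    (hc₃ : V.Gt c₃ 0) (hu' : V.Ge u' 0)
    (h1 : u' * (4 * u ^ 3 + c₂ * u ^ 2 + 2 * c₃ * u) = (u ^ 2 - κ) ^ 2) :
    IsU V u' ∧ V.Gt ((2 + c₂ / u') + 2 - (2 + c₂ / u) ^ 2) 0 := by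
  have hE : IsU V (u ^ 2 - κ) := (hu.pow 2).sub_gt hκ
  have hE2 : IsU V ((u ^ 2 - κ) ^ 2) := hE.pow 2
  have i2 : V.Ge (2 : K) 0 := Ge.ofNat 2
  have i4 : V.Ge (4 : K) 0 := Ge.ofNat 4
  have hprod : u' * (4 * u ^ 3 + c₂ * u ^ 2 + 2 * c₃ * u) ≠ 0 := by rw [h1]; exact hE2.1
  have hu'0 : u' ≠ 0 := left_ne_zero_of_mul hprod
  have hM0 : 4 * u ^ 3 + c₂ * u ^ 2 + 2 * c₃ * u ≠ 0 := right_ne_zero_of_mul hprod
  have hMge : V.Ge (4 * u ^ 3 + c₂ * u ^ 2 + 2 * c₃ * u) 0 :=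
    ((i4.mul0 (hu.ge.pow0 3)).add (hc₂.ge.mul0 (hu.ge.pow0 2))).add
      ((i2.mul0 hc₃.ge).mul0 hu.ge)
  have hsum : V.ord u' + V.ord (4 * u ^ 3 + c₂ * u ^ 2 + 2 * c₃ * u) = 0 := by
    have := congrArg V.ord h1
    rwa [V.ord_mul _ _ hu'0 hM0, hE2.2] at this
  obtain ⟨hz1, -⟩ := eq_zero_of_add_eq_zero (hu'.le hu'0) (hMge.le hM0) hsum
  refine ⟨⟨hu'0, hz1⟩, ?_⟩
  have key : (2 + c₂ / u') + 2 - (2 + c₂ / u) ^ 2 =
      (c₂ * (c₃ * (2 * u ^ 5) + κ * (4 * u ^ 3 + c₂ * u ^ 2) * (2 * u ^ 2 - κ))) *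
        (((u ^ 2 - κ) ^ 2)⁻¹ * (u ^ 4)⁻¹) := by
    have e1 : u'⁻¹ = (4 * u ^ 3 + c₂ * u ^ 2 + 2 * c₃ * u) / (u ^ 2 - κ) ^ 2 := by
      rw [← h1, mul_comm u', div_mul_eq_div_div, div_self hM0, one_div]
    have e2 : (2 + c₂ / u') = 2 + c₂ * u'⁻¹ := by ring
    rw [e2, e1]
    have := hE.1
    have := hu.1
    field_simp
    ring
  rw [key]
  have hA : V.Ge (4 * u ^ 3 + c₂ * u ^ 2) 0 :=
    (i4.mul0 (hu.ge.pow0 3)).add (hc₂.ge.mul0 (hu.ge.pow0 2))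
  have hB : V.Ge (2 * u ^ 2 - κ) 0 := (i2.mul0 (hu.ge.pow0 2)).sub hκ.ge
  refine Gt.mul_right0 (Gt.mul_left0 hc₂.ge (Gt.add ?_ ?_)) ((hE2.inv.ge).mul0 ((hu.pow 4).inv.ge))
  · exact Gt.mul_right0 hc₃ (i2.mul0 (hu.ge.pow0 5))
  · exact Gt.mul_right0 (Gt.mul_right0 hκ hA) hB

/-- Facts on a root of `t² - v t + 1` for an integral `v`. -/
theorem root_facts {v t : K} (hv : V.Ge v 0) (ht : t ^ 2 - v * t + 1 = 0) :
    t ≠ 0 ∧ t * t⁻¹ = 1 ∧ t + t⁻¹ = v ∧ V.Ge t 0 ∧ V.Ge t⁻¹ 0 := by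
  have ht0 : t ≠ 0 := by
    rintro rfl
    simp at ht
  have hsum : t + t⁻¹ = v := by
    field_simp
    linear_combination ht
  refine ⟨ht0, mul_inv_cancel₀ ht0, hsum, ?_, ?_⟩
  · by_contra hge
    have hlt : V.ord t < 0 := by
      by_contra h
      exact hge (Or.inr (not_lt.mp h))
    have hs : V.Gt t⁻¹ 0 := Or.inr (by rw [V.ord_inv ht0]; exact neg_pos.mpr hlt)
    have : t = v - t⁻¹ := by rw [← hsum]; ring
    exact hge (by rw [this]; exact hv.sub hs.ge)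
  · by_contra hge
    have hlt : V.ord t⁻¹ < 0 := by
      by_contra h
      exact hge (Or.inr (not_lt.mp h))
    have hs : V.Gt t 0 := Or.inr (by rw [V.ord_inv ht0] at hlt; exact neg_lt_zero.mp hlt)
    have : t⁻¹ = v - t := by rw [← hsum]; ring
    exact hge (by rw [this]; exact hv.sub hs.ge)

lemma pow_root_gt {t s : K} (hts : t * s = 1) (htge : V.Ge t 0) (n : ℕ)
    (h : V.Gt (2 - (t ^ n + s ^ n)) 0) : V.Gt (t ^ n - 1) 0 := by
  apply gt_of_sq_gt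
  have e : (t ^ n - 1) ^ 2 = -(t ^ n) * (2 - (t ^ n + s ^ n)) := by
    have : t ^ n * s ^ n = 1 := by rw [← mul_pow, hts, one_pow]
    linear_combination (-1 : K) * this
  rw [e]
  exact Gt.mul_left0 (htge.pow0 n).neg h

lemma sum_sub_two_gt {t s : K} (hts : t * s = 1) (hsge : V.Ge s 0) (h : V.Gt (t - 1) 0) :
    V.Gt (t + s - 2) 0 := by
  have e : t + s - 2 = (t - 1) - (t - 1) * s := by linear_combination hts
  rw [e]
  exact h.sub (Gt.mul_right0 h hsge)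

lemma inv_pow_congr {t s t' s' : K} (hts : t * s = 1) (hts' : t' * s' = 1) (hsge : V.Ge s 0)
    (hs'ge : V.Ge s' 0) (k : ℕ) (h : V.Gt (t' - t ^ k) 0) : V.Gt (s' - s ^ k) 0 := by
  have e : s' - s ^ k = -((t' - t ^ k) * (s' * s ^ k)) := by
    have : t ^ k * s ^ k = 1 := by rw [← mul_pow, hts, one_pow]
    linear_combination (s ^ k) * hts' - s' * this
  rw [e]
  exact (Gt.mul_right0 h (hs'ge.mul0 (hsge.pow0 k))).neg

end Val

section Pts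

variable {K : Type*} [Field K] [DecidableEq K] {G : Type*} [AddCommGroup G] [LinearOrder G]
  [IsOrderedAddMonoid G] {V : OrdData K G} {W : Affine K}

/-- The invariant `v = 2 + c₂ / u` of a point (`v(0) = 2`). -/
def vOf (D : NodeData V W) : W.Point → K
  | .zero => 2
  | .some x _ _ => 2 + D.c₂ / (x - D.ε)

omit [DecidableEq K] in
lemma vOf_zero (D : NodeData V W) : vOf D (0 : W.Point) = 2 := rfl

omit [DecidableEq K] in
lemma vOf_of_ne_zero (D : NodeData V W) {P : W.Point} (hP : P ≠ 0) :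
    vOf D P = 2 + D.c₂ / (xOf P - D.ε) := by
  rcases P with _ | ⟨x, y, h⟩
  · exact absurd rfl hP
  · rfl

omit [DecidableEq K] in
lemma vOf_neg (D : NodeData V W) (P : W.Point) : vOf D (-P) = vOf D P := by
  cases P <;> rfl

/-- A point is good if it is the origin or its `u`-coordinate is a unit. -/
def Good (D : NodeData V W) (P : W.Point) : Prop := P = 0 ∨ IsU V (xOf P - D.ε)

omit [DecidableEq K] in
lemma Good.neg {D : NodeData V W} {P : W.Point} (h : Good D P) : Good D (-P) := by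
  rcases h with h | h
  · left; rw [h]; rfl
  · right; rwa [xOf_neg]

omit [DecidableEq K] in
lemma unitC₂ (D : NodeData V W) : IsU V D.c₂ := ⟨D.hc₂0, D.hc₂⟩

omit [DecidableEq K] in
lemma gtκ (D : NodeData V W) : V.Gt D.κ 0 := gt_of_ne D.hκ0 D.hκ

omit [DecidableEq K] in
lemma gtC₃ (D : NodeData V W) : V.Gt D.c₃ 0 := D.hc₃.gt_of_lt D.hκ

omit [DecidableEq K] in
lemma vOf_ge (D : NodeData V W) {P : W.Point} (h : Good D P) : V.Ge (vOf D P) 0 := by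
  by_cases hP : P = 0
  · rw [hP, vOf_zero]; exact Ge.ofNat 2
  · rw [vOf_of_ne_zero D hP]
    exact (Ge.ofNat 2).add ((unitC₂ D).div (h.resolve_left hP)).ge

omit [DecidableEq K] in
lemma u_ge (D : NodeData V W) {P : W.Point} (hP : ¬ inE1 V P) : V.Ge (xOf P - D.ε) 0 := by
  have hx : V.Ge (xOf P) 0 := by
    by_cases h0 : xOf P = 0
    · exact Or.inl h0
    · right
      by_contra hlt
      exact hP (Or.inr ⟨h0, not_le.mp hlt⟩)
  exact hx.sub D.hε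

lemma good_of_inE0 (D : NodeData V W) {p : ℕ}
    (hE1 : ∀ Q : W.Point, p • Q = 0 → inE1 V Q → Q = 0)
    {P : W.Point} (hP : p • P = 0) (hPE : D.inE0 P) : Good D P := by
  rcases hPE with h | ⟨h0, hle⟩
  · exact Or.inl h
  · by_cases hP0 : P = 0
    · exact Or.inl hP0
    · right
      have hge := (u_ge D (fun hin => hP0 (hE1 P hP hin))).le h0
      exact ⟨h0, le_antisymm hle hge⟩

/-- The Kummer relations for two good torsion points with distinct `x`-coordinates. -/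
theorem pair_generic (D : NodeData V W) (h2 : (2 : K) ≠ 0) {p : ℕ}
    (hE1 : ∀ Q : W.Point, p • Q = 0 → inE1 V Q → Q = 0)
    {x₁ y₁ x₂ y₂ : K} (h₁ : W.Nonsingular x₁ y₁) (h₂ : W.Nonsingular x₂ y₂) (hx : x₁ ≠ x₂)
    (hP : p • Point.some x₁ y₁ h₁ = 0) (hR : p • Point.some x₂ y₂ h₂ = 0)
    (hu₁ : IsU V (x₁ - D.ε)) (hu₂ : IsU V (x₂ - D.ε)) :
    Good D (Point.some x₁ y₁ h₁ + Point.some x₂ y₂ h₂) ∧
    Good D (Point.some x₁ y₁ h₁ - Point.some x₂ y₂ h₂) ∧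
    IsU V (x₁ - x₂) ∧
    V.Gt (vOf D (Point.some x₁ y₁ h₁ + Point.some x₂ y₂ h₂) +
      vOf D (Point.some x₁ y₁ h₁ - Point.some x₂ y₂ h₂) -
      vOf D (Point.some x₁ y₁ h₁) * vOf D (Point.some x₂ y₂ h₂)) 0 := by
  obtain ⟨hp0, hm0, hK1, hK2⟩ := kummer_generic h2 h₁ h₂ hx
  have hpt : p • (Point.some x₁ y₁ h₁ + Point.some x₂ y₂ h₂) = 0 := by
    rw [smul_add, hP, hR, add_zero]
  have hmt : p • (Point.some x₁ y₁ h₁ - Point.some x₂ y₂ h₂) = 0 := by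
    rw [smul_sub, hP, hR, sub_zero]
  have hup := u_ge D (fun hin => hp0 (hE1 _ hpt hin))
  have hum := u_ge D (fun hin => hm0 (hE1 _ hmt hin))
  have e1 : ((x₁ - D.ε) - (x₂ - D.ε)) ^ 2 *
      ((xOf (Point.some x₁ y₁ h₁ + Point.some x₂ y₂ h₂) - D.ε) *
        (xOf (Point.some x₁ y₁ h₁ - Point.some x₂ y₂ h₂) - D.ε)) =
      ((x₁ - D.ε) * (x₂ - D.ε) - D.κ) ^ 2 := by
    linear_combination hK1 - D.ε * hK2 + D.hprod x₁ x₂
  have e2 : ((x₁ - D.ε) - (x₂ - D.ε)) ^ 2 *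
      ((xOf (Point.some x₁ y₁ h₁ + Point.some x₂ y₂ h₂) - D.ε) +
        (xOf (Point.some x₁ y₁ h₁ - Point.some x₂ y₂ h₂) - D.ε)) =
      2 * (x₁ - D.ε) * (x₂ - D.ε) * ((x₁ - D.ε) + (x₂ - D.ε)) +
        D.c₂ * (x₁ - D.ε) * (x₂ - D.ε) + D.c₃ * ((x₁ - D.ε) + (x₂ - D.ε)) := by
    linear_combination hK2 + D.hsum x₁ x₂
  have hne : x₁ - D.ε ≠ x₂ - D.ε := fun h => hx (sub_left_injective h)
  obtain ⟨hUp, hUm, hUd, hcong⟩ :=
    pair_val hu₁ hu₂ (gtκ D) (unitC₂ D) (gtC₃ D) hup hum hne e1 e2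
  rw [sub_sub_sub_cancel_right] at hUd
  refine ⟨Or.inr hUp, Or.inr hUm, hUd, ?_⟩
  rw [vOf_of_ne_zero D hp0, vOf_of_ne_zero D hm0]
  exact hcong

/-- The duplication formula for a good torsion point of odd order. -/
theorem dbl_good (D : NodeData V W) (h2 : (2 : K) ≠ 0) {p : ℕ} (hp : Odd p)
    (hE1 : ∀ Q : W.Point, p • Q = 0 → inE1 V Q → Q = 0)
    {x y : K} (h : W.Nonsingular x y) (hP : p • Point.some x y h = 0)
    (hu : IsU V (x - D.ε)) :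
    Good D (Point.some x y h + Point.some x y h) ∧
    V.Gt (vOf D (Point.some x y h + Point.some x y h) + 2 -
      vOf D (Point.some x y h) ^ 2) 0 := by
  have hpsi : psiSq W x ≠ 0 := by
    intro hpsi
    have hz := dbl_zero h hpsi
    obtain ⟨m, rfl⟩ := hp
    have e : (2 * m + 1) • Point.some x y h =
        m • (Point.some x y h + Point.some x y h) + Point.some x y h := by
      rw [add_smul, one_smul, mul_comm, mul_smul, two_smul]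
    rw [e, hz, smul_zero, zero_add] at hP
    exact Point.some_ne_zero h hP
  obtain ⟨hne, hform⟩ := dbl_formula h2 h hpsi
  have hdt : p • (Point.some x y h + Point.some x y h) = 0 := by rw [smul_add, hP, add_zero]
  have hu' := u_ge D (fun hin => hne (hE1 _ hdt hin))
  have e1 : (xOf (Point.some x y h + Point.some x y h) - D.ε) *
      (4 * (x - D.ε) ^ 3 + D.c₂ * (x - D.ε) ^ 2 + 2 * D.c₃ * (x - D.ε)) =
      ((x - D.ε) ^ 2 - D.κ) ^ 2 := by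
    have hs := D.hsum x x
    have hpr := D.hprod x x
    have k1 : kumSum W x x = psiSq W x := by simp only [kumSum, psiSq]; ring
    have k2 : kumProd W x x = dblNum W x := by simp only [kumProd, dblNum]; ring
    rw [k1] at hs hpr
    rw [k2] at hpr
    linear_combination hform + hpr - (xOf (Point.some x y h + Point.some x y h) - D.ε) * hs
  obtain ⟨hU, hcong⟩ := dbl_val hu (gtκ D) (unitC₂ D) (gtC₃ D) hu' e1
  refine ⟨Or.inr hU, ?_⟩
  rw [vOf_of_ne_zero D hne]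
  exact hcong

/-- The Chebyshev congruence `v(P + R) + v(P - R) ≡ v(P) v(R)` for good torsion points. -/
theorem pair_good (D : NodeData V W) (h2 : (2 : K) ≠ 0) {p : ℕ} (hp : Odd p)
    (hE1 : ∀ Q : W.Point, p • Q = 0 → inE1 V Q → Q = 0)
    {P R : W.Point} (hP : p • P = 0) (hR : p • R = 0) (gP : Good D P) (gR : Good D R) :
    Good D (P + R) ∧ Good D (P - R) ∧
      V.Gt (vOf D (P + R) + vOf D (P - R) - vOf D P * vOf D R) 0 := by
  by_cases hP0 : P = 0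
  · subst hP0
    rw [zero_add, zero_sub, vOf_neg, vOf_zero]
    refine ⟨gR, gR.neg, ?_⟩
    have : vOf D R + vOf D R - 2 * vOf D R = 0 := by ring
    rw [this]; exact Gt.zero 0
  by_cases hR0 : R = 0
  · subst hR0
    rw [add_zero, sub_zero, vOf_zero]
    refine ⟨gP, gP, ?_⟩
    have : vOf D P + vOf D P - vOf D P * 2 = 0 := by ring
    rw [this]; exact Gt.zero 0
  obtain ⟨x₁, y₁, h₁, rfl⟩ := exists_of_ne_zero hP0
  obtain ⟨x₂, y₂, h₂, rfl⟩ := exists_of_ne_zero hR0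
  have hu₁ : IsU V (x₁ - D.ε) := gP.resolve_left hP0
  have hu₂ : IsU V (x₂ - D.ε) := gR.resolve_left hR0
  by_cases hx : x₁ = x₂
  · obtain ⟨gd, hd⟩ := dbl_good D h2 hp hE1 h₂ hR hu₂
    rcases (Point.X_eq_iff (h₁ := h₁) (h₂ := h₂)).mp hx with hPQ | hPQ
    · rw [hPQ, sub_self, vOf_zero]
      refine ⟨gd, Or.inl rfl, ?_⟩
      rw [← pow_two]
      exact hd
    · have e : -Point.some x₂ y₂ h₂ - Point.some x₂ y₂ h₂ =
          -(Point.some x₂ y₂ h₂ + Point.some x₂ y₂ h₂) := by abel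
      rw [hPQ, neg_add_cancel, e, vOf_zero, vOf_neg, vOf_neg]
      refine ⟨Or.inl rfl, gd.neg, ?_⟩
      have e' : 2 + vOf D (Point.some x₂ y₂ h₂ + Point.some x₂ y₂ h₂) -
          vOf D (Point.some x₂ y₂ h₂) * vOf D (Point.some x₂ y₂ h₂) =
          vOf D (Point.some x₂ y₂ h₂ + Point.some x₂ y₂ h₂) + 2 -
            vOf D (Point.some x₂ y₂ h₂) ^ 2 := by ring
      rw [e']
      exact hd
  · obtain ⟨g1, g2, -, hc⟩ := pair_generic D h2 hE1 h₁ h₂ hx hP hR hu₁ hu₂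
    exact ⟨g1, g2, hc⟩

/-- `v(nT) ≡ tⁿ + t⁻ⁿ` when `v(T) = t + t⁻¹`. -/
theorem multiples (D : NodeData V W) (h2 : (2 : K) ≠ 0) {p : ℕ} (hp : Odd p)
    (hE1 : ∀ Q : W.Point, p • Q = 0 → inE1 V Q → Q = 0)
    {T : W.Point} (hT : p • T = 0) (gT : Good D T) {t s : K} (hts : t * s = 1)
    (hsum : t + s = vOf D T) (n : ℕ) :
    (Good D (n • T) ∧ V.Gt (vOf D (n • T) - (t ^ n + s ^ n)) 0) ∧
    (Good D ((n + 1) • T) ∧ V.Gt (vOf D ((n + 1) • T) - (t ^ (n + 1) + s ^ (n + 1))) 0) := by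
  have hv : V.Ge (vOf D T) 0 := vOf_ge D gT
  induction n with
  | zero =>
    refine ⟨⟨Or.inl (zero_smul _ _), ?_⟩, ⟨by rw [zero_add, one_smul]; exact gT, ?_⟩⟩
    · rw [zero_smul, vOf_zero]
      have : (2 : K) - (t ^ 0 + s ^ 0) = 0 := by norm_num
      rw [this]; exact Gt.zero 0
    · rw [zero_add, one_smul, pow_one, pow_one, hsum, sub_self]; exact Gt.zero 0
  | succ n ih =>
    obtain ⟨⟨g0, c0⟩, ⟨g1, c1⟩⟩ := ih
    refine ⟨⟨g1, c1⟩, ?_⟩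
    have hT1 : p • ((n + 1) • T) = 0 := by rw [smul_comm, hT, smul_zero]
    obtain ⟨ga, -, hc⟩ := pair_good D h2 hp hE1 hT1 hT g1 gT
    have e2 : (n + 1) • T + T = (n + 1 + 1) • T := (succ_nsmul T (n + 1)).symm
    have e3 : (n + 1) • T - T = n • T := by rw [succ_nsmul, add_sub_cancel_right]
    rw [e2, e3] at hc
    rw [e2] at ga
    refine ⟨ga, ?_⟩
    have key : vOf D ((n + 1 + 1) • T) - (t ^ (n + 1 + 1) + s ^ (n + 1 + 1)) =
        (vOf D ((n + 1 + 1) • T) + vOf D (n • T) - vOf D ((n + 1) • T) * vOf D T)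
        - (vOf D (n • T) - (t ^ n + s ^ n))
        + (vOf D ((n + 1) • T) - (t ^ (n + 1) + s ^ (n + 1))) * vOf D T := by
      rw [← hsum]
      have e : t ^ (n + 1 + 1) + s ^ (n + 1 + 1) =
          (t ^ (n + 1) + s ^ (n + 1)) * (t + s) - (t * s) * (t ^ n + s ^ n) := by ring
      rw [e, hts]; ring
    rw [key]
    exact (hc.sub c0).add (Gt.mul_right0 c1 hv)

/-- `v` is injective up to sign modulo the maximal ideal. -/
theorem eq_or_eq_neg (D : NodeData V W) (h2 : (2 : K) ≠ 0) {p : ℕ}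
    (hE1 : ∀ Q : W.Point, p • Q = 0 → inE1 V Q → Q = 0)
    {P R : W.Point} (hP : p • P = 0) (hR : p • R = 0) (gP : Good D P) (gR : Good D R)
    (hv : V.Gt (vOf D P - vOf D R) 0) : P = R ∨ P = -R := by
  by_cases hP0 : P = 0
  · by_cases hR0 : R = 0
    · left; rw [hP0, hR0]
    · exfalso
      have hu := gR.resolve_left hR0
      rw [hP0, vOf_zero, vOf_of_ne_zero D hR0] at hv
      have e : (2 : K) - (2 + D.c₂ / (xOf R - D.ε)) = -(D.c₂ / (xOf R - D.ε)) := by ring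
      rw [e] at hv
      exact ((unitC₂ D).div hu).neg.not_gt hv
  · by_cases hR0 : R = 0
    · exfalso
      have hu := gP.resolve_left hP0
      rw [hR0, vOf_zero, vOf_of_ne_zero D hP0] at hv
      have e : (2 + D.c₂ / (xOf P - D.ε)) - (2 : K) = D.c₂ / (xOf P - D.ε) := by ring
      rw [e] at hv
      exact ((unitC₂ D).div hu).not_gt hv
    · obtain ⟨x₁, y₁, h₁, rfl⟩ := exists_of_ne_zero hP0
      obtain ⟨x₂, y₂, h₂, rfl⟩ := exists_of_ne_zero hR0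
      by_cases hx : x₁ = x₂
      · exact (Point.X_eq_iff (h₁ := h₁) (h₂ := h₂)).mp hx
      · exfalso
        have hu₁ : IsU V (x₁ - D.ε) := gP.resolve_left hP0
        have hu₂ : IsU V (x₂ - D.ε) := gR.resolve_left hR0
        obtain ⟨-, -, hd, -⟩ := pair_generic D h2 hE1 h₁ h₂ hx hP hR hu₁ hu₂
        have e : vOf D (Point.some x₁ y₁ h₁) - vOf D (Point.some x₂ y₂ h₂) =
            -(D.c₂ * (x₁ - x₂) / ((x₁ - D.ε) * (x₂ - D.ε))) := by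
          change (2 + D.c₂ / (x₁ - D.ε)) - (2 + D.c₂ / (x₂ - D.ε)) = _
          have := hu₁.1
          have := hu₂.1
          field_simp
          ring
        rw [e] at hv
        exact (((unitC₂ D).mul hd).div (hu₁.mul hu₂)).neg.not_gt hv

end Pts

end Alpha

section Abstract

variable {K : Type*} [Field K] [DecidableEq K] {G : Type*} [AddCommGroup G] [LinearOrder G]
  [IsOrderedAddMonoid G]

namespace NodeData

variable {V : OrdData K G} {W : Affine K}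

theorem alpha (D : NodeData V W) (h2 : (2 : K) ≠ 0)
    (hb₂ : V.Ge W.b₂ 0) (hb₄ : V.Ge W.b₄ 0) (hb₆ : V.Ge W.b₆ 0) (hb₈ : V.Ge W.b₈ 0)
    (p : ℕ) (hp : p.Prime) (hp2 : p ≠ 2) (hp0 : (p : K) ≠ 0) (hpu : V.ord (p : K) = 0)
    (hquad : ∀ v : K, ∃ t : K, t ^ 2 - v * t + 1 = 0)
    (hroot : ∀ t s : K, V.Ge t 0 → V.Ge s 0 → V.Gt (t ^ p - 1) 0 → ¬ V.Gt (t - 1) 0 →
      V.Gt (s ^ p - 1) 0 → ∃ k : ℕ, V.Gt (s - t ^ k) 0)
    {T T' : W.Point} (hT0 : T ≠ 0) (hT : p • T = 0) (hTE : D.inE0 T)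
    (hT' : p • T' = 0) (hT'E : D.inE0 T') : ∃ k : ℕ, T' = k • T := by
  have hodd : Odd p := hp.odd_of_ne_two hp2
  have hE1 : ∀ Q : W.Point, p • Q = 0 → inE1 V Q → Q = 0 :=
    fun Q hQ hQE => E1_torsion' V W h2 hb₂ hb₄ hb₆ hb₈ Q hQE p hp0 hpu hQ
  have gT := Alpha.good_of_inE0 D hE1 hT hTE
  have gT' := Alpha.good_of_inE0 D hE1 hT' hT'E
  obtain ⟨t, ht⟩ := hquad (Alpha.vOf D T)
  obtain ⟨t', ht'⟩ := hquad (Alpha.vOf D T')
  obtain ⟨-, hts, hsum, htge, hsge⟩ := Alpha.root_facts (Alpha.vOf_ge D gT) ht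
  obtain ⟨-, hts', hsum', ht'ge, hs'ge⟩ := Alpha.root_facts (Alpha.vOf_ge D gT') ht'
  -- `t ^ p ≡ 1`
  have hp1 : V.Gt (t ^ p - 1) 0 := by
    have h := (Alpha.multiples D h2 hodd hE1 hT gT hts hsum p).1.2
    rw [hT, Alpha.vOf_zero] at h
    exact Alpha.pow_root_gt hts htge p h
  have hp1' : V.Gt (t' ^ p - 1) 0 := by
    have h := (Alpha.multiples D h2 hodd hE1 hT' gT' hts' hsum' p).1.2
    rw [hT', Alpha.vOf_zero] at h
    exact Alpha.pow_root_gt hts' ht'ge p h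
  -- `t ≢ 1`
  have hn1 : ¬ V.Gt (t - 1) 0 := by
    intro h
    have h' := Alpha.sum_sub_two_gt hts hsge h
    rw [hsum, Alpha.vOf_of_ne_zero D hT0] at h'
    have e : (2 + D.c₂ / (xOf T - D.ε)) - (2 : K) = D.c₂ / (xOf T - D.ε) := by ring
    rw [e] at h'
    exact ((Alpha.unitC₂ D).div (gT.resolve_left hT0)).not_gt h'
  obtain ⟨k, hk⟩ := hroot t t' htge ht'ge hp1 hn1 hp1'
  have hk' := Alpha.inv_pow_congr hts hts' hsge hs'ge k hk
  obtain ⟨gk, ck⟩ := (Alpha.multiples D h2 hodd hE1 hT gT hts hsum k).1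
  have hv : V.Gt (Alpha.vOf D T' - Alpha.vOf D (k • T)) 0 := by
    have e : Alpha.vOf D T' - Alpha.vOf D (k • T) =
        (t' - t ^ k) + (t'⁻¹ - t⁻¹ ^ k) - (Alpha.vOf D (k • T) - (t ^ k + t⁻¹ ^ k)) := by
      rw [← hsum']; ring
    rw [e]
    exact (hk.add hk').sub ck
  have hTk : p • (k • T) = 0 := by rw [smul_comm, hT, smul_zero]
  rcases Alpha.eq_or_eq_neg D h2 hE1 hT' hTk gT' gk hv with h | h
  · exact ⟨k, h⟩
  · refine ⟨(p - 1) * k, ?_⟩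
    rw [h, mul_smul]
    have hp1 : p - 1 + 1 = p := Nat.sub_add_cancel hp.one_lt.le
    have : (p - 1) • (k • T) + k • T = 0 := by
      rw [← succ_nsmul, hp1, hTk]
    exact (eq_neg_of_add_eq_zero_left this).symm

/-- The `p`-torsion is generated by two elements. -/
theorem dim_two (D : NodeData V W) (h2 : (2 : K) ≠ 0)
    (hb₂ : V.Ge W.b₂ 0) (hb₄ : V.Ge W.b₄ 0) (hb₆ : V.Ge W.b₆ 0) (hb₈ : V.Ge W.b₈ 0)
    (p : ℕ) (hp : p.Prime) (hp2 : p ≠ 2) (hp0 : (p : K) ≠ 0) (hpu : V.ord (p : K) = 0)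
    (hquad : ∀ v : K, ∃ t : K, t ^ 2 - v * t + 1 = 0)
    (hroot : ∀ t s : K, V.Ge t 0 → V.Ge s 0 → V.Gt (t ^ p - 1) 0 → ¬ V.Gt (t - 1) 0 →
      V.Gt (s ^ p - 1) 0 → ∃ k : ℕ, V.Gt (s - t ^ k) 0) :
    ∃ T₁ T₂ : W.Point, p • T₁ = 0 ∧ p • T₂ = 0 ∧
      ∀ T : W.Point, p • T = 0 → ∃ i j : ℕ, T = i • T₁ + j • T₂ := by
  by_cases hA : ∃ T₁ : W.Point, T₁ ≠ 0 ∧ p • T₁ = 0 ∧ D.inE0 T₁
  · obtain ⟨T₁, hT₁0, hT₁, hT₁E⟩ := hA
    by_cases hB : ∃ T₂ : W.Point, p • T₂ = 0 ∧ ¬ D.inE0 T₂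
    · obtain ⟨T₂, hT₂, hT₂E⟩ := hB
      refine ⟨T₁, T₂, hT₁, hT₂, fun T hT => ?_⟩
      obtain ⟨k, hk⟩ := D.exists_sub_nsmul_inE0 h2 hp hp2 hT₂ hT hT₂E
      have hpk : p • (T - k • T₂) = 0 := by
        rw [smul_sub, hT, smul_comm, hT₂, smul_zero, sub_zero]
      obtain ⟨i, hi⟩ := D.alpha h2 hb₂ hb₄ hb₆ hb₈ p hp hp2 hp0 hpu hquad hroot hT₁0 hT₁ hT₁E
        hpk hk
      exact ⟨i, k, by rw [← hi]; abel⟩
    · push Not at hB
      refine ⟨T₁, 0, hT₁, smul_zero _, fun T hT => ?_⟩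
      obtain ⟨i, hi⟩ := D.alpha h2 hb₂ hb₄ hb₆ hb₈ p hp hp2 hp0 hpu hquad hroot hT₁0 hT₁ hT₁E
        hT (hB T hT)
      exact ⟨i, 0, by rw [hi, smul_zero, add_zero]⟩
  · push Not at hA
    by_cases hB : ∃ T₂ : W.Point, p • T₂ = 0 ∧ ¬ D.inE0 T₂
    · obtain ⟨T₂, hT₂, hT₂E⟩ := hB
      refine ⟨0, T₂, smul_zero _, hT₂, fun T hT => ?_⟩
      obtain ⟨k, hk⟩ := D.exists_sub_nsmul_inE0 h2 hp hp2 hT₂ hT hT₂E
      have hpk : p • (T - k • T₂) = 0 := by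
        rw [smul_sub, hT, smul_comm, hT₂, smul_zero, sub_zero]
      have h0 : T - k • T₂ = 0 := by
        by_contra hne
        exact hA _ hne hpk hk
      exact ⟨0, k, by rw [smul_zero, zero_add]; exact sub_eq_zero.mp h0⟩
    · push Not at hB
      refine ⟨0, 0, smul_zero _, smul_zero _, fun T hT => ?_⟩
      have h0 : T = 0 := by
        by_contra hne
        exact hA T hne hT (hB T hT)
      exact ⟨0, 0, by rw [h0, smul_zero, add_zero]⟩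

end NodeData

end Abstract

end Fermat.Agent.S13
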