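import Mathlib
import Fermat.Agent.S05.Ord

set_option autoImplicit false

/-!
# Polynomials with integral coefficients and a Newton-polygon inequality

`gauss_bound`: if `f` has integral coefficients and roots `r` (with multiplicities `m r`) of
negative order, then `∑ m r • (-ord r) ≤ ord (leading coefficient of f)`.
-/

namespace Fermat.Agent.S13

open Polynomial Fermat.Agent.S05 Fermat.Agent.S05.OrdData

variable {K : Type*} [Field K] {G : Type*} [AddCommGroup G] [LinearOrder G]
  [IsOrderedAddMonoid G] {V : OrdData K G}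

lemma ge_sum {ι : Type*} (s : Finset ι) (f : ι → K) (g : G) (h : ∀ i ∈ s, V.Ge (f i) g) :
    V.Ge (∑ i ∈ s, f i) g := by
  classical
  induction s using Finset.induction_on with
  | empty => simpa using Ge.zero (V := V) g
  | insert a s ha ih =>
    rw [Finset.sum_insert ha]
    exact (h a (Finset.mem_insert_self a s)).add
      (ih (fun i hi => h i (Finset.mem_insert_of_mem hi)))

lemma ord_prod_pow {ι : Type*} (s : Finset ι) (f : ι → K) (m : ι → ℕ)
    (h : ∀ i ∈ s, f i ≠ 0) :
    V.ord (∏ i ∈ s, f i ^ m i) = ∑ i ∈ s, m i • V.ord (f i) := by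
  classical
  induction s using Finset.induction_on with
  | empty => simp [V.ord_one]
  | insert a s ha ih =>
    rw [Finset.prod_insert ha, Finset.sum_insert ha]
    have h1 : f a ^ m a ≠ 0 := pow_ne_zero _ (h a (Finset.mem_insert_self a s))
    have h2 : ∏ i ∈ s, f i ^ m i ≠ 0 :=
      Finset.prod_ne_zero_iff.mpr
        (fun i hi => pow_ne_zero _ (h i (Finset.mem_insert_of_mem hi)))
    rw [V.ord_mul _ _ h1 h2, V.ord_pow (h a (Finset.mem_insert_self a s)),
      ih (fun i hi => h i (Finset.mem_insert_of_mem hi))]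

/-- Polynomials with integral coefficients. -/
def IntPoly (V : OrdData K G) (f : K[X]) : Prop := ∀ i, V.Ge (f.coeff i) 0

namespace IntPoly

variable {f g : K[X]}

lemma zero : IntPoly V (0 : K[X]) := fun i => by simpa using Ge.zero (V := V) 0

lemma C {a : K} (ha : V.Ge a 0) : IntPoly V (C a) := by
  intro i
  rw [coeff_C]
  split_ifs
  · exact ha
  · exact Ge.zero 0

lemma one : IntPoly V (1 : K[X]) := by
  have := C (V := V) (a := 1) Ge.one
  simpa using this

lemma X : IntPoly V (X : K[X]) := by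
  intro i
  rw [coeff_X]
  split_ifs
  · exact Ge.one
  · exact Ge.zero 0

lemma add (hf : IntPoly V f) (hg : IntPoly V g) : IntPoly V (f + g) := fun i => by
  rw [coeff_add]; exact (hf i).add (hg i)

lemma sub (hf : IntPoly V f) (hg : IntPoly V g) : IntPoly V (f - g) := fun i => by
  rw [coeff_sub]; exact (hf i).sub (hg i)

lemma mul (hf : IntPoly V f) (hg : IntPoly V g) : IntPoly V (f * g) := fun i => by
  rw [coeff_mul]
  exact ge_sum _ _ _ (fun x _ => (hf x.1).mul0 (hg x.2))

lemma pow (hf : IntPoly V f) (n : ℕ) : IntPoly V (f ^ n) := by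
  induction n with
  | zero => simpa using one (V := V)
  | succ n ih => rw [pow_succ]; exact ih.mul hf

lemma eval (hf : IntPoly V f) {x : K} (hx : V.Ge x 0) : V.Ge (f.eval x) 0 := by
  rw [eval_eq_sum_range]
  exact ge_sum _ _ _ (fun i _ => (hf i).mul0 (hx.pow0 i))

end IntPoly

/-- Dividing out a root of negative order. -/
lemma intPoly_of_X_sub_C_mul {f g : K[X]} {r : K} (hr0 : r ≠ 0) (hr : V.ord r < 0)
    (hf : IntPoly V f) (hfg : f = (Polynomial.X - Polynomial.C r) * g) :
    IntPoly V (Polynomial.C r * g) := by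
  have h0 : ∀ i, f.coeff (i + 1) = g.coeff i - r * g.coeff (i + 1) := by
    intro i
    rw [hfg, sub_mul, coeff_sub, coeff_X_mul, coeff_C_mul]
  have h00 : f.coeff 0 = -(r * g.coeff 0) := by
    rw [hfg, sub_mul, coeff_sub, coeff_X_mul_zero, coeff_C_mul, zero_sub]
  have key : ∀ i, V.Ge (r * g.coeff i) 0 := by
    intro i
    induction i with
    | zero =>
      have : r * g.coeff 0 = -f.coeff 0 := by rw [h00, neg_neg]
      rw [this]; exact (hf 0).neg
    | succ i ih =>
      have hgi : V.Ge (g.coeff i) 0 := by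
        by_cases hg0 : g.coeff i = 0
        · exact Or.inl hg0
        · right
          have h1 := ih.le (mul_ne_zero hr0 hg0)
          rw [V.ord_mul _ _ hr0 hg0] at h1
          by_contra hcon
          rw [not_le] at hcon
          have : V.ord r + V.ord (g.coeff i) < 0 := add_neg hr hcon
          exact absurd h1 (not_le.mpr this)
      have : r * g.coeff (i + 1) = g.coeff i - f.coeff (i + 1) := by rw [h0 i]; ring
      rw [this]
      exact hgi.sub (hf (i + 1))
  intro i
  rw [coeff_C_mul]
  exact key i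

lemma intPoly_of_X_sub_C_pow_mul {r : K} (hr0 : r ≠ 0) (hr : V.ord r < 0) (m : ℕ) :
    ∀ {f g : K[X]}, IntPoly V f → f = (Polynomial.X - Polynomial.C r) ^ m * g →
      IntPoly V (Polynomial.C (r ^ m) * g) := by
  induction m with
  | zero =>
    intro f g hf hfg
    simpa [hfg] using hf
  | succ m ih =>
    intro f g hf hfg
    have h1 : f = (Polynomial.X - Polynomial.C r) * ((Polynomial.X - Polynomial.C r) ^ m * g) := by
      rw [hfg, pow_succ]; ring
    have h2 := intPoly_of_X_sub_C_mul hr0 hr hf h1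
    have h3 : Polynomial.C r * ((Polynomial.X - Polynomial.C r) ^ m * g) =
        (Polynomial.X - Polynomial.C r) ^ m * (Polynomial.C r * g) := by ring
    have h4 := ih h2 h3
    have h5 : Polynomial.C (r ^ (m + 1)) * g = Polynomial.C (r ^ m) * (Polynomial.C r * g) := by
      rw [pow_succ, Polynomial.C_mul]; ring
    rw [h5]; exact h4

lemma intPoly_of_prod_mul (s : Finset K) (m : K → ℕ) (hs : ∀ r ∈ s, r ≠ 0 ∧ V.ord r < 0) :
    ∀ {f g : K[X]}, IntPoly V f →
      f = (∏ r ∈ s, (Polynomial.X - Polynomial.C r) ^ m r) * g →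
      IntPoly V (Polynomial.C (∏ r ∈ s, r ^ m r) * g) := by
  classical
  induction s using Finset.induction_on with
  | empty =>
    intro f g hf hfg
    simpa [hfg] using hf
  | insert a s ha ih =>
    intro f g hf hfg
    rw [Finset.prod_insert ha] at hfg ⊢
    obtain ⟨ha0, haord⟩ := hs a (Finset.mem_insert_self a s)
    have h1 : f = (Polynomial.X - Polynomial.C a) ^ m a *
        ((∏ r ∈ s, (Polynomial.X - Polynomial.C r) ^ m r) * g) := by rw [hfg]; ring
    have h2 := intPoly_of_X_sub_C_pow_mul ha0 haord (m a) hf h1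
    have h3 : Polynomial.C (a ^ m a) * ((∏ r ∈ s, (Polynomial.X - Polynomial.C r) ^ m r) * g) =
        (∏ r ∈ s, (Polynomial.X - Polynomial.C r) ^ m r) * (Polynomial.C (a ^ m a) * g) := by ring
    have h4 := ih (fun r hr => hs r (Finset.mem_insert_of_mem hr)) h2 h3
    have h5 : Polynomial.C (a ^ m a * ∏ r ∈ s, r ^ m r) * g =
        Polynomial.C (∏ r ∈ s, r ^ m r) * (Polynomial.C (a ^ m a) * g) := by
      rw [Polynomial.C_mul]; ring
    rw [h5]; exact h4

/-- **Newton-polygon inequality.** -/
theorem gauss_bound (f : K[X]) (hf : IntPoly V f) (hf0 : f ≠ 0) (s : Finset K) (m : K → ℕ)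
    (hs : ∀ r ∈ s, r ≠ 0 ∧ V.ord r < 0)
    (hdvd : ∀ r ∈ s, (Polynomial.X - Polynomial.C r) ^ m r ∣ f) :
    ∑ r ∈ s, m r • (-V.ord r) ≤ V.ord f.leadingCoeff := by
  classical
  have hcop : (s : Set K).Pairwise fun a b =>
      IsCoprime ((Polynomial.X - Polynomial.C a) ^ m a) ((Polynomial.X - Polynomial.C b) ^ m b) := by
    intro a _ b _ hab
    exact (isCoprime_X_sub_C_of_isUnit_sub (sub_ne_zero.mpr hab).isUnit).pow
  obtain ⟨g, hg⟩ := Finset.prod_dvd_of_coprime hcop hdvd
  have hint := intPoly_of_prod_mul s m hs hf hg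
  have hmonic : (∏ r ∈ s, (Polynomial.X - Polynomial.C r) ^ m r).Monic :=
    monic_prod_of_monic _ _ (fun r _ => (monic_X_sub_C r).pow _)
  have hg0 : g ≠ 0 := by
    rintro rfl
    exact hf0 (by rw [hg, mul_zero])
  have hlc : f.leadingCoeff = g.leadingCoeff := by
    rw [hg, leadingCoeff_mul, hmonic.leadingCoeff, one_mul]
  have hprod0 : ∏ r ∈ s, r ^ m r ≠ 0 :=
    Finset.prod_ne_zero_iff.mpr (fun r hr => pow_ne_zero _ (hs r hr).1)
  have hlg : g.leadingCoeff ≠ 0 := leadingCoeff_ne_zero.mpr hg0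
  have h1 := hint g.natDegree
  rw [coeff_C_mul, coeff_natDegree] at h1
  have h2 := h1.le (mul_ne_zero hprod0 hlg)
  rw [V.ord_mul _ _ hprod0 hlg, ord_prod_pow s (fun r => r) m (fun r hr => (hs r hr).1)] at h2
  rw [hlc]
  have h3 : ∑ r ∈ s, m r • (-V.ord r) = -∑ r ∈ s, m r • V.ord r := by
    rw [← Finset.sum_neg_distrib]
    exact Finset.sum_congr rfl (fun r _ => smul_neg _ _)
  rw [h3]
  exact neg_le_iff_add_nonneg'.mpr h2

end Fermat.Agent.S13
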