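import Mathlib
import Fermat.Agent.S05.Kummer
import Fermat.Agent.S05.Iota

set_option autoImplicit false

/-!
# Division-polynomial pairs from the Kummer relations

For a Weierstrass curve `W` over a field we define polynomials `pairA W n`, `pairB W n`
(`n ≥ 1`) such that `x(nP) = pairA W n (x(P)) / pairB W n (x(P))` whenever the denominators
`pairB W j (x(P))`, `j ≤ n`, do not vanish.  They are built directly from the Kummer relations
(no reduction of common factors), which is all that is needed for valuation arguments.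
-/

namespace Fermat.Agent.S13

open Polynomial WeierstrassCurve WeierstrassCurve.Affine Fermat.Agent.S05

variable {K : Type*} [Field K]

/-- The square of the two-division polynomial, as a polynomial. -/
noncomputable def psiSqP (W : Affine K) : K[X] :=
  C 4 * X ^ 3 + C W.b₂ * X ^ 2 + C (2 * W.b₄) * X + C W.b₆

/-- The numerator of the duplication formula, as a polynomial. -/
noncomputable def dblNumP (W : Affine K) : K[X] :=
  X ^ 4 - C W.b₄ * X ^ 2 - C (2 * W.b₆) * X - C W.b₈

/-- Homogenized second Kummer form: `b² · kumSum (a / b) X`. -/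
noncomputable def kumSumP (W : Affine K) (a b : K[X]) : K[X] :=
  C 2 * a * X * (a + X * b) + C W.b₂ * a * X * b + C W.b₄ * (a + X * b) * b + C W.b₆ * b ^ 2

/-- Auxiliary recursion: the state at `n` is `((A (n+1), B (n+1)), (A (n+2), B (n+2)))`. -/
noncomputable def pairAux (W : Affine K) : ℕ → (K[X] × K[X]) × (K[X] × K[X])
  | 0 => ((X, 1), (dblNumP W, psiSqP W))
  | n + 1 =>
    ((pairAux W n).2,
      (kumSumP W (pairAux W n).2.1 (pairAux W n).2.2 * (pairAux W n).1.2 -
          (pairAux W n).1.1 * ((pairAux W n).2.1 - X * (pairAux W n).2.2) ^ 2,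
        ((pairAux W n).2.1 - X * (pairAux W n).2.2) ^ 2 * (pairAux W n).1.2))

/-- Numerator of `x(nP)` (meaningful for `n ≥ 1`). -/
noncomputable def pairA (W : Affine K) (n : ℕ) : K[X] := (pairAux W (n - 1)).1.1

/-- Denominator of `x(nP)` (meaningful for `n ≥ 1`). -/
noncomputable def pairB (W : Affine K) (n : ℕ) : K[X] := (pairAux W (n - 1)).1.2

/-- `A_n - X B_n`, whose roots are the `x(P)` with `x(nP) = x(P)`. -/
noncomputable def pairF (W : Affine K) (n : ℕ) : K[X] := pairA W n - X * pairB W n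

@[simp] lemma pairA_one (W : Affine K) : pairA W 1 = X := rfl
@[simp] lemma pairB_one (W : Affine K) : pairB W 1 = 1 := rfl
@[simp] lemma pairA_two (W : Affine K) : pairA W 2 = dblNumP W := rfl
@[simp] lemma pairB_two (W : Affine K) : pairB W 2 = psiSqP W := rfl

lemma pairAux_snd (W : Affine K) (n : ℕ) :
    (pairAux W n).2 = (pairA W (n + 2), pairB W (n + 2)) := by
  show (pairAux W n).2 = ((pairAux W (n + 1)).1.1, (pairAux W (n + 1)).1.2)
  rfl

lemma pairAux_fst (W : Affine K) (n : ℕ) :
    (pairAux W n).1 = (pairA W (n + 1), pairB W (n + 1)) := rfl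

lemma pairA_succ_succ (W : Affine K) (n : ℕ) (hn : 1 ≤ n) :
    pairA W (n + 2) = kumSumP W (pairA W (n + 1)) (pairB W (n + 1)) * pairB W n -
      pairA W n * pairF W (n + 1) ^ 2 := by
  obtain ⟨m, rfl⟩ : ∃ m, n = m + 1 := ⟨n - 1, by omega⟩
  show (pairAux W (m + 1 + 1)).1.1 = _
  have h1 := pairAux_snd W m
  have h2 := pairAux_fst W m
  simp only [pairAux, pairF]
  rw [h1, h2]

lemma pairB_succ_succ (W : Affine K) (n : ℕ) (hn : 1 ≤ n) :
    pairB W (n + 2) = pairF W (n + 1) ^ 2 * pairB W n := by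
  obtain ⟨m, rfl⟩ : ∃ m, n = m + 1 := ⟨n - 1, by omega⟩
  show (pairAux W (m + 1 + 1)).1.2 = _
  have h1 := pairAux_snd W m
  have h2 := pairAux_fst W m
  simp only [pairAux, pairF]
  rw [h1, h2]

lemma eval_psiSqP (W : Affine K) (x : K) : (psiSqP W).eval x = psiSq W x := by
  simp [psiSqP, psiSq]

lemma eval_dblNumP (W : Affine K) (x : K) : (dblNumP W).eval x = dblNum W x := by
  simp [dblNumP, dblNum]

lemma eval_kumSumP (W : Affine K) (a b : K[X]) (x : K) :
    (kumSumP W a b).eval x =
      2 * a.eval x * x * (a.eval x + x * b.eval x) + W.b₂ * a.eval x * x * b.eval x +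
        W.b₄ * (a.eval x + x * b.eval x) * b.eval x + W.b₆ * b.eval x ^ 2 := by
  simp [kumSumP]

lemma eval_pairF (W : Affine K) (n : ℕ) (x : K) :
    (pairF W n).eval x = (pairA W n).eval x - x * (pairB W n).eval x := by
  simp [pairF]


variable [DecidableEq K]

/-- **Evaluation.** If the denominators do not vanish, `x(nP) = A_n(x) / B_n(x)`. -/
theorem pair_eval (h2 : (2 : K) ≠ 0) {W : Affine K} {x y : K} (h : W.Nonsingular x y) :
    ∀ n : ℕ, 1 ≤ n → (∀ j, 1 ≤ j → j ≤ n → (pairB W j).eval x ≠ 0) →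
      n • Point.some x y h ≠ 0 ∧
        xOf (n • Point.some x y h) * (pairB W n).eval x = (pairA W n).eval x := by
  intro n
  induction n using Nat.strong_induction_on with
  | _ n ih =>
    intro hn hB
    rcases n with _ | _ | _ | n
    · omega
    · have e : (0 + 1) • Point.some x y h = Point.some x y h := by simp
      rw [e]
      refine ⟨Point.some_ne_zero h, ?_⟩
      simp
    · have hpsi : psiSq W x ≠ 0 := by
        have := hB 2 (by omega) (by omega)
        rwa [pairB_two, eval_psiSqP] at this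
      obtain ⟨h0, hform⟩ := dbl_formula h2 h hpsi
      have e : (0 + 1 + 1) • Point.some x y h = Point.some x y h + Point.some x y h := by
        rw [zero_add, one_add_one_eq_two, two_smul]
      rw [e]
      refine ⟨h0, ?_⟩
      show xOf (Point.some x y h + Point.some x y h) * (pairB W 2).eval x = (pairA W 2).eval x
      rw [pairB_two, pairA_two, eval_psiSqP, eval_dblNumP]
      exact hform
    · -- step from `n+1`, `n+2` to `n+3`
      obtain ⟨hn1, e1⟩ := ih (n + 1) (by omega) (by omega)
        (fun j hj1 hj2 => hB j hj1 (by omega))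
      obtain ⟨hn2, e2⟩ := ih (n + 2) (by omega) (by omega)
        (fun j hj1 hj2 => hB j hj1 (by omega))
      have hB3 := hB (n + 3) (by omega) le_rfl
      have hB2 := hB (n + 2) (by omega) (by omega)
      have hB1 := hB (n + 1) (by omega) (by omega)
      have hBrec : pairB W (n + 3) = pairF W (n + 2) ^ 2 * pairB W (n + 1) :=
        pairB_succ_succ W (n + 1) (by omega)
      have hArec : pairA W (n + 3) = kumSumP W (pairA W (n + 2)) (pairB W (n + 2)) *
          pairB W (n + 1) - pairA W (n + 1) * pairF W (n + 2) ^ 2 :=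
        pairA_succ_succ W (n + 1) (by omega)
      rw [hBrec, eval_mul, eval_pow, eval_pairF] at hB3
      have hF : (pairA W (n + 2)).eval x - x * (pairB W (n + 2)).eval x ≠ 0 := by
        intro h0; apply hB3; rw [h0]; ring
      obtain ⟨x₁, y₁, h₁, hP⟩ := Iota.exists_some hn2
      rw [hP, xOf_some] at e2
      have hx : x₁ ≠ x := by
        intro hx; apply hF; rw [← e2, hx]; ring
      obtain ⟨hp0, hm0, hK1, hK2⟩ := kummer_generic h2 h₁ h hx
      have eadd : (n + 3) • Point.some x y h = Point.some x₁ y₁ h₁ + Point.some x y h := by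
        rw [← hP, succ_nsmul]
      have esub : (n + 1) • Point.some x y h = Point.some x₁ y₁ h₁ - Point.some x y h := by
        rw [← hP, succ_nsmul (Point.some x y h) (n + 1), add_sub_cancel_right]
      rw [← eadd, ← esub] at hK1 hK2
      rw [← eadd] at hp0
      refine ⟨hp0, ?_⟩
      rw [hBrec, hArec]
      simp only [eval_mul, eval_pow, eval_sub, eval_pairF, eval_kumSumP]
      simp only [kumSum] at hK2
      generalize xOf ((n + 3) • Point.some x y h) = X3 at hK2 ⊢
      generalize xOf ((n + 1) • Point.some x y h) = X1 at hK2 e1 ⊢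
      generalize (pairB W (n + 2)).eval x = b2 at e2 ⊢
      generalize (pairA W (n + 2)).eval x = a2 at e2 ⊢
      generalize (pairB W (n + 1)).eval x = b1 at e1 ⊢
      generalize (pairA W (n + 1)).eval x = a1 at e1 ⊢
      subst e2 e1
      linear_combination (b2 ^ 2 * b1) * hK2


/-- **Roots.** A root of `B_n` lies under a point killed by some `m` with `2 ≤ m ≤ n`. -/
theorem pair_root (h2 : (2 : K) ≠ 0) {W : Affine K} {x y : K} (h : W.Nonsingular x y)
    (n : ℕ) (hn : 1 ≤ n) (hB : (pairB W n).eval x = 0) :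
    ∃ m, 2 ≤ m ∧ m ≤ n ∧ m • Point.some x y h = 0 := by
  classical
  have hex : ∃ j, 1 ≤ j ∧ (pairB W j).eval x = 0 := ⟨n, hn, hB⟩
  obtain ⟨hj1, hj0⟩ := Nat.find_spec hex
  have hmin : ∀ i, 1 ≤ i → i < Nat.find hex → (pairB W i).eval x ≠ 0 := by
    intro i hi1 hi2 h0
    exact Nat.find_min hex hi2 ⟨hi1, h0⟩
  have hjn : Nat.find hex ≤ n := Nat.find_min' hex ⟨hn, hB⟩
  generalize Nat.find hex = j at hj1 hj0 hmin hjn
  rcases j with _ | _ | _ | j
  · omega
  · simp at hj0
  · refine ⟨2, le_rfl, hjn, ?_⟩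
    have hpsi : psiSq W x = 0 := by
      have : (pairB W 2).eval x = 0 := hj0
      rwa [pairB_two, eval_psiSqP] at this
    rw [two_smul]
    exact dbl_zero h hpsi
  · refine ⟨j + 3, by omega, hjn, ?_⟩
    have hBrec : pairB W (j + 3) = pairF W (j + 2) ^ 2 * pairB W (j + 1) :=
      pairB_succ_succ W (j + 1) (by omega)
    have hj0' : (pairB W (j + 3)).eval x = 0 := hj0
    rw [hBrec, eval_mul, eval_pow, eval_pairF] at hj0'
    have hB1 := hmin (j + 1) (by omega) (by omega)
    have hB2 := hmin (j + 2) (by omega) (by omega)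
    have hF : (pairA W (j + 2)).eval x - x * (pairB W (j + 2)).eval x = 0 := by
      rcases mul_eq_zero.mp hj0' with h0 | h0
      · exact pow_eq_zero_iff (two_ne_zero) |>.mp h0
      · exact absurd h0 hB1
    obtain ⟨hn2, e2⟩ := pair_eval h2 h (j + 2) (by omega)
      (fun i hi1 hi2 => hmin i hi1 (by omega))
    obtain ⟨hn1, -⟩ := pair_eval h2 h (j + 1) (by omega)
      (fun i hi1 hi2 => hmin i hi1 (by omega))
    have hx : xOf ((j + 2) • Point.some x y h) = xOf (Point.some x y h) := by
      rw [xOf_some]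
      apply mul_right_cancel₀ hB2
      rw [e2]
      linear_combination hF
    rcases Iota.eq_or_eq_neg_of_xOf_eq hn2 (Point.some_ne_zero h) hx with hP | hP
    · exfalso
      apply hn1
      have : (j + 2) • Point.some x y h = (j + 1) • Point.some x y h + Point.some x y h :=
        succ_nsmul _ _
      rw [this] at hP
      exact add_eq_right.mp hP
    · have : (j + 3) • Point.some x y h = (j + 2) • Point.some x y h + Point.some x y h :=
        succ_nsmul _ _
      show (j + 3) • Point.some x y h = 0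
      rw [this, hP, neg_add_cancel]

/-- **Double roots.** The `x`-coordinate of a point of exact order `p` is a double root of
`B_p`. -/
theorem pair_sq_dvd (h2 : (2 : K) ≠ 0) {W : Affine K} {x y : K} (h : W.Nonsingular x y)
    (p : ℕ) (hp : 3 ≤ p) (hT : p • Point.some x y h = 0)
    (hmin : ∀ m, 2 ≤ m → m < p → m • Point.some x y h ≠ 0) :
    (X - C x) ^ 2 ∣ pairB W p := by
  obtain ⟨q, rfl⟩ : ∃ q, p = q + 3 := ⟨p - 3, by omega⟩
  have hB : ∀ j, 1 ≤ j → j ≤ q + 2 → (pairB W j).eval x ≠ 0 := by
    intro j hj1 hj2 h0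
    obtain ⟨m, hm2, hmj, hm0⟩ := pair_root h2 h j hj1 h0
    exact hmin m hm2 (by omega) hm0
  obtain ⟨hn2, e2⟩ := pair_eval h2 h (q + 2) (by omega) hB
  have hneg : (q + 2) • Point.some x y h = -Point.some x y h := by
    have : (q + 3) • Point.some x y h = (q + 2) • Point.some x y h + Point.some x y h :=
      succ_nsmul _ _
    rw [this] at hT
    exact eq_neg_of_add_eq_zero_left hT
  rw [hneg, xOf_neg, xOf_some] at e2
  have hF : (pairF W (q + 2)).IsRoot x := by
    rw [IsRoot, eval_pairF, ← e2, sub_self]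
  have hdvd : (X - C x) ∣ pairF W (q + 2) := dvd_iff_isRoot.mpr hF
  rw [pairB_succ_succ W (q + 1) (by omega)]
  exact Dvd.dvd.mul_right (pow_dvd_pow_of_dvd hdvd 2) _


/-! ### Degrees and leading coefficients -/

/-- `f` has degree at most `N` and `N`-th coefficient `c`. -/
def IsLead (f : K[X]) (N : ℕ) (c : K) : Prop := f.natDegree ≤ N ∧ f.coeff N = c

namespace IsLead

omit [DecidableEq K]

variable {f g : K[X]} {N M : ℕ} {c d : K}

lemma congr (hf : IsLead f N c) (hN : N = M) (hc : c = d) : IsLead f M d := by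
  subst hN hc; exact hf

lemma mul (hf : IsLead f N c) (hg : IsLead g M d) : IsLead (f * g) (N + M) (c * d) :=
  ⟨natDegree_mul_le.trans (add_le_add hf.1 hg.1),
    by rw [coeff_mul_add_eq_of_natDegree_le hf.1 hg.1, hf.2, hg.2]⟩

lemma add (hf : IsLead f N c) (hg : IsLead g N d) : IsLead (f + g) N (c + d) :=
  ⟨(natDegree_add_le _ _).trans (max_le hf.1 hg.1), by rw [coeff_add, hf.2, hg.2]⟩

lemma sub (hf : IsLead f N c) (hg : IsLead g N d) : IsLead (f - g) N (c - d) :=
  ⟨(natDegree_sub_le _ _).trans (max_le hf.1 hg.1), by rw [coeff_sub, hf.2, hg.2]⟩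

lemma lift (hf : IsLead f N c) (h : N < M) : IsLead f M 0 :=
  ⟨hf.1.trans h.le, coeff_eq_zero_of_natDegree_lt (lt_of_le_of_lt hf.1 h)⟩

lemma pow (hf : IsLead f N c) (k : ℕ) : IsLead (f ^ k) (k * N) (c ^ k) := by
  induction k with
  | zero => exact ⟨by simp, by simp⟩
  | succ k ih =>
    rw [pow_succ, pow_succ]
    exact (ih.mul hf).congr (by ring) rfl

lemma X' : IsLead (X : K[X]) 1 1 := ⟨natDegree_X_le, coeff_X_one⟩

lemma C' (a : K) : IsLead (C a) 0 a := ⟨by simp, by simp⟩

lemma one' : IsLead (1 : K[X]) 0 1 := ⟨by simp, by simp⟩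

lemma natDegree_eq (hf : IsLead f N c) (hc : c ≠ 0) : f.natDegree = N :=
  le_antisymm hf.1 (le_natDegree_of_ne_zero (by rw [hf.2]; exact hc))

lemma leadingCoeff_eq (hf : IsLead f N c) (hc : c ≠ 0) : f.leadingCoeff = c := by
  rw [leadingCoeff, hf.natDegree_eq hc, hf.2]

lemma ne_zero (hf : IsLead f N c) (hc : c ≠ 0) : f ≠ 0 := by
  rintro rfl
  rw [← hf.2] at hc
  simp at hc

end IsLead

/-- Degree of `pairB W n`. -/
def pairDeg : ℕ → ℕ
  | 0 => 0
  | 1 => 0
  | 2 => 3
  | (n + 3) => 2 * (pairDeg (n + 2) + 1) + pairDeg (n + 1)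

/-- Leading coefficient of `pairA W n`. -/
def pairLC : ℕ → ℕ
  | 0 => 1
  | 1 => 1
  | 2 => 1
  | (n + 3) => pairLC (n + 2) ^ 2 * pairLC (n + 1) * (n + 1) ^ 4

lemma pairLC_pos (n : ℕ) : 0 < pairLC n := by
  induction n using Nat.strong_induction_on with
  | _ n ih =>
    rcases n with _ | _ | _ | n
    · simp [pairLC]
    · simp [pairLC]
    · simp [pairLC]
    · rw [pairLC]
      have h1 := ih (n + 2) (by omega)
      have h2 := ih (n + 1) (by omega)
      positivity

/-- Prime factors of `pairLC n` are at most `n - 2`. -/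
lemma pairLC_prime_dvd {q : ℕ} (hq : q.Prime) : ∀ n : ℕ, q ∣ pairLC n → q + 2 ≤ n := by
  intro n
  induction n using Nat.strong_induction_on with
  | _ n ih =>
    intro h
    rcases n with _ | _ | _ | n
    · simp [pairLC] at h; exact absurd h hq.ne_one
    · simp [pairLC] at h; exact absurd h hq.ne_one
    · simp [pairLC] at h; exact absurd h hq.ne_one
    · rw [pairLC] at h
      rcases (Nat.Prime.dvd_mul hq).mp h with h | h
      · rcases (Nat.Prime.dvd_mul hq).mp h with h | h
        · have := ih (n + 2) (by omega) (hq.dvd_of_dvd_pow h)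
          omega
        · have := ih (n + 1) (by omega) h
          omega
      · have := Nat.le_of_dvd (by omega) (hq.dvd_of_dvd_pow h)
        omega

omit [DecidableEq K] in
lemma isLead_kumSumP (W : Affine K) {A B : K[X]} {d : ℕ} {a b : K}
    (hA : IsLead A (d + 1) a) (hB : IsLead B d b) :
    IsLead (kumSumP W A B) (2 * d + 3) (2 * a * (a + b)) := by
  have hXB : IsLead (X * B) (d + 1) b := (IsLead.X'.mul hB).congr (by ring) (by ring)
  have hs : IsLead (A + X * B) (d + 1) (a + b) := hA.add hXB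
  have t1 : IsLead (C 2 * A * X * (A + X * B)) (2 * d + 3) (2 * a * (a + b)) :=
    ((((IsLead.C' 2).mul hA).mul IsLead.X').mul hs).congr (by ring) (by ring)
  have t2 : IsLead (C W.b₂ * A * X * B) (2 * d + 3) 0 :=
    ((((IsLead.C' W.b₂).mul hA).mul IsLead.X').mul hB).lift (by omega)
  have t3 : IsLead (C W.b₄ * (A + X * B) * B) (2 * d + 3) 0 :=
    (((IsLead.C' W.b₄).mul hs).mul hB).lift (by omega)
  have t4 : IsLead (C W.b₆ * B ^ 2) (2 * d + 3) 0 :=
    ((IsLead.C' W.b₆).mul (hB.pow 2)).lift (by omega)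
  exact (((t1.add t2).add t3).add t4).congr rfl (by ring)

omit [DecidableEq K] in
/-- Degrees and leading coefficients of the pairs. -/
theorem pair_lead (W : Affine K) : ∀ n : ℕ, 1 ≤ n →
    IsLead (pairA W n) (pairDeg n + 1) (pairLC n : K) ∧
      IsLead (pairB W n) (pairDeg n) ((n : K) ^ 2 * (pairLC n : K)) := by
  intro n
  induction n using Nat.strong_induction_on with
  | _ n ih =>
    intro hn
    rcases n with _ | _ | _ | n
    · omega
    · refine ⟨?_, ?_⟩
      · show IsLead (pairA W 1) (pairDeg 1 + 1) ((pairLC 1 : ℕ) : K)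
        rw [pairA_one]
        exact IsLead.X'.congr (by simp [pairDeg]) (by simp [pairLC])
      · show IsLead (pairB W 1) (pairDeg 1) (((1 : ℕ) : K) ^ 2 * ((pairLC 1 : ℕ) : K))
        rw [pairB_one]
        exact IsLead.one'.congr (by simp [pairDeg]) (by simp [pairLC])
    · refine ⟨?_, ?_⟩
      · show IsLead (pairA W 2) (pairDeg 2 + 1) ((pairLC 2 : ℕ) : K)
        rw [pairA_two, dblNumP]
        have t1 : IsLead (X ^ 4 : K[X]) 4 1 := (IsLead.X'.pow 4).congr (by norm_num) (by simp)
        have t2 : IsLead (C W.b₄ * X ^ 2 : K[X]) 4 0 :=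
          ((IsLead.C' W.b₄).mul (IsLead.X'.pow 2)).lift (by norm_num)
        have t3 : IsLead (C (2 * W.b₆) * X : K[X]) 4 0 :=
          ((IsLead.C' (2 * W.b₆)).mul IsLead.X').lift (by norm_num)
        have t4 : IsLead (C W.b₈ : K[X]) 4 0 := (IsLead.C' W.b₈).lift (by norm_num)
        exact (((t1.sub t2).sub t3).sub t4).congr (by simp [pairDeg]) (by simp [pairLC])
      · show IsLead (pairB W 2) (pairDeg 2) (((2 : ℕ) : K) ^ 2 * ((pairLC 2 : ℕ) : K))
        rw [pairB_two, psiSqP]
        have t1 : IsLead (C 4 * X ^ 3 : K[X]) 3 4 :=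
          ((IsLead.C' (4 : K)).mul (IsLead.X'.pow 3)).congr (by norm_num) (by simp)
        have t2 : IsLead (C W.b₂ * X ^ 2 : K[X]) 3 0 :=
          ((IsLead.C' W.b₂).mul (IsLead.X'.pow 2)).lift (by norm_num)
        have t3 : IsLead (C (2 * W.b₄) * X : K[X]) 3 0 :=
          ((IsLead.C' (2 * W.b₄)).mul IsLead.X').lift (by norm_num)
        have t4 : IsLead (C W.b₆ : K[X]) 3 0 := (IsLead.C' W.b₆).lift (by norm_num)
        exact (((t1.add t2).add t3).add t4).congr (by simp [pairDeg])
          (by simp [pairLC]; norm_num)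
    · obtain ⟨hA2, hB2⟩ := ih (n + 2) (by omega) (by omega)
      obtain ⟨hA1, hB1⟩ := ih (n + 1) (by omega) (by omega)
      have hF : IsLead (pairF W (n + 2)) (pairDeg (n + 2) + 1)
          ((pairLC (n + 2) : K) - ((n + 2 : ℕ) : K) ^ 2 * (pairLC (n + 2) : K)) :=
        hA2.sub ((IsLead.X'.mul hB2).congr (by ring) (by ring))
      have hS := isLead_kumSumP W hA2 hB2
      refine ⟨?_, ?_⟩
      · show IsLead (pairA W (n + 3)) (pairDeg (n + 3) + 1) ((pairLC (n + 3) : ℕ) : K)
        rw [pairA_succ_succ W (n + 1) (by omega)]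
        have t1 := hS.mul hB1
        have t2 := hA1.mul (hF.pow 2)
        refine ((t1.congr ?_ rfl).sub (t2.congr ?_ rfl)).congr rfl ?_
        · show _ = pairDeg (n + 3) + 1
          rw [pairDeg]; ring
        · show _ = pairDeg (n + 3) + 1
          rw [pairDeg]; ring
        · rw [pairLC]; push_cast; ring
      · show IsLead (pairB W (n + 3)) (pairDeg (n + 3))
          (((n + 3 : ℕ) : K) ^ 2 * ((pairLC (n + 3) : ℕ) : K))
        rw [pairB_succ_succ W (n + 1) (by omega)]
        refine ((hF.pow 2).mul hB1).congr ?_ ?_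
        · rw [pairDeg]
        · rw [pairLC]; push_cast; ring

omit [DecidableEq K] in
lemma pairF_lead (W : Affine K) (n : ℕ) (hn : 1 ≤ n) :
    IsLead (pairF W n) (pairDeg n + 1) ((pairLC n : K) * (1 - (n : K) ^ 2)) := by
  obtain ⟨hA, hB⟩ := pair_lead W n hn
  have hXB : IsLead (X * pairB W n) (pairDeg n + 1) ((n : K) ^ 2 * (pairLC n : K)) :=
    (IsLead.X'.mul hB).congr (by ring) (by ring)
  exact (hA.sub hXB).congr rfl (by ring)

end Fermat.Agent.S13
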