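import Mathlib
import Fermat.Agent.S13.PairRec
import Fermat.Agent.S13.Gauss

set_option autoImplicit false

/-!
# Integrality of the division-polynomial pairs

If `b₂, b₄, b₆, b₈` are integral, the polynomials `pairA W n`, `pairB W n`, `pairF W n`
(`n ≥ 1`) have integral coefficients.
-/

namespace Fermat.Agent.S13

open Polynomial WeierstrassCurve WeierstrassCurve.Affine Fermat.Agent.S05
  Fermat.Agent.S05.OrdData

variable {K : Type*} [Field K] {G : Type*} [AddCommGroup G] [LinearOrder G]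
  [IsOrderedAddMonoid G] {V : OrdData K G}

lemma intPoly_psiSqP (W : Affine K)
    (hb₂ : V.Ge W.b₂ 0) (hb₄ : V.Ge W.b₄ 0) (hb₆ : V.Ge W.b₆ 0) : IntPoly V (psiSqP W) := by
  unfold psiSqP
  exact ((((IntPoly.C (Ge.ofNat 4)).mul (IntPoly.X.pow 3)).add
    ((IntPoly.C hb₂).mul (IntPoly.X.pow 2))).add
    ((IntPoly.C ((Ge.ofNat 2).mul0 hb₄)).mul IntPoly.X)).add (IntPoly.C hb₆)

lemma intPoly_dblNumP (W : Affine K)
    (hb₄ : V.Ge W.b₄ 0) (hb₆ : V.Ge W.b₆ 0) (hb₈ : V.Ge W.b₈ 0) : IntPoly V (dblNumP W) := by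
  unfold dblNumP
  exact (((IntPoly.X.pow 4).sub ((IntPoly.C hb₄).mul (IntPoly.X.pow 2))).sub
    ((IntPoly.C ((Ge.ofNat 2).mul0 hb₆)).mul IntPoly.X)).sub (IntPoly.C hb₈)

lemma intPoly_kumSumP (W : Affine K)
    (hb₂ : V.Ge W.b₂ 0) (hb₄ : V.Ge W.b₄ 0) (hb₆ : V.Ge W.b₆ 0) {a b : K[X]}
    (ha : IntPoly V a) (hb : IntPoly V b) : IntPoly V (kumSumP W a b) := by
  unfold kumSumP
  have hX : IntPoly V (X : K[X]) := IntPoly.X
  exact ((((((IntPoly.C (Ge.ofNat 2)).mul ha).mul hX).mul (ha.add (hX.mul hb))).add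
    ((((IntPoly.C hb₂).mul ha).mul hX).mul hb)).add
    (((IntPoly.C hb₄).mul (ha.add (hX.mul hb))).mul hb)).add ((IntPoly.C hb₆).mul (hb.pow 2))

/-- The division pairs have integral coefficients. -/
theorem pair_intPoly (W : Affine K)
    (hb₂ : V.Ge W.b₂ 0) (hb₄ : V.Ge W.b₄ 0) (hb₆ : V.Ge W.b₆ 0) (hb₈ : V.Ge W.b₈ 0) :
    ∀ n : ℕ, 1 ≤ n → IntPoly V (pairA W n) ∧ IntPoly V (pairB W n) := by
  intro n
  induction n using Nat.strong_induction_on with
  | _ n ih =>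
    intro hn
    rcases n with _ | _ | _ | n
    · omega
    · exact ⟨by simpa using (IntPoly.X : IntPoly V (X : K[X])),
        by simpa using (IntPoly.one : IntPoly V (1 : K[X]))⟩
    · exact ⟨by simpa using intPoly_dblNumP W hb₄ hb₆ hb₈,
        by simpa using intPoly_psiSqP W hb₂ hb₄ hb₆⟩
    · obtain ⟨hA1, hB1⟩ := ih (n + 1) (by omega) (by omega)
      obtain ⟨hA2, hB2⟩ := ih (n + 2) (by omega) (by omega)
      have hF : IntPoly V (pairF W (n + 2)) := hA2.sub (IntPoly.X.mul hB2)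
      have hBrec : pairB W (n + 3) = pairF W (n + 2) ^ 2 * pairB W (n + 1) :=
        pairB_succ_succ W (n + 1) (by omega)
      have hArec : pairA W (n + 3) = kumSumP W (pairA W (n + 2)) (pairB W (n + 2)) *
          pairB W (n + 1) - pairA W (n + 1) * pairF W (n + 2) ^ 2 :=
        pairA_succ_succ W (n + 1) (by omega)
      refine ⟨?_, ?_⟩
      · show IntPoly V (pairA W (n + 3))
        rw [hArec]
        exact ((intPoly_kumSumP W hb₂ hb₄ hb₆ hA2 hB2).mul hB1).sub (hA1.mul (hF.pow 2))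
      · show IntPoly V (pairB W (n + 3))
        rw [hBrec]
        exact (hF.pow 2).mul hB1

theorem pairF_intPoly (W : Affine K)
    (hb₂ : V.Ge W.b₂ 0) (hb₄ : V.Ge W.b₄ 0) (hb₆ : V.Ge W.b₆ 0) (hb₈ : V.Ge W.b₈ 0)
    (n : ℕ) (hn : 1 ≤ n) : IntPoly V (pairF W n) :=
  ((pair_intPoly W hb₂ hb₄ hb₆ hb₈ n hn).1).sub
    (IntPoly.X.mul (pair_intPoly W hb₂ hb₄ hb₆ hb₈ n hn).2)

end Fermat.Agent.S13
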