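import Mathlib
import Fermat.Agent.S13.Gauss
import Fermat.Agent.S05.EOne

set_option autoImplicit false

/-!
# Values of split polynomials at integral points

Over an algebraically closed field with an order function, a nonzero polynomial whose roots are
all integral takes values of order `≥ ord (leading coefficient)` at integral points, with
equality at points not congruent to any root.
-/

namespace Fermat.Agent.S13

open Polynomial Fermat.Agent.S05 Fermat.Agent.S05.OrdData

section Abstract

variable {K : Type*} [Field K] {G : Type*} [AddCommGroup G] [LinearOrder G]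
  [IsOrderedAddMonoid G]

namespace TorsExists

lemma ge_multiset_prod (V : OrdData K G) (s : Multiset K) (h : ∀ a ∈ s, V.Ge a 0) :
    V.Ge s.prod 0 := by
  induction s using Multiset.induction_on with
  | empty => simpa using (Ge.one : V.Ge (1 : K) 0)
  | cons a s ih =>
    rw [Multiset.prod_cons]
    exact (h a (Multiset.mem_cons_self a s)).mul0
      (ih (fun b hb => h b (Multiset.mem_cons_of_mem hb)))

lemma unit_multiset_prod (V : OrdData K G) (s : Multiset K)
    (h : ∀ a ∈ s, a ≠ 0 ∧ V.ord a = 0) : s.prod ≠ 0 ∧ V.ord s.prod = 0 := by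
  induction s using Multiset.induction_on with
  | empty => simpa using V.ord_one
  | cons a s ih =>
    rw [Multiset.prod_cons]
    obtain ⟨ha0, hau⟩ := h a (Multiset.mem_cons_self a s)
    obtain ⟨hs0, hsu⟩ := ih (fun b hb => h b (Multiset.mem_cons_of_mem hb))
    exact ⟨mul_ne_zero ha0 hs0, by rw [V.ord_mul _ _ ha0 hs0, hau, hsu, add_zero]⟩

/-- A polynomial with integral roots and leading coefficient in the maximal ideal takes values
in the maximal ideal at integral points. -/
theorem eval_gt (V : OrdData K G) [IsAlgClosed K] (f : K[X]) (hf : f ≠ 0)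
    (hroots : ∀ r : K, f.eval r = 0 → V.Ge r 0) (hlc : 0 < V.ord f.leadingCoeff)
    (x₀ : K) (hx₀ : V.Ge x₀ 0) : V.Gt (f.eval x₀) 0 := by
  rw [(IsAlgClosed.splits f).eval_eq_prod_roots x₀]
  have hprod : V.Ge (f.roots.map (x₀ - ·)).prod 0 := by
    apply ge_multiset_prod
    intro a ha
    obtain ⟨r, hr, rfl⟩ := Multiset.mem_map.mp ha
    exact hx₀.sub (hroots r ((mem_roots hf).mp hr))
  exact Gt.mul_right0 (gt_of_ne (leadingCoeff_ne_zero.mpr hf) hlc) hprod

/-- A polynomial with integral roots and unit leading coefficient takes unit values at integral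
points not congruent to any root. -/
theorem eval_unit (V : OrdData K G) [IsAlgClosed K] (f : K[X]) (hf : f ≠ 0)
    (hroots : ∀ r : K, f.eval r = 0 → V.Ge r 0) (hlc : V.ord f.leadingCoeff = 0)
    (x₀ : K) (hx₀ : V.Ge x₀ 0) (hx₀r : ∀ r : K, f.eval r = 0 → ¬ V.Gt (x₀ - r) 0) :
    f.eval x₀ ≠ 0 ∧ V.ord (f.eval x₀) = 0 := by
  rw [(IsAlgClosed.splits f).eval_eq_prod_roots x₀]
  have hprod : (f.roots.map (x₀ - ·)).prod ≠ 0 ∧ V.ord (f.roots.map (x₀ - ·)).prod = 0 := by
    apply unit_multiset_prod
    intro a ha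
    obtain ⟨r, hr, rfl⟩ := Multiset.mem_map.mp ha
    have hr' : f.eval r = 0 := (mem_roots hf).mp hr
    have hge := hx₀.sub (hroots r hr')
    have hngt := hx₀r r hr'
    have h0 : x₀ - r ≠ 0 := fun h => hngt (Or.inl h)
    refine ⟨h0, le_antisymm ?_ (hge.le h0)⟩
    by_contra hcon
    exact hngt (Or.inr (not_le.mp hcon))
  have hl0 := leadingCoeff_ne_zero.mpr hf
  exact ⟨mul_ne_zero hl0 hprod.1, by rw [V.ord_mul _ _ hl0 hprod.1, hlc, hprod.2, add_zero]⟩

/-- Values at integral points of a polynomial with integral roots: order at least that of the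
leading coefficient. -/
theorem eval_ge_of_roots [IsAlgClosed K] (V : OrdData K G) (f : K[X]) (hf : f ≠ 0)
    (hroots : ∀ r, f.eval r = 0 → V.Ge r 0) (x₀ : K) (hx₀ : V.Ge x₀ 0) :
    V.Ge (f.eval x₀) (V.ord f.leadingCoeff) := by
  rw [(IsAlgClosed.splits f).eval_eq_prod_roots x₀]
  have hprod : V.Ge (f.roots.map (x₀ - ·)).prod 0 := by
    apply ge_multiset_prod
    intro a ha
    obtain ⟨r, hr, rfl⟩ := Multiset.mem_map.mp ha
    exact hx₀.sub (hroots r ((mem_roots hf).mp hr))
  exact Ge.mul_right0 (Or.inr le_rfl) hprod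

/-- Values at integral points avoiding all roots modulo the maximal ideal: order exactly that of
the leading coefficient. -/
theorem eval_unit_of_roots [IsAlgClosed K] (V : OrdData K G) (f : K[X]) (hf : f ≠ 0)
    (hroots : ∀ r, f.eval r = 0 → V.Ge r 0) (x₀ : K) (hx₀ : V.Ge x₀ 0)
    (havoid : ∀ r, f.eval r = 0 → ¬ V.Gt (x₀ - r) 0) :
    f.eval x₀ ≠ 0 ∧ V.ord (f.eval x₀) = V.ord f.leadingCoeff := by
  rw [(IsAlgClosed.splits f).eval_eq_prod_roots x₀]
  have hprod : (f.roots.map (x₀ - ·)).prod ≠ 0 ∧ V.ord (f.roots.map (x₀ - ·)).prod = 0 := by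
    apply unit_multiset_prod
    intro a ha
    obtain ⟨r, hr, rfl⟩ := Multiset.mem_map.mp ha
    have hr' : f.eval r = 0 := (mem_roots hf).mp hr
    have hge := hx₀.sub (hroots r hr')
    have hngt := havoid r hr'
    have h0 : x₀ - r ≠ 0 := fun h => hngt (Or.inl h)
    refine ⟨h0, le_antisymm ?_ (hge.le h0)⟩
    by_contra hcon
    exact hngt (Or.inr (not_le.mp hcon))
  have hl0 := leadingCoeff_ne_zero.mpr hf
  exact ⟨mul_ne_zero hl0 hprod.1, by rw [V.ord_mul _ _ hl0 hprod.1, hprod.2, add_zero]⟩

end TorsExists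

end Abstract

end Fermat.Agent.S13
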