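import Mathlib
import Fermat.Agent.S13.PairRec
import Fermat.Agent.S13.Gauss
import Fermat.Agent.S13.PairInt
import Fermat.Agent.S13.EOne2
import Fermat.Agent.S13.Alpha
import Fermat.Agent.S13.PolyVal

set_option autoImplicit false
set_option linter.unusedSectionVars false

/-!
# S13 (T-D): multiplication by `p` lands in `E₁` for generic points

If an elliptic curve over an algebraically closed field of characteristic `0` (integral model
for a valuation with `0 < ord p`) has no point of order `p`, then `p • P ∈ E₁` for every point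
`P` whose `x`-coordinate is integral and avoids the finite set of roots of the denominators
`pairB W j`, `1 ≤ j ≤ p - 1`, modulo the maximal ideal (Steps 1-4 of the blueprint).
-/

open WeierstrassCurve WeierstrassCurve.Affine

namespace Fermat.Agent.S13

open Polynomial Fermat.Agent.S05 Fermat.Agent.S05.OrdData

section Abstract

variable {K : Type*} [Field K] [DecidableEq K] {G : Type*} [AddCommGroup G] [LinearOrder G]
  [IsOrderedAddMonoid G]

namespace TorsExists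

open Alpha

/-- The set of roots of the denominators `B_j`, `1 ≤ j ≤ n`. -/
noncomputable def badSet (W : Affine K) (n : ℕ) : Finset K :=
  (Finset.Icc 1 n).biUnion fun j => (pairB W j).roots.toFinset

/-- Over an algebraically closed field every abscissa carries a point. -/
lemma t2_exists_point [IsAlgClosed K] (W : Affine K) (hΔ : W.Δ ≠ 0) (x : K) :
    ∃ y, W.Nonsingular x y := by
  have hdeg : (X ^ 2 + C (W.a₁ * x + W.a₃) * X -
      C (x ^ 3 + W.a₂ * x ^ 2 + W.a₄ * x + W.a₆) : K[X]).degree ≠ 0 := by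
    have : (X ^ 2 + C (W.a₁ * x + W.a₃) * X -
        C (x ^ 3 + W.a₂ * x ^ 2 + W.a₄ * x + W.a₆) : K[X]).degree = 2 := by
      compute_degree!
    rw [this]; norm_num
  obtain ⟨y, hy⟩ := IsAlgClosed.exists_root _ hdeg
  refine ⟨y, (W.equation_iff_nonsingular_of_Δ_ne_zero hΔ).mp ?_⟩
  rw [Affine.equation_iff]
  simp only [IsRoot, eval_sub, eval_add, eval_pow, eval_X, eval_mul, eval_C] at hy
  linear_combination hy

lemma t2_pairB_ne_zero [CharZero K] (W : Affine K) (j : ℕ) (hj : 1 ≤ j) : pairB W j ≠ 0 :=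
  (pair_lead W j hj).2.ne_zero (mul_ne_zero (pow_ne_zero 2 (Nat.cast_ne_zero.mpr (by omega)))
    (Nat.cast_ne_zero.mpr (pairLC_pos j).ne'))

lemma t2_mem_badSet [CharZero K] (W : Affine K) (n : ℕ) (r : K) :
    r ∈ badSet W n ↔ ∃ j, 1 ≤ j ∧ j ≤ n ∧ (pairB W j).eval r = 0 := by
  unfold badSet
  simp only [Finset.mem_biUnion, Finset.mem_Icc, Multiset.mem_toFinset]
  constructor
  · rintro ⟨j, ⟨h1, h2⟩, hr⟩
    exact ⟨j, h1, h2, (mem_roots'.mp hr).2⟩
  · rintro ⟨j, h1, h2, hr⟩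
    exact ⟨j, ⟨h1, h2⟩, mem_roots'.mpr ⟨t2_pairB_ne_zero W j h1, hr⟩⟩

/-- Step 1: the bad set consists of integral elements. -/
lemma t2_badSet_ge [CharZero K] [IsAlgClosed K] (V : OrdData K G) (W : Affine K)
    (hΔ : W.Δ ≠ 0)
    (hb₂ : V.Ge W.b₂ 0) (hb₄ : V.Ge W.b₄ 0) (hb₆ : V.Ge W.b₆ 0) (hb₈ : V.Ge W.b₈ 0)
    (p : ℕ) (hunit : ∀ n : ℕ, ¬ p ∣ n → V.ord (n : K) = 0)
    {r : K} (hr : r ∈ badSet W (p - 1)) : V.Ge r 0 := by
  obtain ⟨j, hj1, hj2, hB⟩ := (t2_mem_badSet W _ r).mp hr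
  obtain ⟨y, h⟩ := t2_exists_point W hΔ r
  obtain ⟨m, hm2, hmj, hm0⟩ := pair_root two_ne_zero h j hj1 hB
  by_contra hge
  have hr0 : r ≠ 0 := fun h0 => hge (Or.inl h0)
  have hord : V.ord r < 0 := by
    by_contra hh
    exact hge (Or.inr (not_lt.mp hh))
  have hE1 : inE1 V (Point.some r y h) := Or.inr ⟨hr0, hord⟩
  have hmK : (m : K) ≠ 0 := Nat.cast_ne_zero.mpr (by omega)
  have hmu : V.ord (m : K) = 0 := hunit m (fun hd => by
    have := Nat.le_of_dvd (by omega) hd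
    omega)
  exact Point.some_ne_zero h (E1_torsion' V W two_ne_zero hb₂ hb₄ hb₆ hb₈ _ hE1 m hmK hmu hm0)

/-- Step 2: roots of `F_{p-1}` lie in the bad set (if there is no `p`-torsion). -/
lemma t2_root_pairF_mem [CharZero K] [IsAlgClosed K] (W : Affine K) (hΔ : W.Δ ≠ 0)
    (p : ℕ) (hp5 : 5 ≤ p) (H : ∀ T : W.Point, p • T = 0 → T = 0)
    {r : K} (hr : (pairF W (p - 1)).eval r = 0) : r ∈ badSet W (p - 1) := by
  by_contra hmem
  have hB : ∀ j, 1 ≤ j → j ≤ p - 1 → (pairB W j).eval r ≠ 0 :=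
    fun j h1 h2 h0 => hmem ((t2_mem_badSet W _ r).mpr ⟨j, h1, h2, h0⟩)
  obtain ⟨y, h⟩ := t2_exists_point W hΔ r
  obtain ⟨hn1, e1⟩ := pair_eval two_ne_zero h (p - 1) (by omega) hB
  obtain ⟨hn2, -⟩ := pair_eval two_ne_zero h (p - 2) (by omega)
    (fun j h1 h2 => hB j h1 (by omega))
  have hx : xOf ((p - 1) • Point.some r y h) = xOf (Point.some r y h) := by
    rw [xOf_some]
    apply mul_right_cancel₀ (hB (p - 1) (by omega) le_rfl)
    rw [e1]
    rw [eval_pairF] at hr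
    linear_combination hr
  have e12 : (p - 1) • Point.some r y h = (p - 2) • Point.some r y h + Point.some r y h := by
    rw [← succ_nsmul]
    congr 1
    omega
  have e01 : p • Point.some r y h = (p - 1) • Point.some r y h + Point.some r y h := by
    rw [← succ_nsmul]
    congr 1
    omega
  rcases Iota.eq_or_eq_neg_of_xOf_eq hn1 (Point.some_ne_zero h) hx with hP | hP
  · apply hn2
    rw [e12] at hP
    exact add_eq_right.mp hP
  · exact Point.some_ne_zero h (H _ (by rw [e01, hP, neg_add_cancel]))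

/-- Step 3, leading coefficient of `F_{p-1}`. -/
lemma t2_pairF_lc [CharZero K] (V : OrdData K G) (W : Affine K)
    (p : ℕ) (hp : p.Prime) (hp5 : 5 ≤ p) (hpos : 0 < V.ord (p : K))
    (hunit : ∀ n : ℕ, ¬ p ∣ n → V.ord (n : K) = 0) :
    pairF W (p - 1) ≠ 0 ∧ 0 < V.ord (pairF W (p - 1)).leadingCoeff := by
  have hL := pairF_lead W (p - 1) (by omega)
  have hc' : ((pairLC (p - 1) : ℕ) : K) * (1 - (((p - 1 : ℕ) : ℕ) : K) ^ 2) =
      -(((pairLC (p - 1) : ℕ) : K) * ((p : K) * (((p - 2 : ℕ) : ℕ) : K))) := by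
    rw [Nat.cast_sub (by omega : 1 ≤ p), Nat.cast_sub (by omega : 2 ≤ p)]
    push_cast
    ring
  have h1 : ((pairLC (p - 1) : ℕ) : K) ≠ 0 := Nat.cast_ne_zero.mpr (pairLC_pos _).ne'
  have h1u : V.ord ((pairLC (p - 1) : ℕ) : K) = 0 := hunit _ (fun hd => by
    have := pairLC_prime_dvd hp _ hd
    omega)
  have h2 : (((p - 2 : ℕ) : ℕ) : K) ≠ 0 := Nat.cast_ne_zero.mpr (by omega)
  have h2u : V.ord (((p - 2 : ℕ) : ℕ) : K) = 0 := hunit _ (fun hd => by
    have := Nat.le_of_dvd (by omega) hd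
    omega)
  have hpK : (p : K) ≠ 0 := Nat.cast_ne_zero.mpr (by omega)
  have hc0 : ((pairLC (p - 1) : ℕ) : K) * (1 - (((p - 1 : ℕ) : ℕ) : K) ^ 2) ≠ 0 := by
    rw [hc']
    exact neg_ne_zero.mpr (mul_ne_zero h1 (mul_ne_zero hpK h2))
  have hcord : V.ord (((pairLC (p - 1) : ℕ) : K) * (1 - (((p - 1 : ℕ) : ℕ) : K) ^ 2)) =
      V.ord (p : K) := by
    rw [hc', V.ord_neg, V.ord_mul _ _ h1 (mul_ne_zero hpK h2), V.ord_mul _ _ hpK h2, h1u, h2u]
    simp
  refine ⟨hL.ne_zero hc0, ?_⟩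
  rw [hL.leadingCoeff_eq hc0, hcord]
  exact hpos

/-- Step 3, leading coefficients of `B_j`, `j ≤ p - 1`, are units. -/
lemma t2_pairB_lc [CharZero K] (V : OrdData K G) (W : Affine K)
    (p : ℕ) (hp : p.Prime) (hunit : ∀ n : ℕ, ¬ p ∣ n → V.ord (n : K) = 0)
    (j : ℕ) (hj1 : 1 ≤ j) (hj2 : j ≤ p - 1) :
    V.ord (pairB W j).leadingCoeff = 0 := by
  have hL := (pair_lead W j hj1).2
  have h1 : ((pairLC j : ℕ) : K) ≠ 0 := Nat.cast_ne_zero.mpr (pairLC_pos _).ne'
  have h1u : V.ord ((pairLC j : ℕ) : K) = 0 := hunit _ (fun hd => by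
    have := pairLC_prime_dvd hp _ hd
    omega)
  have h2 : (j : K) ≠ 0 := Nat.cast_ne_zero.mpr (by omega)
  have h2u : V.ord (j : K) = 0 := hunit _ (fun hd => by
    have := Nat.le_of_dvd (by omega) hd
    have := hp.two_le
    omega)
  have hc0 : (j : K) ^ 2 * ((pairLC j : ℕ) : K) ≠ 0 := mul_ne_zero (pow_ne_zero 2 h2) h1
  rw [hL.leadingCoeff_eq hc0, V.ord_mul _ _ (pow_ne_zero 2 h2) h1, V.ord_pow h2, h2u, h1u]
  simp

/-- Steps 1-4 for the explicit bad set. -/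
theorem t2_mul_p_inE1 [CharZero K] [IsAlgClosed K] (V : OrdData K G) (W : Affine K)
    (hΔ : W.Δ ≠ 0)
    (hb₂ : V.Ge W.b₂ 0) (hb₄ : V.Ge W.b₄ 0) (hb₆ : V.Ge W.b₆ 0) (hb₈ : V.Ge W.b₈ 0)
    (p : ℕ) (hp : p.Prime) (hp5 : 5 ≤ p) (hpos : 0 < V.ord (p : K))
    (hunit : ∀ n : ℕ, ¬ p ∣ n → V.ord (n : K) = 0)
    (H : ∀ T : W.Point, p • T = 0 → T = 0)
    (x y : K) (h : W.Nonsingular x y) (hx : V.Ge x 0)
    (havoid : ∀ r ∈ badSet W (p - 1), ¬ V.Gt (x - r) 0) :
    inE1 V (p • Point.some x y h) := by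
  have h2 : (2 : K) ≠ 0 := two_ne_zero
  have hZge : ∀ r ∈ badSet W (p - 1), V.Ge r 0 := fun r hr =>
    t2_badSet_ge V W hΔ hb₂ hb₄ hb₆ hb₈ p hunit hr
  -- the denominators are units at `x`
  have hBu : ∀ j, 1 ≤ j → j ≤ p - 1 → IsU V ((pairB W j).eval x) := by
    intro j hj1 hj2
    have hmem : ∀ r, (pairB W j).eval r = 0 → r ∈ badSet W (p - 1) :=
      fun r hr => (t2_mem_badSet W _ r).mpr ⟨j, hj1, hj2, hr⟩
    obtain ⟨h0, hord⟩ := eval_unit_of_roots V (pairB W j) (t2_pairB_ne_zero W j hj1)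
      (fun r hr => hZge r (hmem r hr)) x hx (fun r hr => havoid r (hmem r hr))
    exact ⟨h0, by rw [hord, t2_pairB_lc V W p hp hunit j hj1 hj2]⟩
  have hB : ∀ j, 1 ≤ j → j ≤ p - 1 → (pairB W j).eval x ≠ 0 := fun j h1 h2 => (hBu j h1 h2).1
  -- `F(x)` has positive order
  obtain ⟨hF0, hFlc⟩ := t2_pairF_lc V W p hp hp5 hpos hunit
  have hFgt : V.Gt ((pairF W (p - 1)).eval x) 0 :=
    (eval_ge_of_roots V (pairF W (p - 1)) hF0
      (fun r hr => hZge r (t2_root_pairF_mem W hΔ p hp5 H hr)) x hx).gt_of_lt hFlc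
  obtain ⟨hn1, e1⟩ := pair_eval h2 h (p - 1) (by omega) hB
  obtain ⟨hn2, e2⟩ := pair_eval h2 h (p - 2) (by omega) (fun j h1 h2 => hB j h1 (by omega))
  have e12 : (p - 1) • Point.some x y h = (p - 2) • Point.some x y h + Point.some x y h := by
    rw [← succ_nsmul]
    congr 1
    omega
  have e01 : p • Point.some x y h = (p - 1) • Point.some x y h + Point.some x y h := by
    rw [← succ_nsmul]
    congr 1
    omega
  obtain ⟨x₁, y₁, h₁, hP1⟩ := Iota.exists_some hn1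
  rw [hP1, xOf_some] at e1
  have hBp := hBu (p - 1) (by omega) le_rfl
  have hdiff : (x₁ - x) * (pairB W (p - 1)).eval x = (pairF W (p - 1)).eval x := by
    rw [eval_pairF, ← e1]
    ring
  have hdgt : V.Gt (x₁ - x) 0 := by
    have : x₁ - x = (pairF W (p - 1)).eval x * ((pairB W (p - 1)).eval x)⁻¹ := by
      rw [← hdiff, mul_assoc, mul_inv_cancel₀ hBp.1, mul_one]
    rw [this]
    exact Gt.mul_right0 hFgt hBp.inv.ge
  have hx1 : x₁ ≠ x := by
    intro hx1
    have hxeq : xOf ((p - 1) • Point.some x y h) = xOf (Point.some x y h) := by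
      rw [hP1, xOf_some, xOf_some, hx1]
    rcases Iota.eq_or_eq_neg_of_xOf_eq hn1 (Point.some_ne_zero h) hxeq with hP | hP
    · apply hn2
      rw [e12] at hP
      exact add_eq_right.mp hP
    · exact Point.some_ne_zero h (H _ (by rw [e01, hP, neg_add_cancel]))
  -- `x((p-2)P)` is integral
  have hx2 : V.Ge (xOf ((p - 2) • Point.some x y h)) 0 := by
    have hBq := hBu (p - 2) (by omega) (by omega)
    refine Ge.of_mul_eq hBq.1 e2 ?_
    rw [hBq.2, add_zero]
    exact (pair_intPoly W hb₂ hb₄ hb₆ hb₈ (p - 2) (by omega)).1.eval hx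
  -- Kummer relation for `((p-1)P, P)`
  obtain ⟨-, -, -, hK2⟩ := kummer_generic h2 h₁ h hx1
  have eadd : Point.some x₁ y₁ h₁ + Point.some x y h = p • Point.some x y h := by
    rw [← hP1, ← e01]
  have esub : Point.some x₁ y₁ h₁ - Point.some x y h = (p - 2) • Point.some x y h := by
    rw [← hP1, e12, add_sub_cancel_right]
  rw [eadd, esub] at hK2
  have hpsi : IsU V (psiSq W x) := by
    have := hBu 2 (by omega) (by omega)
    rwa [pairB_two, eval_psiSqP] at this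
  have hx1ge : V.Ge x₁ 0 := by
    have : x₁ = x + (x₁ - x) := by ring
    rw [this]
    exact hx.add hdgt.ge
  have i2 : V.Ge (2 : K) 0 := Ge.ofNat 2
  have hks : kumSum W x₁ x =
      psiSq W x + (x₁ - x) * (2 * x * (x₁ + 2 * x) + W.b₂ * x + W.b₄) := by
    simp only [kumSum, psiSq]
    ring
  have hksU : IsU V (kumSum W x₁ x) := by
    rw [hks]
    refine hpsi.add_gt (Gt.mul_right0 hdgt ?_)
    exact (((i2.mul0 hx).mul0 (hx1ge.add (i2.mul0 hx))).add (hb₂.mul0 hx)).add hb₄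
  have hd0 : x₁ - x ≠ 0 := sub_ne_zero.mpr hx1
  have hs0 : xOf (p • Point.some x y h) + xOf ((p - 2) • Point.some x y h) ≠ 0 := by
    intro h0
    rw [h0, mul_zero] at hK2
    exact hksU.1 hK2.symm
  have hsord : V.ord (xOf (p • Point.some x y h) + xOf ((p - 2) • Point.some x y h)) < 0 := by
    have h3 := congrArg V.ord hK2
    rw [V.ord_mul _ _ (pow_ne_zero 2 hd0) hs0, V.ord_pow hd0, hksU.2] at h3
    have hdpos : 0 < V.ord (x₁ - x) := hdgt.lt hd0
    have h4 : 0 < 2 • V.ord (x₁ - x) := nsmul_pos hdpos two_ne_zero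
    by_contra hcon
    have h5 := add_pos_of_pos_of_nonneg h4 (not_lt.mp hcon)
    rw [h3] at h5
    exact lt_irrefl _ h5
  have hfin := ord_add_eq (V := V) hs0 (y := -(xOf ((p - 2) • Point.some x y h)))
    (hx2.neg.gt_of_lt hsord)
  have e : xOf (p • Point.some x y h) + xOf ((p - 2) • Point.some x y h) +
      -(xOf ((p - 2) • Point.some x y h)) = xOf (p • Point.some x y h) := by ring
  rw [e] at hfin
  exact Or.inr ⟨hfin.1, by rw [hfin.2]; exact hsord⟩


/-- If there is no point of order `p`, then `p • P` lies in `E₁` for every point `P` whose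
`x`-coordinate is integral and avoids a fixed finite set of residue classes. -/
theorem mul_p_inE1 (V : OrdData K G) (W : Affine K) [CharZero K] [IsAlgClosed K]
    (hΔ : W.Δ ≠ 0)
    (hb₂ : V.Ge W.b₂ 0) (hb₄ : V.Ge W.b₄ 0) (hb₆ : V.Ge W.b₆ 0) (hb₈ : V.Ge W.b₈ 0)
    (p : ℕ) (hp : p.Prime) (hp5 : 5 ≤ p) (hpos : 0 < V.ord (p : K))
    (hunit : ∀ n : ℕ, ¬ p ∣ n → V.ord (n : K) = 0)
    (H : ∀ T : W.Point, p • T = 0 → T = 0) :
    ∃ Z : Finset K, ∀ (x y : K) (h : W.Nonsingular x y), V.Ge x 0 →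
      (∀ r ∈ Z, ¬ V.Gt (x - r) 0) → inE1 V (p • Point.some x y h) :=
  ⟨badSet W (p - 1), fun x y h hx havoid =>
    t2_mul_p_inE1 V W hΔ hb₂ hb₄ hb₆ hb₈ p hp hp5 hpos hunit H x y h hx havoid⟩

end TorsExists

end Abstract

end Fermat.Agent.S13
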