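import Mathlib
import Fermat.Agent.S13.TorsGeneric

/-!
# S13: existence of a point of order `p` (Step 5: translation by a two-torsion point)

If there were no point of order `p`, then `p • P` would lie in the kernel of reduction `E₁` for
every point `P` with generic integral `x`-coordinate (`TorsExists.mul_p_inE1`).  Applying this to
`P` and to `P + Q`, where `Q = (ε, yε)` is a two-torsion point with integral `x`-coordinate,
gives `Q = p • (P + Q) - p • P ∈ E₁`, which is absurd.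
-/

set_option autoImplicit false

open WeierstrassCurve WeierstrassCurve.Affine

namespace Fermat.Agent.S13

open Polynomial Fermat.Agent.S05 Fermat.Agent.S05.OrdData

section Abstract

variable {K : Type*} [Field K] [DecidableEq K] {G : Type*} [AddCommGroup G] [LinearOrder G]
  [IsOrderedAddMonoid G]

namespace TorsExists

omit [DecidableEq K] in
/-- The second Kummer form at a root of `psiSq`. -/
theorem kumSum_two_torsion (W : Affine K) (ε : K) (hε : psiSq W ε = 0) (x : K) :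
    kumSum W x ε = (6 * ε ^ 2 + W.b₂ * ε + W.b₄) * (x - ε) + 2 * ε * (x - ε) ^ 2 := by
  have h : kumSum W x ε =
      psiSq W ε + (6 * ε ^ 2 + W.b₂ * ε + W.b₄) * (x - ε) + 2 * ε * (x - ε) ^ 2 := by
    simp only [kumSum, psiSq]; ring
  rw [h, hε, zero_add]

/-- Translating by the two-torsion point with `x = ε`: the `x`-coordinate of the sum. -/
theorem xOf_add_two_torsion (W : Affine K) (h2 : (2 : K) ≠ 0) (ε yε : K)
    (hQ : W.Nonsingular ε yε) (hε : psiSq W ε = 0) (x y : K) (h : W.Nonsingular x y)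
    (hx : x ≠ ε) :
    Point.some x y h + Point.some ε yε hQ ≠ 0 ∧
    xOf (Point.some x y h + Point.some ε yε hQ) =
      ε + (6 * ε ^ 2 + W.b₂ * ε + W.b₄) / (2 * (x - ε)) := by
  obtain ⟨hne, -, -, hK2⟩ := kummer_generic h2 h hQ hx
  refine ⟨hne, ?_⟩
  have hQQ : Point.some ε yε hQ + Point.some ε yε hQ = 0 := dbl_zero hQ hε
  have hneg : -Point.some ε yε hQ = Point.some ε yε hQ := neg_eq_of_add_eq_zero_left hQQ
  have hsub : Point.some x y h - Point.some ε yε hQ = Point.some x y h + Point.some ε yε hQ := by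
    rw [sub_eq_add_neg, hneg]
  rw [hsub, kumSum_two_torsion W ε hε x] at hK2
  generalize xOf (Point.some x y h + Point.some ε yε hQ) = x' at hK2 ⊢
  have hu : x - ε ≠ 0 := sub_ne_zero.mpr hx
  have e : x' * (2 * (x - ε)) = ε * (2 * (x - ε)) + (6 * ε ^ 2 + W.b₂ * ε + W.b₄) := by
    apply mul_left_cancel₀ hu
    linear_combination hK2
  have h2u : 2 * (x - ε) ≠ 0 := mul_ne_zero h2 hu
  rw [← sub_eq_iff_eq_add', eq_div_iff h2u]
  linear_combination e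

omit [DecidableEq K] in
/-- Over an algebraically closed field of characteristic `≠ 2` every abscissa lifts to a point. -/
theorem exists_nonsingular (W : Affine K) [IsAlgClosed K] (h2 : (2 : K) ≠ 0) (hΔ : W.Δ ≠ 0)
    (x : K) : ∃ y : K, W.Nonsingular x y := by
  obtain ⟨s, hs⟩ := IsAlgClosed.exists_pow_nat_eq
    ((W.a₁ * x + W.a₃) ^ 2 + 4 * (x ^ 3 + W.a₂ * x ^ 2 + W.a₄ * x + W.a₆)) (n := 2) (by norm_num)
  refine ⟨(s - (W.a₁ * x + W.a₃)) / 2, ?_⟩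
  rw [← equation_iff_nonsingular_of_Δ_ne_zero hΔ, Affine.equation_iff]
  field_simp
  linear_combination hs

omit [DecidableEq K] in
/-- Integrality of the `b`-invariants from that of the `a`-invariants. -/
theorem b_integral (V : OrdData K G) (W : Affine K)
    (ha₁ : V.Ge W.a₁ 0) (ha₂ : V.Ge W.a₂ 0) (ha₃ : V.Ge W.a₃ 0) (ha₄ : V.Ge W.a₄ 0)
    (ha₆ : V.Ge W.a₆ 0) :
    V.Ge W.b₂ 0 ∧ V.Ge W.b₄ 0 ∧ V.Ge W.b₆ 0 ∧ V.Ge W.b₈ 0 := by
  refine ⟨?_, ?_, ?_, ?_⟩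
  · simp only [WeierstrassCurve.b₂]
    exact (ha₁.pow0 2).add ((Ge.ofNat 4).mul0 ha₂)
  · simp only [WeierstrassCurve.b₄]
    exact ((Ge.ofNat 2).mul0 ha₄).add (ha₁.mul0 ha₃)
  · simp only [WeierstrassCurve.b₆]
    exact (ha₃.pow0 2).add ((Ge.ofNat 4).mul0 ha₆)
  · simp only [WeierstrassCurve.b₈]
    exact (((((ha₁.pow0 2).mul0 ha₆).add (((Ge.ofNat 4).mul0 ha₂).mul0 ha₆)).sub
      ((ha₁.mul0 ha₃).mul0 ha₄)).add (ha₂.mul0 (ha₃.pow0 2))).sub (ha₄.pow0 2)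

end TorsExists

/-- Existence of a point of order `p`. -/
theorem exists_torsion (V : OrdData K G) (W : Affine K) [CharZero K] [IsAlgClosed K]
    (hΔ : W.Δ ≠ 0)
    (ha₁ : V.Ge W.a₁ 0) (ha₂ : V.Ge W.a₂ 0) (ha₃ : V.Ge W.a₃ 0) (ha₄ : V.Ge W.a₄ 0)
    (ha₆ : V.Ge W.a₆ 0)
    (p : ℕ) (hp : p.Prime) (hp5 : 5 ≤ p) (hpos : 0 < V.ord (p : K))
    (hunit : ∀ n : ℕ, ¬ p ∣ n → V.ord (n : K) = 0)
    (hinf : ∀ s : Finset K, ∃ x : K, V.Ge x 0 ∧ ∀ r ∈ s, ¬ V.Gt (x - r) 0)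
    (ε : K) (hε : psiSq W ε = 0) (hεi : V.Ge ε 0)
    (hκ0 : 6 * ε ^ 2 + W.b₂ * ε + W.b₄ ≠ 0) (hκ : V.ord (6 * ε ^ 2 + W.b₂ * ε + W.b₄) = 0) :
    ∃ T : W.Point, T ≠ 0 ∧ p • T = 0 := by
  by_contra hcon
  have H : ∀ T : W.Point, p • T = 0 → T = 0 := by
    intro T hT
    by_contra hT0
    exact hcon ⟨T, hT0, hT⟩
  have h2 : (2 : K) ≠ 0 := two_ne_zero
  have h2u : V.ord (2 : K) = 0 := by
    have := hunit 2 (by
      intro hdvd
      have := Nat.le_of_dvd (by norm_num) hdvd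
      omega)
    simpa using this
  obtain ⟨hb₂, hb₄, hb₆, hb₈⟩ := TorsExists.b_integral V W ha₁ ha₂ ha₃ ha₄ ha₆
  obtain ⟨Z, hZ⟩ := TorsExists.mul_p_inE1 V W hΔ hb₂ hb₄ hb₆ hb₈ p hp hp5 hpos hunit H
  -- the two-torsion point `Q`
  obtain ⟨yε, hQ⟩ := TorsExists.exists_nonsingular W h2 hΔ ε
  have hQQ : Point.some ε yε hQ + Point.some ε yε hQ = 0 := dbl_zero hQ hε
  have hQE : ¬ inE1 V (Point.some ε yε hQ) := by
    rintro (h | ⟨h0, h1⟩)
    · exact Point.some_ne_zero _ h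
    · rw [xOf_some] at h0 h1
      exact absurd (hεi.le h0) (not_le.mpr h1)
  set κ₂ : K := 6 * ε ^ 2 + W.b₂ * ε + W.b₄ with hκ₂
  -- a generic abscissa
  obtain ⟨x₀, hx₀i, hx₀⟩ := hinf (Z ∪ {ε} ∪ Z.image (fun r => ε + κ₂ / (2 * (r - ε))))
  have hx₀Z : ∀ r ∈ Z, ¬ V.Gt (x₀ - r) 0 := fun r hr =>
    hx₀ r (Finset.mem_union_left _ (Finset.mem_union_left _ hr))
  have hx₀ε : ¬ V.Gt (x₀ - ε) 0 :=
    hx₀ ε (Finset.mem_union_left _ (Finset.mem_union_right _ (Finset.mem_singleton_self ε)))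
  have hu0 : x₀ - ε ≠ 0 := fun h => hx₀ε (Or.inl h)
  have huord : V.ord (x₀ - ε) = 0 := by
    have h1 : 0 ≤ V.ord (x₀ - ε) := (hx₀i.sub hεi).le hu0
    have h2' : ¬ 0 < V.ord (x₀ - ε) := fun h => hx₀ε (Or.inr h)
    exact le_antisymm (not_lt.mp h2') h1
  obtain ⟨y₀, hP⟩ := TorsExists.exists_nonsingular W h2 hΔ x₀
  have hPE : inE1 V (p • Point.some x₀ y₀ hP) := hZ x₀ y₀ hP hx₀i hx₀Z
  -- the translate `P + Q`
  obtain ⟨hPQ0, hxPQ⟩ := TorsExists.xOf_add_two_torsion W h2 ε yε hQ hε x₀ y₀ hP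
    (fun h => hu0 (sub_eq_zero.mpr h))
  rw [← hκ₂] at hxPQ
  obtain ⟨x', y', hP', hPQ⟩ := Iota.exists_some hPQ0
  rw [hPQ, xOf_some] at hxPQ
  -- `w = κ₂ / (2 (x₀ - ε))` is a unit
  have h2u0 : (2 : K) * (x₀ - ε) ≠ 0 := mul_ne_zero h2 hu0
  have h2uord : V.ord ((2 : K) * (x₀ - ε)) = 0 := by
    rw [V.ord_mul _ _ h2 hu0, h2u, huord, add_zero]
  have hw0 : κ₂ / (2 * (x₀ - ε)) ≠ 0 := div_ne_zero hκ0 h2u0
  have hword : V.ord (κ₂ / (2 * (x₀ - ε))) = 0 := by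
    rw [V.ord_div hκ0 h2u0, hκ, h2uord, sub_zero]
  have hx'i : V.Ge x' 0 := by
    rw [hxPQ]
    exact hεi.add (ge_of_ne hw0 hword.ge)
  have hx'Z : ∀ r ∈ Z, ¬ V.Gt (x' - r) 0 := by
    intro r hr hgt
    -- `r - ε` is a unit
    have e1 : r - ε = κ₂ / (2 * (x₀ - ε)) - (x' - r) := by rw [hxPQ]; ring
    have hrε : r - ε ≠ 0 ∧ V.ord (r - ε) = 0 := by
      have := ord_sub_eq (V := V) (x := κ₂ / (2 * (x₀ - ε))) (y := x' - r) hw0
        (by rwa [hword])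
      rwa [← e1, hword] at this
    have h2r0 : (2 : K) * (r - ε) ≠ 0 := mul_ne_zero h2 hrε.1
    have e2 : x₀ - (ε + κ₂ / (2 * (r - ε))) = -((x₀ - ε) * (x' - r) / (r - ε)) := by
      have hr0 := hrε.1
      rw [hxPQ]
      field_simp
      ring
    apply hx₀ (ε + κ₂ / (2 * (r - ε)))
      (Finset.mem_union_right _ (Finset.mem_image_of_mem _ hr))
    rw [e2]
    refine Gt.neg ?_
    by_cases hxr : x' - r = 0
    · left; rw [hxr, mul_zero, zero_div]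
    · right
      rw [V.ord_div (mul_ne_zero hu0 hxr) hrε.1, V.ord_mul _ _ hu0 hxr, huord, hrε.2, zero_add,
        sub_zero]
      exact hgt.lt hxr
  have hPQE : inE1 V (p • Point.some x' y' hP') := hZ x' y' hP' hx'i hx'Z
  -- `p • (P + Q) = p • P + Q`
  have hodd : Odd p := hp.odd_of_ne_two (by omega)
  have hpQ : p • Point.some ε yε hQ = Point.some ε yε hQ := by
    obtain ⟨k, rfl⟩ := hodd
    rw [add_smul, one_smul, mul_comm, mul_smul, two_smul, hQQ, smul_zero, zero_add]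
  rw [← hPQ, smul_add, hpQ] at hPQE
  have hsub := (E1_add' V W h2 hb₂ hb₄ hb₆ hb₈ _ _ hPQE hPE).2.1
  rw [add_sub_cancel_left] at hsub
  exact hQE hsub

end Abstract

end Fermat.Agent.S13
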