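import Mathlib
import Fermat.Agent.Common.Frobenius
import Fermat.Agent.S13.FreyP
import Fermat.Agent.S13.TorsExists

/-!
# S13, WP-Fp (part 2): the Frey curve has a point of order `p`

`frey_exists_torsion`: `E[p] ≠ 0` for the Frey curve over the algebraic closure of the rationals,
from the abstract `exists_torsion` applied at a place over `p`.
-/

set_option autoImplicit false

open WeierstrassCurve WeierstrassCurve.Affine WeierstrassCurve.Affine.Point
open FreyPackage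

namespace Fermat.Agent.S13

open Fermat.Agent.S05 Fermat.Agent.S05.OrdData

local notation "Qb" => AlgebraicClosure ℚ

/-- `E[p] ≠ 0`. -/
theorem frey_exists_torsion (P : FreyPackage) :
    ∃ T : (P.freyCurve⁄Qb).Point, T ≠ 0 ∧ P.p • T = 0 := by
  obtain ⟨A, hA⟩ := Fermat.Agent.Common.exists_liesOverPrime P.p P.pp
  have hq := P.pp
  have hU : ∀ n : ℤ, ¬ (P.p : ℤ) ∣ n → (n : Qb) ≠ 0 ∧ (ordOfSubring A).ord (n : Qb) = 0 :=
    fun n hn => ordOfSubring_intCast_unit A hq hA hn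
  have hp5 := P.hp5
  have hq2' : ¬ (P.p : ℤ) ∣ 2 := by
    intro h
    have h' : P.p ∣ 2 := by exact_mod_cast h
    have := Nat.le_of_dvd (by norm_num) h'
    omega
  have hq4 : ¬ (P.p : ℤ) ∣ 4 := by
    intro h
    have h' : P.p ∣ 4 := by exact_mod_cast h
    have := Nat.le_of_dvd (by norm_num) h'
    omega
  obtain ⟨x, y, z, w, ε, -, h1, h2, h3, hxz, hyz, -, -⟩ := FreyP.frey_roots P hq
  obtain ⟨ha₁, ha₂, ha₃, ha₄, ha₆⟩ := FreyP.frey_integral (ordOfSubring A) P hU hq4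
  obtain ⟨hε, hεi, hκ0, hκ⟩ :=
    FreyP.frey_eps (ordOfSubring A) P hU hq2' hq4 x y z h1 h2 h3 hxz hyz
  have hunit : ∀ n : ℕ, ¬ P.p ∣ n → (ordOfSubring A).ord (n : Qb) = 0 := by
    intro n hn
    have h := (hU (n : ℤ) (by exact_mod_cast hn)).2
    rwa [Int.cast_natCast] at h
  exact exists_torsion (ordOfSubring A) (P.freyCurve⁄Qb) (FreyP.frey_Δ_ne_zero P)
    ha₁ ha₂ ha₃ ha₄ ha₆ P.p P.pp P.hp5 (ord_prime_pos A P.p P.pp hA).2 hunit
    (exists_not_congr A P.p P.pp hA) ((z : Qb) / 4) hε hεi hκ0 hκ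

end Fermat.Agent.S13
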