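import Fermat.Agent.S13.FinalCore
import Fermat.Agent.S13.FreyTors

set_option autoImplicit false

/-!
# S13, WP-S: final assembly

`final`: if the mod `p` representation of the Frey curve is reducible, there is a Galois-stable
line with trivial action on the quotient.
-/

open WeierstrassCurve WeierstrassCurve.Affine WeierstrassCurve.Affine.Point

namespace Fermat.Agent.S13

/-- If the mod `p` representation of the Frey curve is reducible, it has a Galois-stable line
with trivial action on the quotient. -/
theorem final (P : FreyPackage)
    (hred : ¬ GaloisRepIsIrreducible (K := AlgebraicClosure ℚ) ℚ P.freyCurve P.p) :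
    HasGaloisStableCofixedLine (K := AlgebraicClosure ℚ) ℚ P.freyCurve P.p :=
  Final.final_core P (frey_exists_torsion P) hred

end Fermat.Agent.S13
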