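import Mathlib
import Fermat.Agent.S13.PairRec
import Fermat.Agent.S13.Gauss
import Fermat.Agent.S13.PairInt
import Fermat.Agent.S13.EOne2

set_option autoImplicit false

/-!
# `E₁ ∩ E[p]` is cyclic under a ramification bound

If `T₀ ∈ E₁` is a point of order `p` with `ord p ≤ ((p-1)/2) • (-ord x(T₀))`, then every
`p`-torsion point of `E₁` is a multiple of `T₀`.  Proof: the `x`-coordinates of the multiples
`k T₀`, `1 ≤ k ≤ (p-1)/2`, and of a further point `T` would be `(p+1)/2` distinct double roots of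
negative order of the integral polynomial `pairB W p`, whose leading coefficient is `p²` times a
unit; this contradicts the Newton-polygon inequality `gauss_bound`.
-/

open WeierstrassCurve WeierstrassCurve.Affine

namespace Fermat.Agent.S13

open Polynomial Fermat.Agent.S05 Fermat.Agent.S05.OrdData

section Abstract

variable {K : Type*} [Field K] [DecidableEq K] {G : Type*} [AddCommGroup G] [LinearOrder G]
  [IsOrderedAddMonoid G]

namespace NStar

/-- A nonzero point killed by a prime `p` has exact order `p`. -/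
lemma nsmul_ne_zero_of_lt {W : Affine K} {p : ℕ} (hp : p.Prime) {S : W.Point} (hS0 : S ≠ 0)
    (hS : p • S = 0) (m : ℕ) (hm1 : 1 ≤ m) (hm : m < p) : m • S ≠ 0 := by
  intro h
  have h1 : addOrderOf S ∣ p := addOrderOf_dvd_of_nsmul_eq_zero hS
  have h2 : addOrderOf S ∣ m := addOrderOf_dvd_of_nsmul_eq_zero h
  rcases (Nat.dvd_prime hp).mp h1 with h3 | h3
  · exact hS0 (AddMonoid.addOrderOf_eq_one_iff.mp h3)
  · rw [h3] at h2
    exact absurd (Nat.le_of_dvd (by omega) h2) (by omega)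

end NStar

/-- `E₁ ∩ E[p]` is the line spanned by `T₀` as soon as `T₀ ∈ E₁` has small ramification. -/
theorem nstar (V : OrdData K G) (W : Affine K) [CharZero K]
    (hb₂ : V.Ge W.b₂ 0) (hb₄ : V.Ge W.b₄ 0) (hb₆ : V.Ge W.b₆ 0) (hb₈ : V.Ge W.b₈ 0)
    (p : ℕ) (hp : p.Prime) (hp5 : 5 ≤ p)
    (hunit : ∀ n : ℕ, ¬ p ∣ n → V.ord (n : K) = 0)
    (T₀ T : W.Point) (hT₀0 : T₀ ≠ 0) (hT₀ : p • T₀ = 0) (hE : inE1 V T₀)
    (hdeg : V.ord (p : K) ≤ ((p - 1) / 2) • (-V.ord (xOf T₀)))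
    (hT : p • T = 0) (hTE : inE1 V T) : ∃ k : ℕ, T = k • T₀ := by
  classical
  by_contra hcon
  push Not at hcon
  have h2 : (2 : K) ≠ 0 := two_ne_zero
  have hT0 : T ≠ 0 := by
    intro h
    exact hcon 0 (by rw [h, zero_smul])
  obtain ⟨hxT0, hxTord⟩ := hTE.resolve_left hT0
  obtain ⟨hx00, hx0ord⟩ := hE.resolve_left hT₀0
  obtain ⟨h, hh⟩ : ∃ h : ℕ, h = (p - 1) / 2 := ⟨_, rfl⟩
  rw [← hh] at hdeg
  have hcast : ∀ k : ℕ, 1 ≤ k → k < p → (k : K) ≠ 0 ∧ V.ord (k : K) = 0 := by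
    intro k hk1 hkp
    refine ⟨by exact_mod_cast (by omega : k ≠ 0), hunit k ?_⟩
    intro hdvd
    exact absurd (Nat.le_of_dvd (by omega) hdvd) (by omega)
  have hS : ∀ k : ℕ, 1 ≤ k → k < p →
      k • T₀ ≠ 0 ∧ xOf (k • T₀) ≠ 0 ∧ V.ord (xOf (k • T₀)) = V.ord (xOf T₀) := by
    intro k hk1 hkp
    obtain ⟨hk0, hku⟩ := hcast k hk1 hkp
    exact E1_ord_nsmul' V W h2 hb₂ hb₄ hb₆ hb₈ T₀ hE hT₀0 k hk0 hku
  have hdvd : ∀ S : W.Point, S ≠ 0 → p • S = 0 → (X - C (xOf S)) ^ 2 ∣ pairB W p := by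
    intro S hS0 hSp
    obtain ⟨x, y, hxy, rfl⟩ := Iota.exists_some hS0
    exact pair_sq_dvd h2 hxy p (by omega) hSp
      (fun m hm2 hmp => NStar.nsmul_ne_zero_of_lt hp hS0 hSp m (by omega) hmp)
  have hinj : Set.InjOn (fun k : ℕ => xOf (k • T₀)) (Finset.Icc 1 h : Set ℕ) := by
    intro j hj k hk hjk
    simp only [Finset.coe_Icc, Set.mem_Icc] at hj hk
    by_contra hne
    have hj' := hS j hj.1 (by omega)
    have hk' := hS k hk.1 (by omega)
    rcases Iota.eq_or_eq_neg_of_xOf_eq hj'.1 hk'.1 hjk with e | e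
    · rcases Nat.lt_or_gt_of_ne hne with hlt | hlt
      · have : (k - j) • T₀ = 0 := by
          rw [sub_nsmul _ hlt.le, e]; simp
        exact NStar.nsmul_ne_zero_of_lt hp hT₀0 hT₀ (k - j) (by omega) (by omega) this
      · have : (j - k) • T₀ = 0 := by
          rw [sub_nsmul _ hlt.le, e]; simp
        exact NStar.nsmul_ne_zero_of_lt hp hT₀0 hT₀ (j - k) (by omega) (by omega) this
    · have : (j + k) • T₀ = 0 := by rw [add_nsmul, e]; simp
      exact NStar.nsmul_ne_zero_of_lt hp hT₀0 hT₀ (j + k) (by omega) (by omega) this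
  have hTnot : xOf T ∉ (Finset.Icc 1 h).image (fun k : ℕ => xOf (k • T₀)) := by
    intro hmem
    obtain ⟨k, hk, e⟩ := Finset.mem_image.mp hmem
    rw [Finset.mem_Icc] at hk
    have hk' := hS k hk.1 (by omega)
    rcases Iota.eq_or_eq_neg_of_xOf_eq hT0 hk'.1 e.symm with e' | e'
    · exact hcon k e'
    · apply hcon (p - k)
      rw [e', sub_nsmul _ (by omega : k ≤ p), hT₀, zero_add]
  obtain ⟨-, hBlead⟩ := pair_lead W p (by omega)
  have hp0 : (p : K) ≠ 0 := by exact_mod_cast hp.ne_zero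
  have hLC0 : (pairLC p : K) ≠ 0 := by exact_mod_cast (pairLC_pos p).ne'
  have hLCu : V.ord (pairLC p : K) = 0 :=
    hunit _ (fun hd => by have := pairLC_prime_dvd hp p hd; omega)
  have hc0 : (p : K) ^ 2 * (pairLC p : K) ≠ 0 := mul_ne_zero (pow_ne_zero 2 hp0) hLC0
  have hB0 : pairB W p ≠ 0 := hBlead.ne_zero hc0
  have hlc : (pairB W p).leadingCoeff = (p : K) ^ 2 * (pairLC p : K) :=
    hBlead.leadingCoeff_eq hc0
  have hint : IntPoly V (pairB W p) := (pair_intPoly W hb₂ hb₄ hb₆ hb₈ p (by omega)).2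
  have hs : ∀ r ∈ insert (xOf T) ((Finset.Icc 1 h).image (fun k : ℕ => xOf (k • T₀))),
      r ≠ 0 ∧ V.ord r < 0 := by
    intro r hr
    rcases Finset.mem_insert.mp hr with rfl | hr
    · exact ⟨hxT0, hxTord⟩
    · obtain ⟨k, hk, rfl⟩ := Finset.mem_image.mp hr
      rw [Finset.mem_Icc] at hk
      have hk' := hS k hk.1 (by omega)
      exact ⟨hk'.2.1, by rw [hk'.2.2]; exact hx0ord⟩
  have hd : ∀ r ∈ insert (xOf T) ((Finset.Icc 1 h).image (fun k : ℕ => xOf (k • T₀))),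
      (X - C r) ^ ((fun _ : K => 2) r) ∣ pairB W p := by
    intro r hr
    rcases Finset.mem_insert.mp hr with rfl | hr
    · exact hdvd T hT0 hT
    · obtain ⟨k, hk, rfl⟩ := Finset.mem_image.mp hr
      rw [Finset.mem_Icc] at hk
      have hk' := hS k hk.1 (by omega)
      exact hdvd (k • T₀) hk'.1 (by rw [smul_comm, hT₀, smul_zero])
  have hG := gauss_bound (V := V) (pairB W p) hint hB0 _ (fun _ => 2) hs hd
  rw [hlc, V.ord_mul _ _ (pow_ne_zero 2 hp0) hLC0, V.ord_pow hp0, hLCu, add_zero] at hG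
  have hsum : ∑ r ∈ insert (xOf T) ((Finset.Icc 1 h).image (fun k : ℕ => xOf (k • T₀))),
      2 • (-V.ord r) = 2 • (-V.ord (xOf T)) + h • (2 • (-V.ord (xOf T₀))) := by
    rw [Finset.sum_insert hTnot, Finset.sum_image hinj]
    congr 1
    have : ∀ k ∈ Finset.Icc 1 h, 2 • (-V.ord (xOf (k • T₀))) = 2 • (-V.ord (xOf T₀)) := by
      intro k hk
      rw [Finset.mem_Icc] at hk
      rw [(hS k hk.1 (by omega)).2.2]
    rw [Finset.sum_congr rfl this, Finset.sum_const, Nat.card_Icc]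
    simp
  rw [hsum] at hG
  have h3 : 2 • V.ord (p : K) ≤ h • (2 • (-V.ord (xOf T₀))) := by
    rw [smul_comm]
    exact nsmul_le_nsmul_right hdeg 2
  have h4 : 2 • (-V.ord (xOf T)) ≤ 0 := by
    have h5 := hG.trans h3
    by_contra h6
    rw [not_le] at h6
    have := lt_add_of_pos_left (h • (2 • (-V.ord (xOf T₀)))) h6
    exact absurd h5 (not_le.mpr this)
  have h5 : 0 < 2 • (-V.ord (xOf T)) := nsmul_pos (neg_pos.mpr hxTord) (by norm_num)
  exact absurd h4 (not_le.mpr h5)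

end Abstract

end Fermat.Agent.S13
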