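import Mathlib
import Fermat.Prelude.Def_FLTPrelim_GaloisRep
import Fermat.Agent.S51.GalFixed

/-!
# S13, WP-R: rational polynomials from Galois-stable sets, and stabilizers of points

* `exists_rat_poly`: a Galois-stable finite set `S` of algebraic numbers is contained in the
  root set of a monic rational polynomial of degree `S.card`.
* `isOpen_stabilizer_point`: the stabilizer of a point of an elliptic curve (over the algebraic
  closure of the rationals) in the absolute Galois group is a Krull-topology neighbourhood of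
  each of its elements.
-/

set_option autoImplicit false

open WeierstrassCurve WeierstrassCurve.Affine WeierstrassCurve.Affine.Point

namespace Fermat.Agent.S13

local notation "Qb" => AlgebraicClosure ℚ

namespace RatPoly

open Polynomial

/-- The polynomial `∏_{x ∈ S} (X - x)` is fixed by a field automorphism preserving `S`. -/
theorem map_prod_eq (S : Finset Qb) (σ : Qb ≃ₐ[ℚ] Qb) (hS : ∀ x ∈ S, σ x ∈ S) :
    (∏ x ∈ S, (X - C x)).map (σ : Qb →+* Qb) = ∏ x ∈ S, (X - C x) := by
  rw [Polynomial.map_prod]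
  simp only [Polynomial.map_sub, Polynomial.map_X, Polynomial.map_C]
  have himg : S.image σ = S := by
    apply Finset.eq_of_subset_of_card_le
    · intro y hy
      obtain ⟨x, hx, rfl⟩ := Finset.mem_image.mp hy
      exact hS x hx
    · rw [Finset.card_image_of_injective _ σ.injective]
  conv_rhs => rw [← himg]
  rw [Finset.prod_image (fun x _ y _ h => σ.injective h)]
  rfl

/-- The coefficients of `∏_{x ∈ S} (X - x)` are rational when `S` is Galois-stable. -/
theorem coeff_mem_range (S : Finset Qb) (hS : ∀ σ : Qb ≃ₐ[ℚ] Qb, ∀ x ∈ S, σ x ∈ S) (n : ℕ) :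
    (∏ x ∈ S, (X - C x) : Polynomial Qb).coeff n ∈ Set.range (algebraMap ℚ Qb) := by
  obtain ⟨q, hq⟩ := Fermat.Agent.S51.mem_range_of_fixed
    ((∏ x ∈ S, (X - C x) : Polynomial Qb).coeff n) (by
      intro σ
      have h := congrArg (fun g : Polynomial Qb => g.coeff n) (map_prod_eq S σ (hS σ))
      simp only [Polynomial.coeff_map] at h
      exact h)
  exact ⟨q, hq⟩

/-- The Galois action on an affine point is the coordinatewise action. -/
theorem smul_some (E : WeierstrassCurve ℚ) (σ : Qb ≃ₐ[ℚ] Qb) {x y : Qb}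
    (h : (E⁄Qb).Nonsingular x y) :
    σ • (Point.some x y h : (E⁄Qb).Point) =
      Point.some (σ x) (σ y)
        ((WeierstrassCurve.Affine.baseChange_nonsingular E σ.toAlgHom.injective ..).mpr h) := rfl

end RatPoly

open Polynomial in
/-- A Galois-stable finite set of algebraic numbers is the root set of a monic rational
polynomial of degree its cardinality. -/
theorem exists_rat_poly (S : Finset Qb) (hS : ∀ σ : Qb ≃ₐ[ℚ] Qb, ∀ x ∈ S, σ x ∈ S) :
    ∃ f : Polynomial ℚ, f.Monic ∧ f.natDegree = S.card ∧ ∀ x ∈ S, Polynomial.aeval x f = 0 := by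
  have hmonic : (∏ x ∈ S, (X - C x) : Polynomial Qb).Monic :=
    Polynomial.monic_prod_of_monic _ _ (fun x _ => Polynomial.monic_X_sub_C x)
  have hlift : (∏ x ∈ S, (X - C x) : Polynomial Qb) ∈ Polynomial.lifts (algebraMap ℚ Qb) :=
    (Polynomial.lifts_iff_coeff_lifts _).mpr (RatPoly.coeff_mem_range S hS)
  obtain ⟨f, hf, hdeg, hfm⟩ := Polynomial.lifts_and_natDegree_eq_and_monic hlift hmonic
  refine ⟨f, hfm, ?_, ?_⟩
  · rw [hdeg, Polynomial.natDegree_prod_of_monic _ _ (fun x _ => Polynomial.monic_X_sub_C x)]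
    simp
  · intro x hx
    rw [Polynomial.aeval_def, Polynomial.eval₂_eq_eval_map, hf, Polynomial.eval_prod]
    exact Finset.prod_eq_zero hx (by simp)

/-- Stabilizers of points are open. -/
theorem isOpen_stabilizer_point (E : WeierstrassCurve ℚ) (T : (E⁄Qb).Point) :
    IsOpen {σ : Qb ≃ₐ[ℚ] Qb | σ • T = T} := by
  have : Algebra.IsIntegral ℚ Qb := (AlgebraicClosure.isAlgebraic ℚ).isIntegral
  cases T with
  | zero =>
    have : {σ : Qb ≃ₐ[ℚ] Qb | σ • (Point.zero : (E⁄Qb).Point) = Point.zero} = Set.univ := by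
      ext σ
      simp only [Set.mem_ofPred_eq, Set.mem_univ, iff_true]
      rfl
    rw [this]
    exact isOpen_univ
  | some x y h =>
    have h1 : IsOpen (MulAction.stabilizer (Qb ≃ₐ[ℚ] Qb) x : Set (Qb ≃ₐ[ℚ] Qb)) :=
      stabilizer_isOpen_of_isIntegral x
    have h2 : IsOpen (MulAction.stabilizer (Qb ≃ₐ[ℚ] Qb) y : Set (Qb ≃ₐ[ℚ] Qb)) :=
      stabilizer_isOpen_of_isIntegral y
    have : {σ : Qb ≃ₐ[ℚ] Qb | σ • (Point.some x y h : (E⁄Qb).Point) = Point.some x y h} =
        (MulAction.stabilizer (Qb ≃ₐ[ℚ] Qb) x : Set (Qb ≃ₐ[ℚ] Qb)) ∩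
          (MulAction.stabilizer (Qb ≃ₐ[ℚ] Qb) y : Set (Qb ≃ₐ[ℚ] Qb)) := by
      ext σ
      simp only [Set.mem_ofPred_eq, Set.mem_inter_iff, SetLike.mem_coe,
        MulAction.mem_stabilizer_iff]
      rw [RatPoly.smul_some E σ h]
      constructor
      · intro hσ
        exact Point.some.inj hσ
      · rintro ⟨hx, hy⟩
        have hx' : σ x = x := hx
        have hy' : σ y = y := hy
        simp only [hx', hy']
    rw [this]
    exact h1.inter h2

end Fermat.Agent.S13
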