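import Mathlib
import Fermat.Prelude.Def_FLTPrelim_FreyPackage
import Fermat.Prelude.Def_FLTPrelim_GaloisRep
import Fermat.Prelude.Def_FLTPrelim_Ramification
import Fermat.Agent.S05.Core
import Fermat.Agent.S05.OfSubring
import Fermat.Agent.S13.ValQbar
import Fermat.Agent.S13.RatPoly
import Fermat.Agent.S13.NStar

/-!
# S13, work package Fp (third part): `E₁ ∩ E[p]` of the Frey curve at a place over `p`
-/

set_option autoImplicit false

open WeierstrassCurve WeierstrassCurve.Affine WeierstrassCurve.Affine.Point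

namespace Fermat.Agent.S13

open Fermat.Agent.S05 Fermat.Agent.S05.OrdData

local notation "Qb" => AlgebraicClosure ℚ

namespace FreyNStar

/-- rational numbers with a power of two as denominator are integral at places over odd primes -/
theorem ratCast_div_two_pow_mem (A : ValuationSubring Qb) {ℓ : ℕ} (hℓ : ℓ.Prime) (hℓ2 : ℓ ≠ 2)
    (hA : A.LiesOverPrime ℓ) (m : ℤ) (k : ℕ) :
    (((m : ℚ) / 2 ^ k : ℚ) : Qb) ∈ A := by
  have h2 : A.valuation ((2 : ℕ) : Qb) = 1 :=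
    ValQbar.valuation_natCast_eq_one A hℓ hA 2 (fun h => hℓ2 ((Nat.prime_dvd_prime_iff_eq hℓ
      Nat.prime_two).mp h))
  have h2' : ((2 : Qb))⁻¹ ∈ A := by
    rw [← A.valuation_le_one_iff, map_inv₀]
    have : A.valuation (2 : Qb) = 1 := by exact_mod_cast h2
    rw [this, inv_one]
  have e : (((m : ℚ) / 2 ^ k : ℚ) : Qb) = (m : Qb) * ((2 : Qb)⁻¹) ^ k := by
    push_cast
    rw [div_eq_mul_inv, inv_pow]
  rw [e]
  exact A.mul_mem _ _ (intCast_mem A m) (pow_mem h2' k)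

/-- the Galois action on `x`-coordinates -/
theorem xOf_smul (E : WeierstrassCurve ℚ) (σ : Qb ≃ₐ[ℚ] Qb) (Q : (E⁄Qb).Point) :
    xOf (σ • Q) = σ (xOf Q) := by
  rcases Q with _ | ⟨x, y, h⟩
  · change xOf (0 : (E⁄Qb).Point) = σ (xOf (0 : (E⁄Qb).Point))
    simp
  · rfl

theorem smul_nsmul' (E : WeierstrassCurve ℚ) (σ : Qb ≃ₐ[ℚ] Qb) (k : ℕ) (Q : (E⁄Qb).Point) :
    σ • (k • Q) = k • (σ • Q) :=
  (Point.map (W' := E) σ.toAlgHom).map_nsmul k Q

theorem smul_eq_zero' (E : WeierstrassCurve ℚ) (σ : Qb ≃ₐ[ℚ] Qb) (Q : (E⁄Qb).Point)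
    (h : σ • Q = 0) : Q = 0 := by
  rcases Q with _ | ⟨x, y, hxy⟩
  · rfl
  · exact absurd h (Point.some_ne_zero _)

/-- multiples of a point of order `p` only depend on the multiplier modulo `p` -/
theorem mod_nsmul {M : Type*} [AddCommGroup M] (T : M) (p : ℕ) (hT : p • T = 0) (n : ℕ) :
    (n % p) • T = n • T := by
  have h : (p * (n / p)) • T = 0 := by
    rw [mul_nsmul, hT, smul_zero]
  conv_rhs => rw [← Nat.mod_add_div n p]
  rw [add_nsmul, h, add_zero]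

/-- the set of `x`-coordinates of the multiples of a point spanning a Galois-stable line -/
theorem galois_stable (E : WeierstrassCurve ℚ) (p : ℕ) (hp : p.Prime) (hpodd : p ≠ 2)
    (T₀ : (E⁄Qb).Point) (hT₀0 : T₀ ≠ 0) (hT₀ : p • T₀ = 0)
    (hstab : ∀ σ : Qb ≃ₐ[ℚ] Qb, ∃ k : ℕ, σ • T₀ = k • T₀)
    (σ : Qb ≃ₐ[ℚ] Qb) (x : Qb)
    (hx : x ∈ (Finset.Icc 1 ((p - 1) / 2)).image (fun k : ℕ => xOf (k • T₀))) :
    σ x ∈ (Finset.Icc 1 ((p - 1) / 2)).image (fun k : ℕ => xOf (k • T₀)) := by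
  obtain ⟨k, hk, rfl⟩ := Finset.mem_image.mp hx
  rw [Finset.mem_Icc] at hk
  obtain ⟨k', hk'⟩ := hstab σ
  have hp2 := hp.two_le
  obtain ⟨t, ht⟩ : Odd p := hp.eq_two_or_odd'.resolve_left hpodd
  -- `k • T₀ ≠ 0`
  have hkT : k • T₀ ≠ 0 := by
    intro h0
    have hdvd : addOrderOf T₀ ∣ k := addOrderOf_dvd_of_nsmul_eq_zero h0
    have hord : addOrderOf T₀ = p := by
      have h1 : addOrderOf T₀ ∣ p := addOrderOf_dvd_of_nsmul_eq_zero hT₀
      rcases (Nat.dvd_prime hp).mp h1 with h2 | h2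
      · exact absurd (AddMonoid.addOrderOf_eq_one_iff.mp h2) hT₀0
      · exact h2
    rw [hord] at hdvd
    have := Nat.le_of_dvd (by omega) hdvd
    omega
  have h1 : σ • (k • T₀) = ((k * k') % p) • T₀ := by
    rw [smul_nsmul', hk', ← mul_nsmul', mod_nsmul T₀ p hT₀]
  have hm0 : (k * k') % p ≠ 0 := by
    intro h0
    rw [h0, zero_nsmul] at h1
    exact hkT (smul_eq_zero' E σ _ h1)
  have hmlt : (k * k') % p < p := Nat.mod_lt _ (by omega)
  rw [← xOf_smul, h1]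
  set m := (k * k') % p with hm
  by_cases hle : m ≤ (p - 1) / 2
  · exact Finset.mem_image.mpr ⟨m, Finset.mem_Icc.mpr ⟨by omega, hle⟩, rfl⟩
  · refine Finset.mem_image.mpr ⟨p - m, Finset.mem_Icc.mpr ⟨by omega, by omega⟩, ?_⟩
    have h2 : (p - m) • T₀ = -(m • T₀) := by
      rw [eq_neg_iff_add_eq_zero, ← add_nsmul]
      have : p - m + m = p := by omega
      rw [this, hT₀]
    show xOf ((p - m) • T₀) = xOf (m • T₀)
    rw [h2, xOf_neg]

end FreyNStar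

/-- If a Galois-stable line `⟨T₀⟩` lies in `E₁` (at a place over `p`), then
`E₁ ∩ E[p] = ⟨T₀⟩`. -/
theorem frey_nstar (P : FreyPackage) (A : ValuationSubring Qb) (hA : A.LiesOverPrime P.p)
    (T₀ : (P.freyCurve⁄Qb).Point) (hT₀0 : T₀ ≠ 0) (hT₀ : P.p • T₀ = 0)
    (hstab : ∀ σ : Qb ≃ₐ[ℚ] Qb, ∃ k : ℕ, σ • T₀ = k • T₀)
    (hE : inE1 (ordOfSubring A) T₀)
    (T : (P.freyCurve⁄Qb).Point) (hT : P.p • T = 0) (hTE : inE1 (ordOfSubring A) T) :
    ∃ k : ℕ, T = k • T₀ := by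
  classical
  have hp := P.pp
  have hp5 := P.hp5
  have hp2 : P.p ≠ 2 := by omega
  -- integrality of the `b`-invariants
  have hmem : ∀ (m : ℤ) (k : ℕ), (((m : ℚ) / 2 ^ k : ℚ) : Qb) ∈ A :=
    FreyNStar.ratCast_div_two_pow_mem A hp hp2 hA
  have hge : ∀ (q : ℚ) (m : ℤ) (k : ℕ), q = (m : ℚ) / 2 ^ k →
      (ordOfSubring A).Ge (algebraMap ℚ Qb q) 0 := by
    intro q m k hq
    rw [ordOfSubring_ge_iff, eq_ratCast, hq]
    exact hmem m k
  have hb₂ : (ordOfSubring A).Ge (P.freyCurve⁄Qb).b₂ 0 := by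
    have e : (P.freyCurve⁄Qb).b₂ = algebraMap ℚ Qb P.freyCurve.b₂ :=
      WeierstrassCurve.map_b₂ P.freyCurve (algebraMap ℚ Qb)
    rw [e]
    refine hge _ (P.b ^ P.p - P.a ^ P.p) 0 ?_
    simp only [WeierstrassCurve.b₂, FreyPackage.freyCurve]
    push_cast
    ring
  have hb₄ : (ordOfSubring A).Ge (P.freyCurve⁄Qb).b₄ 0 := by
    have e : (P.freyCurve⁄Qb).b₄ = algebraMap ℚ Qb P.freyCurve.b₄ :=
      WeierstrassCurve.map_b₄ P.freyCurve (algebraMap ℚ Qb)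
    rw [e]
    refine hge _ (-(P.a ^ P.p * P.b ^ P.p)) 3 ?_
    simp only [WeierstrassCurve.b₄, FreyPackage.freyCurve]
    push_cast
    ring
  have hb₆ : (ordOfSubring A).Ge (P.freyCurve⁄Qb).b₆ 0 := by
    have e : (P.freyCurve⁄Qb).b₆ = algebraMap ℚ Qb P.freyCurve.b₆ :=
      WeierstrassCurve.map_b₆ P.freyCurve (algebraMap ℚ Qb)
    rw [e]
    refine hge _ 0 0 ?_
    simp only [WeierstrassCurve.b₆, FreyPackage.freyCurve]
    push_cast
    ring
  have hb₈ : (ordOfSubring A).Ge (P.freyCurve⁄Qb).b₈ 0 := by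
    have e : (P.freyCurve⁄Qb).b₈ = algebraMap ℚ Qb P.freyCurve.b₈ :=
      WeierstrassCurve.map_b₈ P.freyCurve (algebraMap ℚ Qb)
    rw [e]
    refine hge _ (-(P.a ^ P.p * P.b ^ P.p) ^ 2) 8 ?_
    simp only [WeierstrassCurve.b₈, FreyPackage.freyCurve]
    push_cast
    ring
  -- units
  have hunit : ∀ n : ℕ, ¬ P.p ∣ n → (ordOfSubring A).ord (n : Qb) = 0 := by
    intro n hn
    have hn0 : (n : Qb) ≠ 0 := by
      rw [Nat.cast_ne_zero]
      rintro rfl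
      exact hn (dvd_zero _)
    exact ValQbar.ord_eq_zero_of_valuation A hn0 (ValQbar.valuation_natCast_eq_one A hp hA n hn)
  -- the degree bound
  obtain ⟨hx₀, hord₀⟩ : xOf T₀ ≠ 0 ∧ (ordOfSubring A).ord (xOf T₀) < 0 := hE.resolve_left hT₀0
  set S : Finset Qb := (Finset.Icc 1 ((P.p - 1) / 2)).image (fun k : ℕ => xOf (k • T₀)) with hS
  have hScard : S.card ≤ (P.p - 1) / 2 := by
    refine le_trans Finset.card_image_le ?_
    simp
  have hx₀S : xOf T₀ ∈ S := by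
    refine Finset.mem_image.mpr ⟨1, Finset.mem_Icc.mpr ⟨le_refl _, by omega⟩, ?_⟩
    simp
  obtain ⟨f, hfm, hfdeg, hfroot⟩ := exists_rat_poly S
    (fun σ x hx => FreyNStar.galois_stable P.freyCurve P.p hp hp2 T₀ hT₀0 hT₀ hstab σ x hx)
  obtain ⟨n, hn1, hn2, m, hm⟩ := exists_nsmul_ord_eq A P.p hp hA (xOf T₀) hx₀ f hfm.ne_zero
    (hfroot _ hx₀S)
  obtain ⟨-, hppos⟩ := ord_prime_pos A P.p hp hA
  have hdeg : (ordOfSubring A).ord (P.p : Qb) ≤
      ((P.p - 1) / 2) • (-(ordOfSubring A).ord (xOf T₀)) := by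
    have hneg : n • (ordOfSubring A).ord (xOf T₀) < 0 := nsmul_neg hord₀ (by omega)
    have hm0 : m < 0 := by
      by_contra hm0
      have : 0 ≤ m • (ordOfSubring A).ord (P.p : Qb) := zsmul_nonneg hppos.le (by omega)
      rw [← hm] at this
      exact absurd hneg (not_lt.mpr this)
    obtain ⟨j, rfl⟩ := Int.eq_negSucc_of_lt_zero hm0
    rw [negSucc_zsmul] at hm
    have h1 : n • (-(ordOfSubring A).ord (xOf T₀)) = (j + 1) • (ordOfSubring A).ord (P.p : Qb) := by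
      rw [neg_nsmul, hm, neg_neg]
    have h2 : (ordOfSubring A).ord (P.p : Qb) ≤ (j + 1) • (ordOfSubring A).ord (P.p : Qb) := by
      rw [succ_nsmul]
      exact le_add_of_nonneg_left (nsmul_nonneg hppos.le j)
    have h3 : n • (-(ordOfSubring A).ord (xOf T₀)) ≤
        ((P.p - 1) / 2) • (-(ordOfSubring A).ord (xOf T₀)) :=
      nsmul_le_nsmul_left (by rw [neg_nonneg]; exact hord₀.le) (by omega)
    calc (ordOfSubring A).ord (P.p : Qb) ≤ (j + 1) • (ordOfSubring A).ord (P.p : Qb) := h2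
      _ = n • (-(ordOfSubring A).ord (xOf T₀)) := h1.symm
      _ ≤ _ := h3
  exact nstar (ordOfSubring A) (P.freyCurve⁄Qb) hb₂ hb₄ hb₆ hb₈ P.p hp hp5 hunit T₀ T hT₀0 hT₀ hE
    hdeg hT hTE

end Fermat.Agent.S13
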