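import Mathlib
import Fermat.Agent.S13.Node

/-!
# S13 WP-L2 (part 1): the node datum in residue characteristic `2`

For the curve `y² + xy = x³ + a₂x² + a₄x` with `ord 2 > 0`, `a₂` integral and `ord a₄ > 0`,
the reduction has a node at the origin; the Kummer forms in the coordinate `u = x` are
`(u₁u₂ - a₄)²` and `2u₁u₂(u₁+u₂) + (1+4a₂)u₁u₂ + 2a₄(u₁+u₂)`.
-/

set_option autoImplicit false

open WeierstrassCurve WeierstrassCurve.Affine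

namespace Fermat.Agent.S13

open Fermat.Agent.S05 Fermat.Agent.S05.OrdData

section Abstract

variable {K : Type*} [Field K] [DecidableEq K] {G : Type*} [AddCommGroup G] [LinearOrder G]
  [IsOrderedAddMonoid G]

namespace NodeTwo

omit [DecidableEq K] in
/-- `4a` has positive order when `ord 2 > 0` and `a` is integral. -/
theorem four_mul_gt (V : OrdData K G) (h2pos : 0 < V.ord (2 : K)) (h2 : (2 : K) ≠ 0) {a : K}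
    (ha : V.Ge a 0) : V.Gt (4 * a) 0 := by
  have h2gt : V.Gt (2 : K) 0 := gt_of_ne h2 h2pos
  have h4 : V.Gt ((2 : K) * 2) 0 := Gt.mul_right0 h2gt h2gt.ge
  have e : (4 : K) * a = 2 * 2 * a := by ring
  rw [e]
  exact Gt.mul_right0 h4 ha

omit [DecidableEq K] in
/-- `b₂ = 1 + 4a₂` is a unit. -/
theorem c2_unit (V : OrdData K G) (h2pos : 0 < V.ord (2 : K)) (h2 : (2 : K) ≠ 0) {a : K}
    (ha : V.Ge a 0) : 1 + 4 * a ≠ 0 ∧ V.ord (1 + 4 * a) = 0 := by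
  have h := ord_add_eq (V := V) (x := 1) (y := 4 * a) one_ne_zero
    (by rw [V.ord_one]; exact four_mul_gt V h2pos h2 ha)
  rw [V.ord_one] at h
  exact h

omit [DecidableEq K] in
theorem b2_eq (W : Affine K) (ha₁ : W.a₁ = 1) : W.b₂ = 1 + 4 * W.a₂ := by
  simp only [WeierstrassCurve.b₂, ha₁]; ring

omit [DecidableEq K] in
theorem b4_eq (W : Affine K) (ha₁ : W.a₁ = 1) (ha₃ : W.a₃ = 0) : W.b₄ = 2 * W.a₄ := by
  simp only [WeierstrassCurve.b₄, ha₁, ha₃]; ring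

omit [DecidableEq K] in
theorem b6_eq (W : Affine K) (ha₃ : W.a₃ = 0) (ha₆ : W.a₆ = 0) : W.b₆ = 0 := by
  simp only [WeierstrassCurve.b₆, ha₃, ha₆]; ring

omit [DecidableEq K] in
theorem b8_eq (W : Affine K) (ha₃ : W.a₃ = 0) (ha₆ : W.a₆ = 0) : W.b₈ = -W.a₄ ^ 2 := by
  simp only [WeierstrassCurve.b₈, ha₃, ha₆]; ring

omit [DecidableEq K] in
theorem kumProd_eq (W : Affine K) (ha₁ : W.a₁ = 1) (ha₃ : W.a₃ = 0) (ha₆ : W.a₆ = 0)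
    (x₁ x₂ : K) : kumProd W x₁ x₂ = (x₁ * x₂ - W.a₄) ^ 2 := by
  simp only [kumProd, b4_eq W ha₁ ha₃, b6_eq W ha₃ ha₆, b8_eq W ha₃ ha₆]; ring

omit [DecidableEq K] in
theorem kumSum_eq (W : Affine K) (ha₁ : W.a₁ = 1) (ha₃ : W.a₃ = 0) (ha₆ : W.a₆ = 0)
    (x₁ x₂ : K) : kumSum W x₁ x₂ =
      2 * x₁ * x₂ * (x₁ + x₂) + (1 + 4 * W.a₂) * x₁ * x₂ + 2 * W.a₄ * (x₁ + x₂) := by
  simp only [kumSum, b2_eq W ha₁, b4_eq W ha₁ ha₃, b6_eq W ha₃ ha₆]; ring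

omit [DecidableEq K] in
theorem psiSq_eq (W : Affine K) (ha₁ : W.a₁ = 1) (ha₃ : W.a₃ = 0) (ha₆ : W.a₆ = 0)
    (x : K) : psiSq W x = 4 * x ^ 3 + (1 + 4 * W.a₂) * x ^ 2 + 4 * W.a₄ * x := by
  simp only [psiSq, b2_eq W ha₁, b4_eq W ha₁ ha₃, b6_eq W ha₃ ha₆]; ring

omit [DecidableEq K] in
theorem dblNum_eq (W : Affine K) (ha₁ : W.a₁ = 1) (ha₃ : W.a₃ = 0) (ha₆ : W.a₆ = 0)
    (x : K) : dblNum W x = (x ^ 2 - W.a₄) ^ 2 := by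
  simp only [dblNum, b4_eq W ha₁ ha₃, b6_eq W ha₃ ha₆, b8_eq W ha₃ ha₆]; ring

end NodeTwo

/-- The node datum at the origin: `ε = 0`, `κ = a₄`, `c₂ = b₂ = 1 + 4a₂`, `c₃ = 2a₄`. -/
noncomputable def nodeTwo (V : OrdData K G) (W : Affine K) (h2pos : 0 < V.ord (2 : K))
    (h2 : (2 : K) ≠ 0)
    (ha₁ : W.a₁ = 1) (ha₃ : W.a₃ = 0) (ha₆ : W.a₆ = 0) (ha₂ : V.Ge W.a₂ 0)
    (ha₄0 : W.a₄ ≠ 0) (ha₄ : 0 < V.ord W.a₄) : NodeData V W where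
  ε := 0
  κ := W.a₄
  c₂ := 1 + 4 * W.a₂
  c₃ := 2 * W.a₄
  hprod := fun x₁ x₂ => by
    rw [NodeTwo.kumProd_eq W ha₁ ha₃ ha₆]; ring
  hsum := fun x₁ x₂ => by
    rw [NodeTwo.kumSum_eq W ha₁ ha₃ ha₆]; ring
  hε := Ge.zero 0
  hκ0 := ha₄0
  hκ := ha₄
  hc₂0 := (NodeTwo.c2_unit V h2pos h2 ha₂).1
  hc₂ := (NodeTwo.c2_unit V h2pos h2 ha₂).2
  hc₃ := by
    right
    rw [V.ord_mul 2 W.a₄ h2 ha₄0]
    exact le_add_of_nonneg_left h2pos.le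

omit [DecidableEq K] in
theorem nodeTwo_ε (V : OrdData K G) (W : Affine K) (h2pos : 0 < V.ord (2 : K)) (h2 : (2 : K) ≠ 0)
    (ha₁ : W.a₁ = 1) (ha₃ : W.a₃ = 0) (ha₆ : W.a₆ = 0) (ha₂ : V.Ge W.a₂ 0)
    (ha₄0 : W.a₄ ≠ 0) (ha₄ : 0 < V.ord W.a₄) :
    (nodeTwo V W h2pos h2 ha₁ ha₃ ha₆ ha₂ ha₄0 ha₄).ε = 0 ∧
    (nodeTwo V W h2pos h2 ha₁ ha₃ ha₆ ha₂ ha₄0 ha₄).κ = W.a₄ :=
  ⟨rfl, rfl⟩

end Abstract

end Fermat.Agent.S13
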