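import Fermat.Agent.S05.Core
import Fermat.Agent.S13.NodeTwo
import Fermat.Agent.S13.EOne2

/-!
# S13, WP-L2 (part 2): inertia at a place of residue characteristic two

The curve is `y² + xy = x³ + a₂x² + a₄x` with `ord a₄ > 0` in residue characteristic `2`
(node at the origin).  An inertia-like endomorphism `σ` fixes the `p`-torsion points with unit
`x`-coordinate, and moves a `p`-torsion point reducing to the node by `0` or by a point with unit
`x`-coordinate.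
-/

set_option autoImplicit false

open WeierstrassCurve WeierstrassCurve.Affine

namespace Fermat.Agent.S13

open Fermat.Agent.S05 Fermat.Agent.S05.OrdData

variable {K : Type*} [Field K] [DecidableEq K] {G : Type*} [AddCommGroup G] [LinearOrder G]
  [IsOrderedAddMonoid G]

namespace LocalTwo

variable {V : OrdData K G} {W : Affine K}

omit [DecidableEq K] in
lemma b₂_eq (ha₁ : W.a₁ = 1) : W.b₂ = 1 + 4 * W.a₂ := by
  simp only [WeierstrassCurve.b₂, ha₁]; ring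

omit [DecidableEq K] in
lemma b₄_eq (ha₁ : W.a₁ = 1) (ha₃ : W.a₃ = 0) : W.b₄ = 2 * W.a₄ := by
  simp only [WeierstrassCurve.b₄, ha₁, ha₃]; ring

omit [DecidableEq K] in
lemma b₆_eq (ha₃ : W.a₃ = 0) (ha₆ : W.a₆ = 0) : W.b₆ = 0 := by
  simp only [WeierstrassCurve.b₆, ha₃, ha₆]; ring

omit [DecidableEq K] in
lemma b₈_eq (ha₃ : W.a₃ = 0) (ha₆ : W.a₆ = 0) : W.b₈ = -W.a₄ ^ 2 := by
  simp only [WeierstrassCurve.b₈, ha₃, ha₆]; ring

omit [DecidableEq K] in
lemma two_gt (h2 : (2 : K) ≠ 0) (h2pos : 0 < V.ord (2 : K)) : V.Gt (2 : K) 0 :=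
  gt_of_ne h2 h2pos

omit [DecidableEq K] in
lemma four_gt (h2 : (2 : K) ≠ 0) (h2pos : 0 < V.ord (2 : K)) : V.Gt (4 : K) 0 := by
  have e : (4 : K) = 2 * 2 := by norm_num
  rw [e]
  exact Gt.mul_right0 (two_gt h2 h2pos) (Ge.ofNat 2)

omit [DecidableEq K] in
lemma c₂_unit (h2 : (2 : K) ≠ 0) (h2pos : 0 < V.ord (2 : K)) (ha₂ : V.Ge W.a₂ 0) :
    1 + 4 * W.a₂ ≠ 0 ∧ V.ord (1 + 4 * W.a₂) = 0 :=
  unit_add one_ne_zero V.ord_one (Gt.mul_right0 (four_gt h2 h2pos) ha₂)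

omit [DecidableEq K] in
lemma a₄_ge (ha₄0 : W.a₄ ≠ 0) (ha₄ : 0 < V.ord W.a₄) : V.Ge W.a₄ 0 :=
  ge_of_ne ha₄0 ha₄.le

omit [DecidableEq K] in
lemma b_ge (h2 : (2 : K) ≠ 0) (h2pos : 0 < V.ord (2 : K))
    (ha₁ : W.a₁ = 1) (ha₃ : W.a₃ = 0) (ha₆ : W.a₆ = 0) (ha₂ : V.Ge W.a₂ 0)
    (ha₄0 : W.a₄ ≠ 0) (ha₄ : 0 < V.ord W.a₄) :
    V.Ge W.b₂ 0 ∧ V.Ge W.b₄ 0 ∧ V.Ge W.b₆ 0 ∧ V.Ge W.b₈ 0 := by
  have h4 := a₄_ge (V := V) ha₄0 ha₄
  refine ⟨?_, ?_, ?_, ?_⟩
  · rw [b₂_eq ha₁]; exact Ge.one.add ((Ge.ofNat 4).mul0 ha₂)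
  · rw [b₄_eq ha₁ ha₃]; exact (Ge.ofNat 2).mul0 h4
  · rw [b₆_eq ha₃ ha₆]; exact Ge.zero 0
  · rw [b₈_eq ha₃ ha₆]; exact (h4.pow0 2).neg

omit [DecidableEq K] in
/-- Integrality of the `y`-coordinate of a point with integral `x`-coordinate. -/
lemma y_ge (ha₁ : W.a₁ = 1) (ha₃ : W.a₃ = 0) (ha₆ : W.a₆ = 0) (ha₂ : V.Ge W.a₂ 0)
    (ha₄ : V.Ge W.a₄ 0) {x y : K} (h : W.Equation x y) (hx : V.Ge x 0) : V.Ge y 0 := by
  rw [Affine.equation_iff, ha₁, ha₃, ha₆] at h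
  by_contra hcon
  have hy0 : y ≠ 0 := fun h0 => hcon (Or.inl h0)
  have hyneg : V.ord y < 0 := by
    by_contra h1
    exact hcon (Or.inr (not_lt.mp h1))
  have h1 := ord_add_eq (V := V) hy0 (y := x) (hx.gt_of_lt hyneg)
  have e : y * (y + x) = x ^ 3 + W.a₂ * x ^ 2 + W.a₄ * x := by linear_combination h
  have hR : V.Ge (x ^ 3 + W.a₂ * x ^ 2 + W.a₄ * x) 0 :=
    ((hx.pow0 3).add (ha₂.mul0 (hx.pow0 2))).add (ha₄.mul0 hx)
  rw [← e] at hR
  have h2 := hR.le (mul_ne_zero hy0 h1.1)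
  rw [V.ord_mul _ _ hy0 h1.1, h1.2] at h2
  have h3 : V.ord y + V.ord y < 0 := Left.add_neg hyneg hyneg
  exact absurd h2 (not_le.mpr h3)

/-- Points with unit `x`-coordinate are fixed or moved by a nonzero element of the kernel of
reduction. -/
lemma unit_case (h2 : (2 : K) ≠ 0) (h2pos : 0 < V.ord (2 : K)) (ha₁ : W.a₁ = 1)
    (ha₃ : W.a₃ = 0) (ha₂ : V.Ge W.a₂ 0)
    (σ : K →+* K) (hσ : ∀ a : K, V.Ge a 0 → V.Gt (σ a - a) 0)
    {x y : K} (h : W.Nonsingular x y) (h' : W.Nonsingular (σ x) (σ y))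
    (hx0 : x ≠ 0) (hxu : V.ord x = 0) (hy : V.Ge y 0) :
    (σ x = x ∧ σ y = y) ∨
      (Point.some x y h - Point.some (σ x) (σ y) h' ≠ 0 ∧
        inE1 V (Point.some x y h - Point.some (σ x) (σ y) h')) := by
  have hx : V.Ge x 0 := ge_of_ne hx0 (le_of_eq hxu.symm)
  have gx := hσ x hx
  have gy := hσ y hy
  have hx' : V.Ge (σ x) 0 := by
    have : σ x = x + (σ x - x) := by ring
    rw [this]; exact hx.add gx.ge
  have g2y : V.Gt (2 * y) 0 := Gt.mul_right0 (two_gt h2 h2pos) hy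
  by_cases hxx : σ x = x
  · left
    refine ⟨hxx, ?_⟩
    rcases Y_eq_of_X_eq h.1 h'.1 hxx.symm with hyy | hyy
    · exact hyy.symm
    · exfalso
      simp only [negY, ha₁, ha₃] at hyy
      rw [hxx] at hyy
      have e : x = -(σ y - y) - 2 * y := by linear_combination hyy
      have hg : V.Gt x 0 := by rw [e]; exact gy.neg.sub g2y
      have := hg.lt hx0
      rw [hxu] at this
      exact lt_irrefl _ this
  · right
    have hnumexp : y - W.negY (σ x) (σ y) = x + (2 * y + (σ y - y) + (σ x - x)) := by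
      simp only [negY, ha₁, ha₃]; ring
    have hnum := unit_add (V := V) hx0 hxu (y := 2 * y + (σ y - y) + (σ x - x))
      ((g2y.add gy).add gx)
    rw [← hnumexp] at hnum
    have hden : x - σ x ≠ 0 := sub_ne_zero.mpr (Ne.symm hxx)
    have hdeng : V.Gt (x - σ x) 0 := by
      have : x - σ x = -(σ x - x) := by ring
      rw [this]; exact gx.neg
    have ha₁' : V.Ge W.a₁ 0 := by rw [ha₁]; exact Ge.one
    exact CoreAux.sub_mem_E1 V W ha₁' ha₂ h h' hx hx' (Ne.symm hxx) hnum.1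
      (by rw [hnum.2]; exact hdeng.lt hden)

/-- Points reducing to the node (but not to the component of the two-torsion point): either
fixed, or `x(σT - T) (r - 1)² = r + c` with `r = σ x / x` a unit and `c` in the maximal ideal. -/
lemma node_case (h2 : (2 : K) ≠ 0) (h2pos : 0 < V.ord (2 : K)) (ha₁ : W.a₁ = 1)
    (ha₃ : W.a₃ = 0) (ha₆ : W.a₆ = 0) (ha₂ : V.Ge W.a₂ 0) (ha₄0 : W.a₄ ≠ 0)
    (σ : K →+* K) (hσ : ∀ a : K, V.Ge a 0 → V.Gt (σ a - a) 0)
    (hσord : ∀ a : K, a ≠ 0 → V.ord (σ a) = V.ord a)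
    {x y : K} (h : W.Nonsingular x y) (h' : W.Nonsingular (σ x) (σ y))
    (hx0 : x ≠ 0) (hxpos : 0 < V.ord x) (hxlt : V.ord x < V.ord W.a₄) :
    (σ x = x ∧ σ y = y) ∨
      (Point.some (σ x) (σ y) h' - Point.some x y h ≠ 0 ∧
        ∃ r c : K, r ≠ 0 ∧ V.ord r = 0 ∧ r - 1 ≠ 0 ∧ V.Gt c 0 ∧
          xOf (Point.some (σ x) (σ y) h' - Point.some x y h) * (r - 1) ^ 2 = r + c) := by
  have heq := h.1
  rw [Affine.equation_iff, ha₁, ha₃, ha₆] at heq
  obtain ⟨t, ht⟩ : ∃ t, t = y / x := ⟨_, rfl⟩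
  have hy : y = t * x := by rw [ht]; field_simp
  have ht_eq : t ^ 2 + t - W.a₂ = x + W.a₄ / x := by
    rw [ht]; field_simp; linear_combination heq
  have gxx : V.Gt x 0 := gt_of_ne hx0 hxpos
  have hgt : V.Gt (t ^ 2 + t - W.a₂) 0 := by
    rw [ht_eq]
    refine gxx.add (gt_of_ne (div_ne_zero ha₄0 hx0) ?_)
    rw [V.ord_div ha₄0 hx0]; exact sub_pos.mpr hxlt
  have htge : V.Ge t 0 := by
    by_contra hcon
    have ht0 : t ≠ 0 := fun h0 => hcon (Or.inl h0)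
    have htneg : V.ord t < 0 := by
      by_contra h1
      exact hcon (Or.inr (not_lt.mp h1))
    have h1 := ord_add_eq (V := V) ht0 (y := 1) (Ge.one.gt_of_lt htneg)
    have e : t * (t + 1) = (t ^ 2 + t - W.a₂) + W.a₂ := by ring
    have hR : V.Ge (t * (t + 1)) 0 := by rw [e]; exact hgt.ge.add ha₂
    have h2' := hR.le (mul_ne_zero ht0 h1.1)
    rw [V.ord_mul _ _ ht0 h1.1, h1.2] at h2'
    have h3 : V.ord t + V.ord t < 0 := Left.add_neg htneg htneg
    exact absurd h2' (not_le.mpr h3)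
  have hσx0 : σ x ≠ 0 := (map_ne_zero σ).mpr hx0
  obtain ⟨r, hr⟩ : ∃ r, r = σ x / x := ⟨_, rfl⟩
  have hr0 : r ≠ 0 := by rw [hr]; exact div_ne_zero hσx0 hx0
  have hru : V.ord r = 0 := by rw [hr, V.ord_div hσx0 hx0, hσord x hx0, sub_self]
  have hrge : V.Ge r 0 := ge_of_ne hr0 (le_of_eq hru.symm)
  have hσx : σ x = r * x := by rw [hr]; field_simp
  obtain ⟨e, he⟩ : ∃ e, e = σ t - t := ⟨_, rfl⟩
  have ge : V.Gt e 0 := by rw [he]; exact hσ t htge
  have hσt : σ t = σ y / σ x := by rw [ht, map_div₀]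
  have hσy : σ y = (t + e) * (r * x) := by
    have : σ y = σ t * σ x := by rw [hσt]; field_simp
    rw [this, hσx, he]; ring
  by_cases hxx : σ x = x
  · left
    refine ⟨hxx, ?_⟩
    rcases Y_eq_of_X_eq h.1 h'.1 hxx.symm with hyy | hyy
    · exact hyy.symm
    · exfalso
      simp only [negY, ha₁, ha₃] at hyy
      have hr1 : r = 1 := by rw [hr, hxx]; exact div_self hx0
      rw [hσx, hσy, hy, hr1] at hyy
      have e1 : x * (1 + e + 2 * t) = 0 := by linear_combination hyy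
      have e2 : 1 + (e + 2 * t) = 0 := by
        rcases mul_eq_zero.mp e1 with h0 | h0
        · exact absurd h0 hx0
        · linear_combination h0
      have hu := unit_add (V := V) (one_ne_zero (α := K)) V.ord_one (y := e + 2 * t)
        (ge.add (Gt.mul_right0 (two_gt h2 h2pos) htge))
      exact hu.1 e2
  · right
    have hr1 : r - 1 ≠ 0 := by
      intro h0
      apply hxx
      rw [hσx, sub_eq_zero.mp h0, one_mul]
    have hD : Point.some (σ x) (σ y) h' - Point.some x y h ≠ 0 := by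
      rw [sub_eq_add_neg, Point.neg_some, Point.add_of_X_ne hxx]
      exact Point.some_ne_zero _
    refine ⟨hD, r, (r + 1) ^ 2 * (t ^ 2 + t - W.a₂) + 4 * r * W.a₂ +
      r * e * (2 * ((r + 1) * t + 1) + r - 1 + r * e) - (σ x + x) * (r - 1) ^ 2,
      hr0, hru, hr1, ?_, ?_⟩
    · have hr1ge : V.Ge (r + 1) 0 := hrge.add Ge.one
      have hrm1ge : V.Ge (r - 1) 0 := hrge.sub Ge.one
      have gσx : V.Gt (σ x) 0 := by
        rw [hσx]; exact Gt.mul_left0 hrge gxx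
      refine Gt.sub (Gt.add (Gt.add ?_ ?_) ?_) ?_
      · exact Gt.mul_left0 (hr1ge.pow0 2) hgt
      · exact Gt.mul_right0 (Gt.mul_right0 (four_gt h2 h2pos) hrge) ha₂
      · refine Gt.mul_right0 (Gt.mul_left0 hrge ge) ?_
        refine Ge.add (Ge.sub (Ge.add ((Ge.ofNat 2).mul0 ((hr1ge.mul0 htge).add Ge.one)) hrge)
          Ge.one) (hrge.mul0 ge.ge)
      · exact Gt.mul_right0 (gσx.add gxx) (hrm1ge.pow0 2)
    · rw [sub_eq_add_neg, Point.neg_some, Point.add_of_X_ne hxx]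
      simp only [xOf_some]
      rw [slope_of_X_ne hxx]
      have hℓ : (σ y - W.negY x y) / (σ x - x) = (r * (t + e) + t + 1) / (r - 1) := by
        simp only [negY, ha₁, ha₃]
        rw [hσy, hσx, hy]
        have hd : r * x - x ≠ 0 := by
          have : r * x - x = (r - 1) * x := by ring
          rw [this]; exact mul_ne_zero hr1 hx0
        field_simp
        ring
      rw [hℓ]
      simp only [addX, ha₁]
      field_simp
      ring

end LocalTwo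

open LocalTwo

/-- Action of an inertia-like endomorphism on `p`-torsion at `2`: points of `E₀` are fixed;
for points reducing to the node, `σT - T` is zero or has unit `x`-coordinate. -/
theorem local_two (V : OrdData K G) (W : Affine K) (h2 : (2 : K) ≠ 0)
    (h2pos : 0 < V.ord (2 : K))
    (ha₁ : W.a₁ = 1) (ha₃ : W.a₃ = 0) (ha₆ : W.a₆ = 0) (ha₂ : V.Ge W.a₂ 0)
    (ha₄0 : W.a₄ ≠ 0) (ha₄ : 0 < V.ord W.a₄)
    (α β : K) (hαβ : α + β = -1) (hαβ' : α * β = -W.a₂)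
    (p : ℕ) (hp : p.Prime) (hp2 : p ≠ 2) (hp0 : (p : K) ≠ 0) (hpu : V.ord (p : K) = 0)
    (σ : K →+* K) (hσ : ∀ a : K, V.Ge a 0 → V.Gt (σ a - a) 0)
    (hσord : ∀ a : K, a ≠ 0 → V.ord (σ a) = V.ord a)
    {x y : K} (h : W.Nonsingular x y) (hT : p • Point.some x y h = 0)
    (h' : W.Nonsingular (σ x) (σ y)) (hT' : p • Point.some (σ x) (σ y) h' = 0) :
    (V.ord x ≤ 0 → σ x = x ∧ σ y = y) ∧
    (0 < V.ord x → (σ x = x ∧ σ y = y) ∨
      (Point.some (σ x) (σ y) h' - Point.some x y h ≠ 0 ∧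
        xOf (Point.some (σ x) (σ y) h' - Point.some x y h) ≠ 0 ∧
        V.ord (xOf (Point.some (σ x) (σ y) h' - Point.some x y h)) = 0)) := by
  obtain ⟨hb₂, hb₄, hb₆, hb₈⟩ := b_ge (V := V) h2 h2pos ha₁ ha₃ ha₆ ha₂ ha₄0 ha₄
  have hodd : Odd p := hp.odd_of_ne_two hp2
  have hT0 : Point.some x y h ≠ 0 := Point.some_ne_zero h
  have tf : ∀ S : W.Point, inE1 V S → p • S = 0 → S = 0 := fun S hS hpS =>
    E1_torsion' V W h2 hb₂ hb₄ hb₆ hb₈ S hS p hp0 hpu hpS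
  have hx0 : x ≠ 0 := by
    have := (nodeTwo V W h2pos h2 ha₁ ha₃ ha₆ ha₂ ha₄0 ha₄).u_ne_zero hodd hT0 hT
    rw [(nodeTwo_ε V W h2pos h2 ha₁ ha₃ ha₆ ha₂ ha₄0 ha₄).1, sub_zero, xOf_some] at this
    exact this
  refine ⟨fun hle => ?_, fun hpos => ?_⟩
  · have hxu : V.ord x = 0 := by
      by_contra hne
      have hlt : V.ord x < 0 := lt_of_le_of_ne hle hne
      exact hT0 (tf _ (Or.inr ⟨hx0, hlt⟩) hT)
    have hx : V.Ge x 0 := ge_of_ne hx0 (le_of_eq hxu.symm)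
    have hy : V.Ge y 0 := y_ge ha₁ ha₃ ha₆ ha₂ (a₄_ge ha₄0 ha₄) h.1 hx
    rcases unit_case h2 h2pos ha₁ ha₃ ha₂ σ hσ h h' hx0 hxu hy with hfix | ⟨hD0, hD1⟩
    · exact hfix
    · exfalso
      apply hD0
      apply tf _ hD1
      rw [smul_sub, hT, hT', sub_zero]
  · have hlt : V.ord x < V.ord W.a₄ := by
      have := (nodeTwo V W h2pos h2 ha₁ ha₃ ha₆ ha₂ ha₄0 ha₄).ord_u_lt h2 hodd hT0 hT
      rw [(nodeTwo_ε V W h2pos h2 ha₁ ha₃ ha₆ ha₂ ha₄0 ha₄).1,
        (nodeTwo_ε V W h2pos h2 ha₁ ha₃ ha₆ ha₂ ha₄0 ha₄).2, sub_zero, xOf_some] at this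
      exact this
    rcases node_case h2 h2pos ha₁ ha₃ ha₆ ha₂ ha₄0 σ hσ hσord h h' hx0 hpos hlt with
      hfix | ⟨hD0, r, c, hr0, hru, hr1, hc, hxD⟩
    · exact Or.inl hfix
    · right
      have hpD : p • (Point.some (σ x) (σ y) h' - Point.some x y h) = 0 := by
        rw [smul_sub, hT', hT, sub_zero]
      generalize Point.some (σ x) (σ y) h' - Point.some x y h = D at hD0 hxD hpD ⊢
      have hu := unit_add (V := V) hr0 hru hc
      rw [← hxD] at hu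
      have hxD0 : xOf D ≠ 0 := left_ne_zero_of_mul hu.1
      have hsq0 : (r - 1) ^ 2 ≠ 0 := pow_ne_zero 2 hr1
      have hord : V.ord (xOf D) + 2 • V.ord (r - 1) = 0 := by
        have := hu.2
        rwa [V.ord_mul _ _ hxD0 hsq0, V.ord_pow hr1] at this
      have hr1ge : 0 ≤ V.ord (r - 1) :=
        ((ge_of_ne (V := V) hr0 (le_of_eq hru.symm)).sub Ge.one).le hr1
      refine ⟨hD0, hxD0, ?_⟩
      by_contra hne
      have hpos' : 0 < V.ord (r - 1) := by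
        rcases hr1ge.lt_or_eq with h1 | h1
        · exact h1
        · exfalso
          rw [← h1, smul_zero, add_zero] at hord
          exact hne hord
      have hneg : V.ord (xOf D) < 0 := by
        have h3 : 0 < 2 • V.ord (r - 1) := nsmul_pos hpos' (by norm_num)
        have e : V.ord (xOf D) = -(2 • V.ord (r - 1)) := eq_neg_of_add_eq_zero_left hord
        rw [e]
        exact neg_lt_zero.mpr h3
      exact hD0 (tf _ (Or.inr ⟨hxD0, hneg⟩) hpD)

end Fermat.Agent.S13
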