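import Mathlib
import Fermat.Agent.S13.Node
import Fermat.Agent.S13.EOne2
import Fermat.Agent.S13.NodeTwo

/-!
# S13 WP-L2 (part 3): no "rational" point of odd prime order at `2`

For the curve `y² + xy = x³ + a₂x² + a₄x` with `ord a₄ = m • ord 2 > 0`: a nonzero point `T`
of prime order `p ≥ 5`, `p ∤ 2m`, cannot be "rational" at `2` (orders of the `x`-coordinates in
`ℤ • ord 2`, unit `x`-coordinates `≡ 1`).  Indeed the component map forces `ord x(T) ≤ 0`; if
`ord x(T) < 0` then `T` lies in the kernel of reduction; if `ord x(T) = 0` then `x(T) ≡ 1`,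
hence `x(2T) ≡ 1` and `3T` lies in the kernel of reduction, which has no `p`-torsion.
-/

set_option autoImplicit false

open WeierstrassCurve WeierstrassCurve.Affine

namespace Fermat.Agent.S13

open Fermat.Agent.S05 Fermat.Agent.S05.OrdData

namespace RatTwo

/-- The arithmetic core of the component-group argument. -/
theorem int_aux (p m : ℕ) (hp : p.Prime) (hpm : ¬ p ∣ 2 * m) (j k : ℤ) (hj0 : 0 < j)
    (hjm : j < m) (h : (p : ℤ) * j = k * (2 * m)) : False := by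
  have h1 : (p : ℤ) ∣ k * ((2 * m : ℕ) : ℤ) := ⟨j, by push_cast; linarith⟩
  have hp' : Prime (p : ℤ) := Nat.prime_iff_prime_int.mp hp
  rcases hp'.dvd_or_dvd h1 with h2 | h2
  · obtain ⟨k', rfl⟩ := h2
    have h3 : j = k' * (2 * m) := by
      have hp0 : (p : ℤ) ≠ 0 := by exact_mod_cast hp.ne_zero
      apply mul_left_cancel₀ hp0
      rw [h]; ring
    rcases le_or_gt k' 0 with h4 | h4
    · have : k' * (2 * (m : ℤ)) ≤ 0 := mul_nonpos_of_nonpos_of_nonneg h4 (by positivity)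
      omega
    · have h5 : (1 : ℤ) ≤ k' := h4
      have hm0 : (0 : ℤ) ≤ 2 * (m : ℤ) := by positivity
      have : 1 * (2 * (m : ℤ)) ≤ k' * (2 * (m : ℤ)) := mul_le_mul_of_nonneg_right h5 hm0
      omega
  · exact hpm (by exact_mod_cast h2)

/-- The order-theoretic form of the component-group argument: a multiple `j • g` of `g > 0`
strictly between `0` and `m • g` cannot satisfy `p • (j • g) ∈ ℤ • (2 • (m • g))`. -/
theorem ord_aux {G : Type*} [AddCommGroup G] [LinearOrder G] [IsOrderedAddMonoid G]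
    (g : G) (hg : 0 < g) (p m : ℕ) (hp : p.Prime) (hpm : ¬ p ∣ 2 * m) (j k : ℤ)
    (hj0 : 0 < j • g) (hjm : j • g < m • g) (h : p • (j • g) = k • (2 • (m • g))) : False := by
  have hmono : StrictMono (fun n : ℤ => n • g) := zsmul_left_strictMono hg
  have h0 : (0 : ℤ) < j := by
    have : (fun n : ℤ => n • g) 0 < (fun n : ℤ => n • g) j := by simpa using hj0
    exact hmono.lt_iff_lt.mp this
  have h1 : j < (m : ℤ) := by
    have : (fun n : ℤ => n • g) j < (fun n : ℤ => n • g) (m : ℤ) := by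
      simpa [natCast_zsmul] using hjm
    exact hmono.lt_iff_lt.mp this
  have h2 : (p : ℤ) * j = k * (2 * m) := by
    apply hmono.injective
    show ((p : ℤ) * j) • g = (k * (2 * (m : ℤ))) • g
    rw [mul_zsmul, natCast_zsmul, mul_zsmul, mul_zsmul, natCast_zsmul, h]
    rw [show ((2 : ℤ) • (m • g)) = 2 • (m • g) from by
      rw [show (2 : ℤ) = ((2 : ℕ) : ℤ) from rfl, natCast_zsmul]]
  exact int_aux p m hp hpm j k h0 h1 h2

end RatTwo

section Abstract

variable {K : Type*} [Field K] [DecidableEq K] {G : Type*} [AddCommGroup G] [LinearOrder G]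
  [IsOrderedAddMonoid G]

/-- No "rational" point of order `p` at `2`: the orders of the `x`-coordinates of all multiples
are integer multiples of `ord 2`, unit `x`-coordinates are `≡ 1`, and `p ∤ 2m` where
`ord a₄ = m • ord 2`. -/
theorem no_rational_torsion_two (V : OrdData K G) (W : Affine K) (h2 : (2 : K) ≠ 0)
    (h2pos : 0 < V.ord (2 : K))
    (ha₁ : W.a₁ = 1) (ha₃ : W.a₃ = 0) (ha₆ : W.a₆ = 0) (ha₂ : V.Ge W.a₂ 0)
    (ha₄0 : W.a₄ ≠ 0) (m : ℕ) (hm0 : 0 < m) (hm : V.ord W.a₄ = m • V.ord (2 : K))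
    (p : ℕ) (hp : p.Prime) (hp5 : 5 ≤ p) (hp0 : (p : K) ≠ 0) (hpu : V.ord (p : K) = 0)
    (hpm : ¬ p ∣ 2 * m)
    (T : W.Point) (hT0 : T ≠ 0) (hT : p • T = 0)
    (hrat : ∀ k : ℕ, k • T ≠ 0 →
      (∃ j : ℤ, V.ord (xOf (k • T)) = j • V.ord (2 : K)) ∧
      (V.ord (xOf (k • T)) = 0 → V.Gt (xOf (k • T) - 1) 0)) : False := by
  have ha₄ : 0 < V.ord W.a₄ := by rw [hm]; exact nsmul_pos h2pos hm0.ne'
  have ha₄gt : V.Gt W.a₄ 0 := gt_of_ne ha₄0 ha₄
  have hodd : Odd p := hp.odd_of_ne_two (by omega)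
  -- integrality of the `b`-invariants
  have hb₂ : V.Ge W.b₂ 0 := by
    rw [NodeTwo.b2_eq W ha₁]
    exact Ge.one.add (NodeTwo.four_mul_gt V h2pos h2 ha₂).ge
  have hb₄ : V.Ge W.b₄ 0 := by
    rw [NodeTwo.b4_eq W ha₁ ha₃]
    exact (Ge.ofNat 2).mul0 ha₄gt.ge
  have hb₆ : V.Ge W.b₆ 0 := by
    rw [NodeTwo.b6_eq W ha₃ ha₆]; exact Ge.zero 0
  have hb₈ : V.Ge W.b₈ 0 := by
    rw [NodeTwo.b8_eq W ha₃ ha₆]; exact (ha₄gt.ge.pow0 2).neg
  -- the kernel of reduction has no `p`-torsion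
  have hE1 : ∀ S : W.Point, inE1 V S → p • S = 0 → S = 0 := fun S hS hpS =>
    E1_torsion' V W h2 hb₂ hb₄ hb₆ hb₈ S hS p hp0 hpu hpS
  -- the node datum
  let D : NodeData V W := nodeTwo V W h2pos h2 ha₁ ha₃ ha₆ ha₂ ha₄0 ha₄
  have hu0 : xOf T - 0 ≠ 0 := D.u_ne_zero hodd hT0 hT
  have hult : V.ord (xOf T - 0) < V.ord W.a₄ := D.ord_u_lt h2 hodd hT0 hT
  obtain ⟨k, hk⟩ : ∃ k : ℤ, p • clamp (V.ord W.a₄) (V.ord (xOf T - 0)) =
      k • (2 • V.ord W.a₄) := D.iota_torsion h2 hodd hT0 hT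
  rw [sub_zero] at hu0 hult hk
  obtain ⟨⟨j, hj⟩, hunit⟩ := hrat 1 (by rwa [one_smul])
  rw [one_smul] at hj hunit
  obtain ⟨x, y, h, rfl⟩ := Iota.exists_some hT0
  rw [xOf_some] at hu0 hult hk hj hunit
  -- Step 1: `ord x ≤ 0`
  have hx_le : V.ord x ≤ 0 := by
    by_contra hpos
    rw [not_le] at hpos
    rw [Table.clamp_of_mem hpos.le hult.le, hj, hm] at hk
    rw [hj] at hpos
    rw [hj, hm] at hult
    exact RatTwo.ord_aux (V.ord (2 : K)) h2pos p m hp hpm j k hpos hult hk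
  rcases lt_or_eq_of_le hx_le with hneg | hzero
  · -- `T` lies in the kernel of reduction
    exact hT0 (hE1 _ (Or.inr ⟨hu0, hneg⟩) hT)
  -- Step 2: `ord x = 0`, so `x ≡ 1`
  have hx1 : V.Gt (x - 1) 0 := hunit hzero
  have hxge : V.Ge x 0 := ge_of_ne hu0 hzero.ge
  have h4gt : ∀ a : K, V.Ge a 0 → V.Gt (4 * a) 0 := fun a ha =>
    NodeTwo.four_mul_gt V h2pos h2 ha
  -- `psiSq` is a unit
  have hx2 : x ^ 2 ≠ 0 := pow_ne_zero 2 hu0
  have hx2ord : V.ord (x ^ 2) = 0 := by rw [V.ord_pow hu0, hzero, smul_zero]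
  have hpsi_eq : psiSq W x = x ^ 2 + 4 * (x ^ 3 + W.a₂ * x ^ 2 + W.a₄ * x) := by
    rw [NodeTwo.psiSq_eq W ha₁ ha₃ ha₆]; ring
  have hpsi : psiSq W x ≠ 0 ∧ V.ord (psiSq W x) = 0 := by
    rw [hpsi_eq, ← hx2ord]
    refine ord_add_eq hx2 ?_
    rw [hx2ord]
    exact h4gt _ (((hxge.pow0 3).add (ha₂.mul0 (hxge.pow0 2))).add (ha₄gt.ge.mul0 hxge))
  obtain ⟨hTT0, hdbl⟩ := dbl_formula h2 h hpsi.1
  rw [NodeTwo.dblNum_eq W ha₁ ha₃ ha₆] at hdbl
  have hpTT : p • (Point.some x y h + Point.some x y h) = 0 := by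
    rw [smul_add, hT, add_zero]
  obtain ⟨x₂, y₂, h₂, hTT⟩ := Iota.exists_some hTT0
  rw [hTT, xOf_some] at hdbl
  -- `x₂ ≡ x`
  have hdiff : V.Gt (x₂ - x) 0 := by
    have e : (x₂ - x) * psiSq W x =
        x ^ 3 * (x - 1) - 4 * (x ^ 4 + W.a₂ * x ^ 3 + W.a₄ * x ^ 2) -
          W.a₄ * (2 * x ^ 2 - W.a₄) := by
      rw [sub_mul, hdbl, hpsi_eq]; ring
    have hr : V.Gt (x ^ 3 * (x - 1) - 4 * (x ^ 4 + W.a₂ * x ^ 3 + W.a₄ * x ^ 2) -
        W.a₄ * (2 * x ^ 2 - W.a₄)) 0 := by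
      refine (Gt.sub (Gt.mul_left0 (hxge.pow0 3) hx1) (h4gt _ ?_)).sub
        (Gt.mul_right0 ha₄gt ?_)
      · exact ((hxge.pow0 4).add (ha₂.mul0 (hxge.pow0 3))).add (ha₄gt.ge.mul0 (hxge.pow0 2))
      · exact ((Ge.ofNat 2).mul0 (hxge.pow0 2)).sub ha₄gt.ge
    by_cases hd0 : x₂ - x = 0
    · exact Or.inl hd0
    · right
      rw [← e] at hr
      have := hr.lt (mul_ne_zero hd0 hpsi.1)
      rwa [V.ord_mul _ _ hd0 hpsi.1, hpsi.2, add_zero] at this
  by_cases hne : x₂ = x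
  · -- `2T = ± T`, so `3T = 0`, impossible for `p ≥ 5`
    have h3 : 3 • Point.some x y h = 0 := by
      have hxx : xOf (Point.some x y h + Point.some x y h) = xOf (Point.some x y h) := by
        rw [hTT, xOf_some, xOf_some, hne]
      rcases Iota.eq_or_eq_neg_of_xOf_eq hTT0 hT0 hxx with h' | h'
      · exact absurd (add_eq_right.mp h') hT0
      · rw [show (3 : ℕ) = 2 + 1 from rfl, add_smul, two_smul, one_smul, h', neg_add_cancel]
    have hdvd1 : addOrderOf (Point.some x y h) ∣ p := addOrderOf_dvd_of_nsmul_eq_zero hT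
    have hdvd3 : addOrderOf (Point.some x y h) ∣ 3 := addOrderOf_dvd_of_nsmul_eq_zero h3
    have hcop : Nat.Coprime p 3 := by
      rw [Nat.coprime_primes hp Nat.prime_three]; omega
    have h1 : addOrderOf (Point.some x y h) = 1 :=
      Nat.eq_one_of_dvd_coprimes hcop hdvd1 hdvd3
    exact hT0 (AddMonoid.addOrderOf_eq_one_iff.mp h1)
  · -- `3T` lies in the kernel of reduction
    obtain ⟨h3T0, -, hK1, -⟩ := kummer_generic h2 h₂ h hne
    rw [← hTT, add_sub_cancel_right, xOf_some, NodeTwo.kumProd_eq W ha₁ ha₃ ha₆] at hK1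
    rw [← hTT] at h3T0
    have hp3 : p • (Point.some x y h + Point.some x y h + Point.some x y h) = 0 := by
      rw [smul_add, hpTT, hT, add_zero]
    have hin : inE1 V (Point.some x y h + Point.some x y h + Point.some x y h) := by
      right
      generalize xOf (Point.some x y h + Point.some x y h + Point.some x y h) = x₃ at hK1 ⊢
      -- `x₂` is a unit
      have hx₂ : x₂ ≠ 0 ∧ V.ord x₂ = 0 := by
        have := ord_add_eq (V := V) (x := x) (y := x₂ - x) hu0 (by rwa [hzero])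
        rwa [add_sub_cancel, hzero] at this
      have hprod0 : x₂ * x ≠ 0 := mul_ne_zero hx₂.1 hu0
      have hprodord : V.ord (x₂ * x) = 0 := by
        rw [V.ord_mul _ _ hx₂.1 hu0, hx₂.2, hzero, add_zero]
      have hrhs : x₂ * x - W.a₄ ≠ 0 ∧ V.ord (x₂ * x - W.a₄) = 0 := by
        have := ord_sub_eq (V := V) (x := x₂ * x) (y := W.a₄) hprod0 (by rwa [hprodord])
        rwa [hprodord] at this
      have hd0 : x₂ - x ≠ 0 := sub_ne_zero.mpr hne
      have hdpos : 0 < V.ord (x₂ - x) := hdiff.lt hd0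
      have hx₃0 : x₃ ≠ 0 := by
        rintro rfl
        rw [zero_mul, mul_zero] at hK1
        exact pow_ne_zero 2 hrhs.1 hK1.symm
      have hord := congrArg V.ord hK1
      rw [V.ord_mul _ _ (pow_ne_zero 2 hd0) (mul_ne_zero hx₃0 hu0), V.ord_mul _ _ hx₃0 hu0,
        V.ord_pow hd0, V.ord_pow hrhs.1, hrhs.2, hzero, smul_zero, add_zero] at hord
      refine ⟨hx₃0, ?_⟩
      have h2pos' : 0 < 2 • V.ord (x₂ - x) := nsmul_pos hdpos two_ne_zero
      by_contra hcon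
      rw [not_lt] at hcon
      have : 0 < 2 • V.ord (x₂ - x) + V.ord x₃ := add_pos_of_pos_of_nonneg h2pos' hcon
      rw [hord] at this
      exact lt_irrefl _ this
    exact h3T0 (hE1 _ hin hp3)

end Abstract

end Fermat.Agent.S13
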