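import Mathlib
import Fermat.Prelude.Def_FLTPrelim_FreyPackage
import Fermat.Prelude.Def_FLTPrelim_GaloisRep
import Fermat.Prelude.Def_FLTPrelim_Ramification
import Fermat.Agent.S05.Core
import Fermat.Agent.S05.OfSubring
import Fermat.Agent.S13.ValQbar
import Fermat.Agent.S13.Node
import Fermat.Agent.S13.NodeTwo
import Fermat.Agent.S13.LocalTwo
import Fermat.Agent.S13.RatTwo
import Fermat.Agent.S13.Alpha
import Fermat.Agent.Common.Frobenius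
import Fermat.Agent.S51.GalFixed

/-!
# S13, WP-F2: the Frey curve at places over `2`
-/

set_option autoImplicit false

open WeierstrassCurve WeierstrassCurve.Affine WeierstrassCurve.Affine.Point

namespace Fermat.Agent.S13

open Fermat.Agent.S05 Fermat.Agent.S05.OrdData

local notation "Qb" => AlgebraicClosure ℚ

namespace FreyTwo

/-- The Galois action on an affine point. -/
lemma smul_some (E : WeierstrassCurve ℚ) (σ : Qb ≃ₐ[ℚ] Qb) {x y : Qb}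
    (h : (E⁄Qb).Nonsingular x y) :
    ∃ h' : (E⁄Qb).Nonsingular (σ x) (σ y),
      σ • (Point.some x y h : (E⁄Qb).Point) = Point.some (σ x) (σ y) h' :=
  ⟨_, Point.map_some σ.toAlgHom h⟩

lemma smul_nsmul' (E : WeierstrassCurve ℚ) (σ : Qb ≃ₐ[ℚ] Qb) (n : ℕ) (T : (E⁄Qb).Point) :
    σ • (n • T) = n • (σ • T) :=
  (Point.map (W' := E) σ.toAlgHom).map_nsmul n T

lemma smul_zero' (E : WeierstrassCurve ℚ) (σ : Qb ≃ₐ[ℚ] Qb) :
    σ • (0 : (E⁄Qb).Point) = 0 := rfl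

lemma exists_some (E : WeierstrassCurve ℚ) {T : (E⁄Qb).Point} (hT : T ≠ 0) :
    ∃ (x y : Qb) (h : (E⁄Qb).Nonsingular x y), T = Point.some x y h := by
  rcases T with _ | ⟨x, y, h⟩
  · exact absurd rfl hT
  · exact ⟨x, y, h, rfl⟩

lemma not_dvd_eight (p : ℕ) (hp : p.Prime) (h5 : 5 ≤ p) (h8 : p ∣ 8) : False := by
  have := Nat.le_of_dvd (by norm_num) h8
  interval_cases p
  · omega
  · omega
  · omega
  · exact absurd hp (by norm_num)

end FreyTwo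

/-- Arithmetic data of the Frey curve at a place over `2`
(`a₄ = -a^p b^p / 16`, `m = p · v₂(b) - 4`). -/
theorem frey_two (P : FreyPackage) (A : ValuationSubring Qb) (hA : A.LiesOverPrime 2) :
    (P.freyCurve⁄Qb).a₁ = 1 ∧ (P.freyCurve⁄Qb).a₃ = 0 ∧ (P.freyCurve⁄Qb).a₆ = 0 ∧
    (ordOfSubring A).Ge (P.freyCurve⁄Qb).a₂ 0 ∧ (P.freyCurve⁄Qb).a₄ ≠ 0 ∧
    ∃ m : ℕ, 0 < m ∧
      (ordOfSubring A).ord (P.freyCurve⁄Qb).a₄ = m • (ordOfSubring A).ord (2 : Qb) ∧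
      ¬ P.p ∣ 2 * m := by
  have hb2 : (2 : ℤ) ∣ P.b := (ZMod.intCast_zmod_eq_zero_iff_dvd P.b 2).1 P.hb2
  have ha4 : (4 : ℤ) ∣ P.a - 3 := by
    have h3 : ((P.a : ℤ) : ZMod 4) = ((3 : ℤ) : ZMod 4) := by rw [P.ha4]; rfl
    exact (ZMod.intCast_eq_intCast_iff_dvd_sub 3 P.a 4).mp h3.symm
  have hp5 := P.hp5
  have hodd := P.hp_odd
  have ha2 : ¬ (2 : ℤ) ∣ P.a := by omega
  have h4b : (4 : ℤ) ∣ P.b ^ P.p := by
    have h1 : (2 : ℤ) ^ P.p ∣ P.b ^ P.p := pow_dvd_pow_of_dvd hb2 _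
    have h2 : (4 : ℤ) ∣ 2 ^ P.p := by
      have : (2 : ℤ) ^ 2 ∣ 2 ^ P.p := pow_dvd_pow 2 (by omega)
      simpa using this
    exact h2.trans h1
  have h4a : (4 : ℤ) ∣ P.a ^ P.p + 1 := by
    have h1 : P.a + 1 ∣ P.a ^ P.p + 1 ^ P.p := hodd.add_dvd_pow_add_pow _ _
    rw [one_pow] at h1
    have h2 : (4 : ℤ) ∣ P.a + 1 := by omega
    exact h2.trans h1
  obtain ⟨n, hn⟩ : (4 : ℤ) ∣ P.b ^ P.p - 1 - P.a ^ P.p := by
    have : P.b ^ P.p - 1 - P.a ^ P.p = P.b ^ P.p - (P.a ^ P.p + 1) := by ring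
    rw [this]; exact dvd_sub h4b h4a
  have ea₂ : (P.freyCurve⁄Qb).a₂ = (n : Qb) := by
    change algebraMap ℚ Qb (((P.b : ℚ) ^ P.p - 1 - (P.a : ℚ) ^ P.p) / 4) = (n : Qb)
    rw [eq_ratCast]
    have : ((P.b : ℚ) ^ P.p - 1 - (P.a : ℚ) ^ P.p) = 4 * (n : ℚ) := by exact_mod_cast hn
    rw [this]; push_cast; field_simp
  have ea₄ : (P.freyCurve⁄Qb).a₄ = -((P.a : Qb) ^ P.p) * (P.b : Qb) ^ P.p / 16 := by
    change algebraMap ℚ Qb (-((P.a : ℚ) ^ P.p) * (P.b : ℚ) ^ P.p / 16) = _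
    rw [eq_ratCast]; push_cast; rfl
  have haQ : (P.a : Qb) ≠ 0 := Int.cast_ne_zero.mpr P.ha0
  have hbQ : (P.b : Qb) ≠ 0 := Int.cast_ne_zero.mpr P.hb0
  refine ⟨by change algebraMap ℚ Qb 1 = 1; simp, by change algebraMap ℚ Qb 0 = 0; simp,
    by change algebraMap ℚ Qb 0 = 0; simp, by rw [ea₂]; exact Ge.intCast n, ?_, ?_⟩
  · rw [ea₄]
    exact div_ne_zero (mul_ne_zero (neg_ne_zero.mpr (pow_ne_zero _ haQ)) (pow_ne_zero _ hbQ))
      (by norm_num)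
  · -- factor `b = 2 ^ k * c` with `c` odd
    have hfin : FiniteMultiplicity (2 : ℤ) P.b := Int.finiteMultiplicity_iff.mpr ⟨by decide, P.hb0⟩
    obtain ⟨c, hbc, hc⟩ := hfin.exists_eq_pow_mul_and_not_dvd
    set k := multiplicity (2 : ℤ) P.b with hk
    have hk1 : 1 ≤ k := by
      by_contra hk0
      have hk0' : k = 0 := by omega
      rw [hk0', pow_zero, one_mul] at hbc
      exact hc (hbc ▸ hb2)
    have h2A : ((2 : ℕ) : Qb) ∈ A.nonunits := hA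
    obtain ⟨hcQ, hcu⟩ := ordOfSubring_intCast_unit A Nat.prime_two h2A (n := c) (by exact_mod_cast hc)
    obtain ⟨-, hau⟩ := ordOfSubring_intCast_unit A Nat.prime_two h2A (n := P.a)
      (by exact_mod_cast ha2)
    have h2Q : (2 : Qb) ≠ 0 := two_ne_zero
    have hkp : 5 ≤ k * P.p := by nlinarith
    refine ⟨k * P.p - 4, by omega, ?_, ?_⟩
    · have hbQ' : (P.b : Qb) = 2 ^ k * (c : Qb) := by
        have := congrArg (fun z : ℤ => (z : Qb)) hbc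
        simpa using this
      have hmul : (P.freyCurve⁄Qb).a₄ * 2 ^ 4 =
          (-((P.a : Qb) ^ P.p * (c : Qb) ^ P.p)) * 2 ^ (k * P.p) := by
        rw [ea₄, hbQ', pow_mul]; ring
      have ha₄0 : (P.freyCurve⁄Qb).a₄ ≠ 0 := by
        rw [ea₄]
        exact div_ne_zero (mul_ne_zero (neg_ne_zero.mpr (pow_ne_zero _ haQ)) (pow_ne_zero _ hbQ))
          (by norm_num)
      have hu0 : (P.a : Qb) ^ P.p * (c : Qb) ^ P.p ≠ 0 :=
        mul_ne_zero (pow_ne_zero _ haQ) (pow_ne_zero _ hcQ)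
      have hord := congrArg (ordOfSubring A).ord hmul
      rw [(ordOfSubring A).ord_mul _ _ ha₄0 (pow_ne_zero _ h2Q),
        (ordOfSubring A).ord_mul _ _ (neg_ne_zero.mpr hu0) (pow_ne_zero _ h2Q),
        (ordOfSubring A).ord_neg, (ordOfSubring A).ord_mul _ _ (pow_ne_zero _ haQ)
          (pow_ne_zero _ hcQ), (ordOfSubring A).ord_pow haQ, (ordOfSubring A).ord_pow hcQ,
        (ordOfSubring A).ord_pow h2Q, (ordOfSubring A).ord_pow h2Q, hau, hcu, smul_zero,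
        add_zero, zero_add] at hord
      have hsplit : k * P.p = (k * P.p - 4) + 4 := by omega
      rw [hsplit, add_nsmul] at hord
      exact add_right_cancel hord
    · intro hdvd
      have h1 : P.p ∣ 2 * (k * P.p - 4) + 8 := by
        have : 2 * (k * P.p - 4) + 8 = P.p * (2 * k) := by
          have : 2 * (k * P.p - 4) + 8 = 2 * (k * P.p) := by omega
          rw [this]; ring
        rw [this]; exact dvd_mul_right _ _
      exact FreyTwo.not_dvd_eight P.p P.pp hp5 ((Nat.dvd_add_right hdvd).mp h1)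

namespace FreyTwo

/-- The standing data at a place over `2`. -/
lemma setup (P : FreyPackage) (A : ValuationSubring Qb) (hA : A.LiesOverPrime 2) :
    (2 : Qb) ≠ 0 ∧ 0 < (ordOfSubring A).ord (2 : Qb) ∧
    0 < (ordOfSubring A).ord (P.freyCurve⁄Qb).a₄ ∧
    (P.p : Qb) ≠ 0 ∧ (ordOfSubring A).ord (P.p : Qb) = 0 ∧ P.p ≠ 2 := by
  obtain ⟨-, -, -, -, -, m, hm0, hm, -⟩ := frey_two P A hA
  have h2pos : 0 < (ordOfSubring A).ord (2 : Qb) := by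
    have := (ord_prime_pos A 2 Nat.prime_two hA).2
    simpa using this
  have hp5 := P.hp5
  have hpodd : ¬ (2 : ℤ) ∣ (P.p : ℤ) := by
    intro h
    have h' : 2 ∣ P.p := by exact_mod_cast h
    have := (Nat.prime_dvd_prime_iff_eq Nat.prime_two P.pp).mp h'
    omega
  have h2A : ((2 : ℕ) : Qb) ∈ A.nonunits := hA
  obtain ⟨hp0, hpu⟩ := ordOfSubring_intCast_unit A Nat.prime_two h2A hpodd
  rw [Int.cast_natCast] at hp0 hpu
  refine ⟨two_ne_zero, h2pos, ?_, hp0, hpu, by omega⟩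
  rw [hm]
  exact nsmul_pos h2pos (by omega)

/-- Integrality of the `b`-invariants. -/
lemma b_integral (P : FreyPackage) (A : ValuationSubring Qb) (hA : A.LiesOverPrime 2) :
    (ordOfSubring A).Ge (P.freyCurve⁄Qb).b₂ 0 ∧ (ordOfSubring A).Ge (P.freyCurve⁄Qb).b₄ 0 ∧
    (ordOfSubring A).Ge (P.freyCurve⁄Qb).b₆ 0 ∧ (ordOfSubring A).Ge (P.freyCurve⁄Qb).b₈ 0 := by
  obtain ⟨ha₁, ha₃, ha₆, ha₂, ha₄0, -⟩ := frey_two P A hA
  obtain ⟨-, -, ha₄, -⟩ := setup P A hA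
  have ha₄' : (ordOfSubring A).Ge (P.freyCurve⁄Qb).a₄ 0 := Or.inr ha₄.le
  have e2 : (P.freyCurve⁄Qb).b₂ = 1 + 4 * (P.freyCurve⁄Qb).a₂ := by
    simp only [WeierstrassCurve.b₂, ha₁]; ring
  have e4 : (P.freyCurve⁄Qb).b₄ = 2 * (P.freyCurve⁄Qb).a₄ := by
    simp only [WeierstrassCurve.b₄, ha₁, ha₃]; ring
  have e6 : (P.freyCurve⁄Qb).b₆ = 0 := by
    simp only [WeierstrassCurve.b₆, ha₃, ha₆]; ring
  have e8 : (P.freyCurve⁄Qb).b₈ = -((P.freyCurve⁄Qb).a₄ * (P.freyCurve⁄Qb).a₄) := by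
    simp only [WeierstrassCurve.b₈, ha₁, ha₃, ha₆]; ring
  refine ⟨?_, ?_, ?_, ?_⟩
  · rw [e2]; exact Ge.one.add ((Ge.ofNat 4).mul0 ha₂)
  · rw [e4]; exact (Ge.ofNat 2).mul0 ha₄'
  · rw [e6]; exact Ge.zero 0
  · rw [e8]; exact (ha₄'.mul0 ha₄').neg

end FreyTwo

/-- `E[p]` is generated by two elements. -/
theorem frey_dim_two (P : FreyPackage) :
    ∃ T₁ T₂ : (P.freyCurve⁄Qb).Point, P.p • T₁ = 0 ∧ P.p • T₂ = 0 ∧
      ∀ T : (P.freyCurve⁄Qb).Point, P.p • T = 0 → ∃ i j : ℕ, T = i • T₁ + j • T₂ := by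
  obtain ⟨A, hA⟩ := Fermat.Agent.Common.exists_liesOverPrime 2 Nat.prime_two
  obtain ⟨ha₁, ha₃, ha₆, ha₂, ha₄0, -⟩ := frey_two P A hA
  obtain ⟨h2, h2pos, ha₄, hp0, hpu, hp2⟩ := FreyTwo.setup P A hA
  obtain ⟨hb₂, hb₄, hb₆, hb₈⟩ := FreyTwo.b_integral P A hA
  have hquad : ∀ v : Qb, ∃ t : Qb, t ^ 2 - v * t + 1 = 0 := by
    intro v
    obtain ⟨s, hs⟩ := IsAlgClosed.exists_pow_nat_eq (v ^ 2 - 4) (n := 2) (by norm_num)
    refine ⟨(v + s) / 2, ?_⟩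
    field_simp
    linear_combination hs
  exact NodeData.dim_two (nodeTwo (ordOfSubring A) (P.freyCurve⁄Qb) h2pos h2 ha₁ ha₃ ha₆ ha₂ ha₄0
    ha₄) h2 hb₂ hb₄ hb₆ hb₈ P.p P.pp hp2 hp0 hpu hquad
    (fun t s ht hs htp ht1 hsp => exists_pow_congr A P.p P.pp t s ht hs htp ht1 hsp)

/-- `(σ - 1)² = 0` on `E[p]` for `σ` in an inertia group over `2`. -/
theorem frey_inertia_two (P : FreyPackage) (A : ValuationSubring Qb) (hA : A.LiesOverPrime 2)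
    (σ : Qb ≃ₐ[ℚ] Qb) (hσ : σ ∈ A.inertiaSubgroupIn ℚ)
    (T : (P.freyCurve⁄Qb).Point) (hT : P.p • T = 0) :
    σ • (σ • T - T) = σ • T - T := by
  obtain ⟨ha₁, ha₃, ha₆, ha₂, ha₄0, -⟩ := frey_two P A hA
  obtain ⟨h2, h2pos, ha₄, hp0, hpu, hp2⟩ := FreyTwo.setup P A hA
  obtain ⟨hdec, hσ1⟩ := inertia_gt A σ hσ
  have hσord : ∀ a : Qb, a ≠ 0 → (ordOfSubring A).ord (σ a) = (ordOfSubring A).ord a :=
    fun a ha => ord_decomposition A 2 Nat.prime_two hA σ hdec a ha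
  -- the two tangent slopes at the node
  obtain ⟨s, hs⟩ := IsAlgClosed.exists_pow_nat_eq (1 + 4 * (P.freyCurve⁄Qb).a₂) (n := 2)
    (by norm_num)
  have hαβ : (-1 + s) / 2 + (-1 - s) / 2 = (-1 : Qb) := by ring
  have hαβ' : (-1 + s) / 2 * ((-1 - s) / 2) = -(P.freyCurve⁄Qb).a₂ := by
    field_simp
    linear_combination -hs
  have key : ∀ S : (P.freyCurve⁄Qb).Point, P.p • S = 0 →
      ((S = 0 ∨ (ordOfSubring A).ord (xOf S) ≤ 0) → σ • S = S) ∧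
      (σ • S = S ∨ (σ • S - S ≠ 0 ∧ xOf (σ • S - S) ≠ 0 ∧
        (ordOfSubring A).ord (xOf (σ • S - S)) = 0)) := by
    intro S hS
    by_cases hS0 : S = 0
    · subst hS0
      exact ⟨fun _ => FreyTwo.smul_zero' _ σ, Or.inl (FreyTwo.smul_zero' _ σ)⟩
    obtain ⟨x, y, h, rfl⟩ := FreyTwo.exists_some _ hS0
    obtain ⟨h', hσS⟩ := FreyTwo.smul_some _ σ h
    have hS' : P.p • (Point.some (σ x) (σ y) h' : (P.freyCurve⁄Qb).Point) = 0 := by
      rw [← hσS, ← FreyTwo.smul_nsmul', hS]; rfl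
    have L := local_two (ordOfSubring A) (P.freyCurve⁄Qb) h2 h2pos ha₁ ha₃ ha₆ ha₂ ha₄0 ha₄
      ((-1 + s) / 2) ((-1 - s) / 2) hαβ hαβ' P.p P.pp hp2 hp0 hpu (σ : Qb →+* Qb) hσ1 hσord
      h hS h' hS'
    have hfix : σ x = x ∧ σ y = y →
        σ • (Point.some x y h : (P.freyCurve⁄Qb).Point) = Point.some x y h := by
      rintro ⟨e1, e2⟩
      rw [hσS]
      simp only [Point.some.injEq]
      exact ⟨e1, e2⟩
    rw [xOf_some]
    refine ⟨?_, ?_⟩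
    · rintro (h0 | hle)
      · exact absurd h0 hS0
      · exact hfix (L.1 hle)
    · by_cases hx : (ordOfSubring A).ord x ≤ 0
      · exact Or.inl (hfix (L.1 hx))
      · rcases L.2 (not_le.mp hx) with h3 | h3
        · exact Or.inl (hfix h3)
        · right
          rw [hσS]
          exact h3
  rcases (key T hT).2 with h | ⟨-, -, h3⟩
  · rw [h, sub_self]; rfl
  · have hS : P.p • (σ • T - T) = 0 := by
      rw [nsmul_sub, ← FreyTwo.smul_nsmul', hT, FreyTwo.smul_zero', sub_zero]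
    exact (key _ hS).1 (Or.inr (le_of_eq h3))

/-- The Frey curve has no rational point of order `p`. -/
theorem frey_no_rational_torsion (P : FreyPackage) (T : (P.freyCurve⁄Qb).Point) (hT0 : T ≠ 0)
    (hT : P.p • T = 0) (hfix : ∀ σ : Qb ≃ₐ[ℚ] Qb, σ • T = T) : False := by
  obtain ⟨A, hA⟩ := Fermat.Agent.Common.exists_liesOverPrime 2 Nat.prime_two
  obtain ⟨ha₁, ha₃, ha₆, ha₂, ha₄0, m, hm0, hm, hpm⟩ := frey_two P A hA
  obtain ⟨h2, h2pos, ha₄, hp0, hpu, hp2⟩ := FreyTwo.setup P A hA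
  refine no_rational_torsion_two (ordOfSubring A) (P.freyCurve⁄Qb) h2 h2pos ha₁ ha₃ ha₆ ha₂ ha₄0
    m hm0 hm P.p P.pp P.hp5 hp0 hpu hpm T hT0 hT ?_
  intro k hk
  have hfixk : ∀ σ : Qb ≃ₐ[ℚ] Qb, σ • (k • T) = k • T := fun σ => by
    rw [FreyTwo.smul_nsmul', hfix]
  have hkT : P.p • (k • T) = 0 := by rw [smul_comm, hT, nsmul_zero]
  obtain ⟨x, y, h, hxy⟩ := FreyTwo.exists_some _ hk
  have hx0 : x ≠ 0 := by
    have hu := NodeData.u_ne_zero (nodeTwo (ordOfSubring A) (P.freyCurve⁄Qb) h2pos h2 ha₁ ha₃ ha₆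
      ha₂ ha₄0 ha₄) P.hp_odd hk hkT
    rw [(nodeTwo_ε (ordOfSubring A) (P.freyCurve⁄Qb) h2pos h2 ha₁ ha₃ ha₆ ha₂ ha₄0 ha₄).1,
      sub_zero, hxy, xOf_some] at hu
    exact hu
  rw [hxy] at hfixk ⊢
  rw [xOf_some]
  have hxfix : ∀ σ : Qb ≃ₐ[ℚ] Qb, σ x = x := by
    intro σ
    obtain ⟨h', e⟩ := FreyTwo.smul_some _ σ h
    have h1 := hfixk σ
    rw [e] at h1
    simp only [Point.some.injEq] at h1
    exact h1.1
  obtain ⟨q, rfl⟩ := Fermat.Agent.S51.mem_range_of_fixed x hxfix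
  rw [eq_ratCast] at hx0 ⊢
  have hq0 : q ≠ 0 := by
    rintro rfl
    exact hx0 (by simp)
  refine ⟨?_, fun hu => ratCast_sub_one_gt A hA q hq0 hu⟩
  obtain ⟨j, hj⟩ := ord_ratCast A 2 Nat.prime_two hA q hq0
  exact ⟨j, by simpa using hj⟩

end Fermat.Agent.S13
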