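import Mathlib
import Fermat.Prelude.Def_FLTPrelim_Ramification
import Fermat.Agent.Common.Frobenius

set_option autoImplicit false

open scoped Pointwise

namespace Fermat.Agent.S13

namespace Global

open Fermat.Agent.Common

local notation "Qb" => AlgebraicClosure ℚ
local notation "GQ" => (AlgebraicClosure ℚ ≃ₐ[ℚ] AlgebraicClosure ℚ)

/-- An automorphism acting trivially on the algebraic integers modulo the prime cut out by `A`
lies in the inertia subgroup of `A`. -/
theorem mem_inertiaSubgroupIn (A : ValuationSubring Qb) (ℓ : ℕ) (hℓ : ℓ.Prime)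
    (hA : A.LiesOverPrime ℓ) (σ : GQ)
    (hσ : ∀ b : Zb, A.valuation (σ (b : Qb) - (b : Qb)) < 1) :
    σ ∈ A.inertiaSubgroupIn ℚ := by
  have hone : ∀ b : Zb, A.valuation (b : Qb) = 1 → A.valuation (σ (b : Qb)) = 1 := by
    intro b hb
    have h1 : σ (b : Qb) = (σ (b : Qb) - (b : Qb)) + (b : Qb) := by ring
    rw [h1, Valuation.map_add_eq_of_lt_right _ (by rw [hb]; exact hσ b), hb]
  have key : ∀ x : Qb, x ∈ A → A.valuation (σ x - x) < 1 := by
    intro x hx
    obtain ⟨b, s, hs, hxs⟩ := exists_mul_eq A ℓ hℓ hA hx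
    have hxv : A.valuation x ≤ 1 := (A.valuation_le_one_iff x).mpr hx
    have h1 : σ (s : Qb) * (σ x - x)
        = (σ (b : Qb) - (b : Qb)) - x * (σ (s : Qb) - (s : Qb)) := by
      rw [← hxs, map_mul]
      ring
    have h2 : A.valuation (σ (s : Qb) * (σ x - x)) < 1 := by
      rw [h1]
      refine lt_of_le_of_lt (A.valuation.map_sub _ _) (max_lt (hσ b) ?_)
      rw [map_mul]
      exact mul_lt_one_aux hxv (hσ s)
    rwa [map_mul, hone s hs, one_mul] at h2
  have hmem : ∀ x : Qb, x ∈ A ↔ σ x ∈ A := by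
    intro x
    constructor
    · intro hx
      have h1 := key x hx
      have h2 : σ x = (σ x - x) + x := by ring
      rw [← A.valuation_le_one_iff, h2]
      exact le_trans (A.valuation.map_add _ _)
        (max_le h1.le ((A.valuation_le_one_iff x).mpr hx))
    · intro hx
      by_contra hcon
      have hx0 : x ≠ 0 := fun h => hcon (h ▸ A.zero_mem)
      have hinv : x⁻¹ ∈ A := (A.mem_or_inv_mem x).resolve_left hcon
      have hvx : 1 < A.valuation x := by
        rw [← not_le, A.valuation_le_one_iff]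
        exact hcon
      have hvinv : A.valuation x⁻¹ < 1 := by
        rw [map_inv₀]
        exact inv_lt_one_of_one_lt₀ hvx
      have h1 := key x⁻¹ hinv
      have h2 : A.valuation (σ x⁻¹) < 1 := by
        have : σ x⁻¹ = (σ x⁻¹ - x⁻¹) + x⁻¹ := by ring
        rw [this]
        exact lt_of_le_of_lt (A.valuation.map_add _ _) (max_lt h1 hvinv)
      rw [map_inv₀, map_inv₀] at h2
      have h3 : A.valuation (σ x) ≤ 1 := (A.valuation_le_one_iff _).mpr hx
      have h4 : σ x ≠ 0 := fun h => hx0 (by simpa using h)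
      have h5 : A.valuation (σ x) ≠ 0 := (Valuation.ne_zero_iff _).mpr h4
      have h6 : 1 ≤ (A.valuation (σ x))⁻¹ := (one_le_inv₀ (zero_lt_iff.mpr h5)).mpr h3
      exact not_lt.mpr h6 h2
  have hstab : σ ∈ A.decompositionSubgroup ℚ := by
    rw [MulAction.mem_stabilizer_iff]
    ext x
    rw [ValuationSubring.mem_pointwise_smul_iff_inv_smul_mem]
    have h := hmem (σ⁻¹ • x)
    rw [h]
    have : σ (σ⁻¹ • x) = x := by
      show σ (σ⁻¹ x) = x
      exact (AlgEquiv.apply_symm_apply σ x)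
    rw [this]
  refine Subgroup.mem_map.mpr ⟨⟨σ, hstab⟩, ?_, rfl⟩
  show (⟨σ, hstab⟩ : A.decompositionSubgroup ℚ) ∈ A.inertiaSubgroup ℚ
  rw [ValuationSubring.inertiaSubgroup, MonoidHom.mem_ker]
  ext y
  obtain ⟨a, rfl⟩ := IsLocalRing.residue_surjective y
  show (⟨σ, hstab⟩ : A.decompositionSubgroup ℚ) • IsLocalRing.residue A a = IsLocalRing.residue A a
  rw [← IsLocalRing.ResidueField.residue_smul]
  rw [← sub_eq_zero, ← map_sub, IsLocalRing.residue_eq_zero_iff, A.valuation_lt_one_iff]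
  exact key a a.2

/-- Core lifting statement: if `H` is a closed normal subgroup containing the inertia subgroup of
`A`, then any automorphism acting trivially modulo the prime on the `H`-fixed algebraic integers
lies in `H`. -/
theorem mem_of_forall_fixed (A : ValuationSubring Qb) (ℓ : ℕ) (hℓ : ℓ.Prime)
    (hA : A.LiesOverPrime ℓ) (H : Subgroup GQ) [hN : H.Normal] (hH : IsClosed (H : Set GQ))
    (hI : A.inertiaSubgroupIn ℚ ≤ H) (σ₀ : GQ)
    (hσ₀ : ∀ b : Zb, (∀ h ∈ H, h • b = b) → A.valuation (σ₀ (b : Qb) - (b : Qb)) < 1) :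
    σ₀ ∈ H := by
  have hGal := isGalois_Qb
  have hInt := isIntegral_Qb
  have hprime := primeOf_isPrime A
  let _ : TopologicalSpace Zb := ⊥
  have : DiscreteTopology Zb := ⟨rfl⟩
  have hcont : ContinuousSMul GQ Zb :=
    continuousSMul_iff_stabilizer_isOpen.mpr stabilizer_Zb_isOpen
  have : CompactSpace H := isCompact_iff_compactSpace.mp hH.isCompact
  have : TotallyDisconnectedSpace H := Subtype.totallyDisconnectedSpace
  have : ContinuousSMul H Zb := by
    rw [continuousSMul_iff_stabilizer_isOpen]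
    intro b
    have h1 := stabilizer_Zb_isOpen b
    have h2 : (MulAction.stabilizer H b : Set H) =
        Subtype.val ⁻¹' (MulAction.stabilizer GQ b : Set GQ) := by
      ext g
      simp only [SetLike.mem_coe, MulAction.mem_stabilizer_iff, Set.mem_preimage]
      rfl
    rw [h2]
    exact h1.preimage continuous_subtype_val
  have hcomm : SMulCommClass H (FixedPoints.subring Zb H) Zb :=
    instSMulCommClassSubtypeMemSubringSubring Zb H
  have hinv : Algebra.IsInvariant (FixedPoints.subring Zb H) Zb H :=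
    ⟨fun b hb => ⟨⟨b, hb⟩, rfl⟩⟩
  have hfix : ∀ a : FixedPoints.subring Zb H, ∀ h ∈ H, h • (a : Zb) = a :=
    fun a h hh => a.2 ⟨h, hh⟩
  -- conjugates of fixed elements are fixed
  have hconj : ∀ (g : GQ) (a : FixedPoints.subring Zb H), ∀ h ∈ H, h • (g • (a : Zb)) = g • (a : Zb) := by
    intro g a h hh
    have h1 : g⁻¹ * h * g ∈ H := by
      have := hN.conj_mem h hh g⁻¹
      simpa using this
    have h2 := hfix a _ h1
    rw [mul_smul, mul_smul] at h2
    have h3 := congrArg (fun x => g • x) h2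
    simpa using h3
  have hval : ∀ (g : GQ) (b : Zb), ((g • b : Zb) : Qb) = g (b : Qb) := fun g b => rfl
  have hσ₀' : ∀ (g : GQ) (a : FixedPoints.subring Zb H), σ₀ • (g • (a : Zb)) - g • (a : Zb) ∈ primeOf A := by
    intro g a
    rw [mem_primeOf]
    exact hσ₀ (g • (a : Zb)) (hconj g a)
  have hσ₀inv : ∀ a : FixedPoints.subring Zb H, σ₀⁻¹ • (a : Zb) - a ∈ primeOf A := by
    intro a
    have h1 := hσ₀' σ₀⁻¹ a
    rw [smul_inv_smul] at h1
    have h2 : σ₀⁻¹ • (a : Zb) - a = -((a : Zb) - σ₀⁻¹ • (a : Zb)) := by ring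
    rw [h2]
    exact (primeOf A).neg_mem h1
  have hPQ : (σ₀ • primeOf A).under (FixedPoints.subring Zb H) =
      (primeOf A).under (FixedPoints.subring Zb H) := by
    ext a
    show (a : Zb) ∈ σ₀ • primeOf A ↔ (a : Zb) ∈ primeOf A
    rw [Ideal.mem_pointwise_smul_iff_inv_smul_mem]
    constructor
    · intro h
      have h3 : (a : Zb) = σ₀⁻¹ • (a : Zb) - (σ₀⁻¹ • (a : Zb) - a) := by ring
      rw [h3]
      exact (primeOf A).sub_mem h (hσ₀inv a)
    · intro h
      have h3 : σ₀⁻¹ • (a : Zb) = (σ₀⁻¹ • (a : Zb) - a) + a := by ring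
      rw [h3]
      exact (primeOf A).add_mem (hσ₀inv a) h
  obtain ⟨h, hh⟩ := Algebra.IsInvariant.exists_smul_of_under_eq_of_profinite
    (A := FixedPoints.subring Zb H) (G := H) (σ₀ • primeOf A) (primeOf A) hPQ
  have hσ₁stab : (h : GQ) * σ₀ ∈ MulAction.stabilizer GQ (primeOf A) := by
    rw [MulAction.mem_stabilizer_iff, mul_smul]
    exact hh.symm
  have hσ₁fix : ∀ a : FixedPoints.subring Zb H,
      ((h : GQ) * σ₀) • (a : Zb) - a ∈ primeOf A := by
    intro a
    rw [mul_smul, hconj σ₀ a h h.2]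
    have h1 := hσ₀' 1 a
    rwa [one_smul] at h1
  let P' : Ideal (FixedPoints.subring Zb H) := (primeOf A).under (FixedPoints.subring Zb H)
  have hover : (primeOf A).LiesOver P' := ⟨rfl⟩
  let e₀ := Ideal.Quotient.stabilizerHom (primeOf A) ((primeOf A).under ℤ) GQ
    ⟨(h : GQ) * σ₀, hσ₁stab⟩
  have he₀ : ∀ b : Zb, e₀ (Ideal.Quotient.mk _ b) = Ideal.Quotient.mk _ (((h : GQ) * σ₀) • b) :=
    fun b => rfl
  let e : (Zb ⧸ primeOf A) ≃ₐ[FixedPoints.subring Zb H ⧸ P'] (Zb ⧸ primeOf A) :=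
    AlgEquiv.ofRingEquiv (f := e₀.toRingEquiv) (by
      intro r
      obtain ⟨a, rfl⟩ := Ideal.Quotient.mk_surjective r
      show e₀ (Ideal.Quotient.mk _ (a : Zb)) = Ideal.Quotient.mk _ (a : Zb)
      rw [he₀, Ideal.Quotient.eq]
      exact hσ₁fix a)
  obtain ⟨h', hh'⟩ := Ideal.Quotient.stabilizerHom_surjective_of_profinite (G := H) P'
    (primeOf A) e
  have hcong : ∀ b : Zb, ((h' : H) : GQ) • b - ((h : GQ) * σ₀) • b ∈ primeOf A := by
    intro b
    have h1 := DFunLike.congr_fun hh' (Ideal.Quotient.mk _ b)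
    rw [← Ideal.Quotient.eq]
    exact h1
  have hσmem : ((h : GQ) * σ₀)⁻¹ * ((h' : H) : GQ) ∈ A.inertiaSubgroupIn ℚ := by
    apply mem_inertiaSubgroupIn A ℓ hℓ hA
    intro b
    have h1 := hcong b
    have h2 : ((h : GQ) * σ₀)⁻¹ ∈ MulAction.stabilizer GQ (primeOf A) := inv_mem hσ₁stab
    rw [MulAction.mem_stabilizer_iff] at h2
    have h3 : ((h : GQ) * σ₀)⁻¹ • (((h' : H) : GQ) • b - ((h : GQ) * σ₀) • b) ∈
        ((h : GQ) * σ₀)⁻¹ • primeOf A := Ideal.smul_mem_pointwise_smul _ _ _ h1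
    rw [h2, smul_sub, inv_smul_smul, ← mul_smul] at h3
    exact (mem_primeOf A).mp h3
  have h2 := hI hσmem
  have h3 : ((h' : H) : GQ) ∈ H := (h' : H).2
  have h4 : ((h : GQ) * σ₀)⁻¹ ∈ H := by
    have := H.mul_mem h2 (H.inv_mem h3)
    simpa using this
  have h5 : (h : GQ) * σ₀ ∈ H := by
    have := H.inv_mem h4
    simpa using this
  have h6 := H.mul_mem (H.inv_mem h.2) h5
  simpa using h6

end Global

open Fermat.Agent.Common NumberField in
theorem eq_top_of_inertia_le
    (H : Subgroup (AlgebraicClosure ℚ ≃ₐ[ℚ] AlgebraicClosure ℚ)) [H.Normal]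
    (hopen : IsOpen (H : Set (AlgebraicClosure ℚ ≃ₐ[ℚ] AlgebraicClosure ℚ)))
    (hI : ∀ ℓ : ℕ, ℓ.Prime → ∃ A : ValuationSubring (AlgebraicClosure ℚ),
      A.LiesOverPrime ℓ ∧ A.inertiaSubgroupIn ℚ ≤ H) : H = ⊤ := by
  have hGal := isGalois_Qb
  have hInt := isIntegral_Qb
  have hclosed : IsClosed (H : Set (AlgebraicClosure ℚ ≃ₐ[ℚ] AlgebraicClosure ℚ)) :=
    Subgroup.isClosed_of_isOpen H hopen
  let F : IntermediateField ℚ (AlgebraicClosure ℚ) := IntermediateField.fixedField H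
  have hFH : F.fixingSubgroup = H :=
    InfiniteGalois.fixingSubgroup_fixedField (⟨H, hclosed⟩ : ClosedSubgroup _)
  have hFfin : FiniteDimensional ℚ F := by
    rw [← InfiniteGalois.isOpen_iff_finite F]
    show IsOpen (F.fixingSubgroup : Set (AlgebraicClosure ℚ ≃ₐ[ℚ] AlgebraicClosure ℚ))
    rw [hFH]
    exact hopen
  have hFgal' : @IsGalois ℚ _ F _ F.algebra' := by
    rw [← InfiniteGalois.normal_iff_isGalois F, hFH]
    infer_instance
  have hFgal : IsGalois ℚ F := hFgal'
  by_contra hne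
  have hrank : 1 < Module.finrank ℚ F := by
    by_contra h
    have h0 : 0 < Module.finrank ℚ F := Module.finrank_pos
    have h1 : Module.finrank ℚ F = 1 := by omega
    have h2 : F = ⊥ := IntermediateField.finrank_eq_one_iff.mp h1
    apply hne
    rw [← hFH, h2]
    exact IntermediateField.fixingSubgroup_bot
  have hNF : NumberField F := ⟨⟩
  obtain ⟨p, hp, hram⟩ := NumberField.exists_not_isUnramifiedAt_int_of_isGalois
    (K := F) (𝒪 := 𝓞 F) hrank
  obtain ⟨A, hA, hAI⟩ := hI p hp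
  let φ : 𝓞 F →+* AlgebraicClosure ℚ :=
    (algebraMap F (AlgebraicClosure ℚ)).comp (algebraMap (𝓞 F) F)
  have hφ : ∀ r, IsIntegral ℤ (φ r) := fun r =>
    (RingOfIntegers.isIntegral_coe r).map (IsScalarTower.toAlgHom ℤ F (AlgebraicClosure ℚ))
  let P : Ideal (𝓞 F) := pullbackIdeal A φ hφ
  have hPprime : P.IsPrime := pullbackIdeal_isPrime A φ hφ
  have hpP : (p : 𝓞 F) ∈ P := by
    rw [mem_pullbackIdeal]
    have h : (p : AlgebraicClosure ℚ) ∈ A.nonunits := hA
    rw [A.mem_nonunits_iff] at h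
    simpa using h
  apply hram P hPprime hpP
  rw [← Ideal.ramificationIdx_eq_one_iff,
    ← Ideal.ramificationIdxIn_eq_ramificationIdx (P.under ℤ) P Gal(F/ℚ),
    ← Ideal.card_inertia_eq_ramificationIdxIn (G := Gal(F/ℚ)) (P.under ℤ) P,
    Subgroup.card_eq_one, Subgroup.eq_bot_iff_forall]
  intro τ hτ
  obtain ⟨σ₀, rfl⟩ := AlgEquiv.restrictNormalHom_surjective (F := ℚ) (K₁ := F)
    (AlgebraicClosure ℚ) τ
  have hσ₀H : σ₀ ∈ H := by
    apply Global.mem_of_forall_fixed A p hp hA H hclosed hAI σ₀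
    intro b hb
    have hbF : (b : AlgebraicClosure ℚ) ∈ F := by
      rw [IntermediateField.mem_fixedField_iff]
      intro f hf
      exact congrArg Subtype.val (hb f hf)
    have hint : IsIntegral ℤ (⟨(b : AlgebraicClosure ℚ), hbF⟩ : F) := by
      rw [← isIntegral_algebraMap_iff (algebraMap F (AlgebraicClosure ℚ)).injective]
      exact b.2
    obtain ⟨x, hx⟩ := (IsIntegralClosure.isIntegral_iff (A := 𝓞 F)).mp hint
    have h1 : A.valuation (φ ((AlgEquiv.restrictNormalHom F σ₀) • x - x)) < 1 := hτ x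
    have e1 : φ x = (b : AlgebraicClosure ℚ) := by
      show algebraMap F (AlgebraicClosure ℚ) (algebraMap (𝓞 F) F x) = _
      rw [hx]
      rfl
    have e2 : φ ((AlgEquiv.restrictNormalHom F σ₀) • x) = σ₀ (φ x) := by
      show algebraMap F (AlgebraicClosure ℚ) (algebraMap (𝓞 F) F (_ • x)) =
        σ₀ (algebraMap F (AlgebraicClosure ℚ) (algebraMap (𝓞 F) F x))
      rw [← AlgEquiv.restrictNormal_commutes]
      rfl
    rw [map_sub, e2, e1] at h1
    exact h1
  have h2 : σ₀ ∈ F.fixingSubgroup := by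
    rw [hFH]
    exact hσ₀H
  ext y
  have h3 : algebraMap F (AlgebraicClosure ℚ) ((AlgEquiv.restrictNormalHom F σ₀) y) =
      σ₀ (algebraMap F (AlgebraicClosure ℚ) y) := AlgEquiv.restrictNormal_commutes σ₀ F y
  have h4 : σ₀ (y : AlgebraicClosure ℚ) = y :=
    (IntermediateField.mem_fixingSubgroup_iff F σ₀).mp h2 y y.2
  show algebraMap F (AlgebraicClosure ℚ) ((AlgEquiv.restrictNormalHom F σ₀) y) = (y : AlgebraicClosure ℚ)
  rw [h3]
  exact h4

end Fermat.Agent.S13
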