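import Mathlib
import Fermat.Prelude.Def_FLTPrelim_FreyPackage
import Fermat.Prelude.Def_FLTPrelim_GaloisRep
import Fermat.Prelude.Def_FLTPrelim_Ramification
import Fermat.Prelude.Def_FLTPrelim_CofixedLine
import Fermat.Agent.S13.EOne2
import Fermat.Agent.S13.Global
import Fermat.Agent.S13.RatPoly
import Fermat.Agent.S13.FreyTwo
import Fermat.Agent.S13.FreyP
import Fermat.Agent.S13.FreyNStar
import Fermat.Agent.Common.Frobenius
import Fermat.Agent.S05

set_option autoImplicit false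

/-!
# S13, WP-S: final assembly (core)

`Final.final_core`: if the Frey curve has a nonzero `p`-torsion point and its mod `p`
representation is reducible, there is a Galois-stable line with trivial action on the quotient.
Inputs: `frey_dim_two`, `frey_inertia_two`, `frey_no_rational_torsion`, `frey_inertia_p`,
`frey_nstar`, `eq_top_of_inertia_le`, `isOpen_stabilizer_point`, `S05.result`.
-/

open WeierstrassCurve WeierstrassCurve.Affine WeierstrassCurve.Affine.Point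

namespace Fermat.Agent.S13

open Fermat.Agent.S05 Fermat.Agent.S05.OrdData

local notation "Qb" => AlgebraicClosure ℚ

namespace Final

section Abstract

variable {F V G : Type*} [Field F] [AddCommGroup V] [Module F V]

/-- In a space generated by two vectors, a nonzero vector `u` and a vector `w` which is not a
multiple of `u` generate everything. -/
theorem exists_eq_smul_add (t₁ t₂ : V) (hgen : ∀ v : V, ∃ a b : F, v = a • t₁ + b • t₂)
    (u w : V) (hu : u ≠ 0) (hw : ∀ c : F, w ≠ c • u) (v : V) :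
    ∃ a b : F, v = a • u + b • w := by
  classical
  have htop : Submodule.span F ({t₁, t₂} : Set V) = ⊤ := by
    rw [eq_top_iff]
    intro v _
    obtain ⟨a, b, rfl⟩ := hgen v
    exact Submodule.mem_span_pair.mpr ⟨a, b, rfl⟩
  have hfin : Module.Finite F V := by
    refine ⟨⟨{t₁, t₂}, ?_⟩⟩
    simpa using htop
  have hle : Module.finrank F V ≤ 2 := by
    have h1 := finrank_span_finset_le_card (R := F) ({t₁, t₂} : Finset V)
    unfold Set.finrank at h1
    have h2 : Module.finrank F (Submodule.span F (({t₁, t₂} : Finset V) : Set V)) =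
        Module.finrank F V := by
      have : (({t₁, t₂} : Finset V) : Set V) = {t₁, t₂} := by simp
      rw [this, htop, finrank_top]
    rw [h2] at h1
    exact h1.trans Finset.card_le_two
  have hli : LinearIndependent F ![u, w] := by
    rw [LinearIndependent.pair_iff]
    intro s t hst
    by_cases ht : t = 0
    · subst ht
      simp only [zero_smul, add_zero, smul_eq_zero] at hst
      exact ⟨hst.resolve_right hu, rfl⟩
    · exfalso
      apply hw (-(t⁻¹ * s))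
      have h3 : t • w = -(s • u) := eq_neg_of_add_eq_zero_right hst
      calc w = t⁻¹ • (t • w) := by rw [smul_smul, inv_mul_cancel₀ ht, one_smul]
        _ = (-(t⁻¹ * s)) • u := by rw [h3, smul_neg, smul_smul, neg_smul]
  have hcard := hli.fintype_card_le_finrank
  have hspan := hli.span_eq_top_of_card_eq_finrank' (by
    simp only [Fintype.card_fin] at hcard ⊢
    omega)
  have hv : v ∈ Submodule.span F (Set.range ![u, w]) := by rw [hspan]; trivial
  have hrange : Set.range ![u, w] = {u, w} := by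
    simp [Matrix.range_cons, Set.pair_comm]
  rw [hrange] at hv
  obtain ⟨a, b, h⟩ := Submodule.mem_span_pair.mp hv
  exact ⟨a, b, h.symm⟩

/-- A proper subspace of a `2`-generated space containing a nonzero vector `t₀` consists of
multiples of `t₀`. -/
theorem exists_eq_smul_of_mem (t₁ t₂ : V) (hgen : ∀ v : V, ∃ a b : F, v = a • t₁ + b • t₂)
    (N : Submodule F V) (hN : N ≠ ⊤) (t₀ : V) (ht₀ : t₀ ∈ N) (ht₀0 : t₀ ≠ 0)
    (x : V) (hx : x ∈ N) : ∃ c : F, x = c • t₀ := by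
  by_contra hcon
  apply hN
  rw [eq_top_iff]
  intro v _
  obtain ⟨a, b, rfl⟩ := exists_eq_smul_add t₁ t₂ hgen t₀ x ht₀0 (fun c h => hcon ⟨c, h⟩) v
  exact N.add_mem (N.smul_mem a ht₀) (N.smul_mem b hx)

variable [Group G] [DistribMulAction G V]

/-- The kernel of the action on `V ⧸ N` for a stable subspace `N`. -/
def H2 (N : Submodule F V) (hN : ∀ σ : G, ∀ x ∈ N, σ • x ∈ N) : Subgroup G where
  carrier := {σ | ∀ x : V, σ • x - x ∈ N}
  one_mem' := by
    intro x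
    simp
  mul_mem' := by
    intro σ τ hσ hτ x
    have : (σ * τ) • x - x = σ • (τ • x - x) + (σ • x - x) := by
      rw [mul_smul, smul_sub]; abel
    rw [this]
    exact N.add_mem (hN σ _ (hτ x)) (hσ x)
  inv_mem' := by
    intro σ hσ x
    have : σ⁻¹ • x - x = -(σ⁻¹ • (σ • x - x)) := by
      rw [smul_sub, inv_smul_smul]; abel
    rw [this]
    exact N.neg_mem (hN σ⁻¹ _ (hσ x))

theorem mem_H2 (N : Submodule F V) (hN : ∀ σ : G, ∀ x ∈ N, σ • x ∈ N) (σ : G) :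
    σ ∈ H2 N hN ↔ ∀ x : V, σ • x - x ∈ N := Iff.rfl

theorem H2_normal (N : Submodule F V) (hN : ∀ σ : G, ∀ x ∈ N, σ • x ∈ N) :
    (H2 N hN).Normal := by
  refine ⟨fun σ hσ τ x => ?_⟩
  have : (τ * σ * τ⁻¹) • x - x = τ • (σ • (τ⁻¹ • x) - τ⁻¹ • x) := by
    rw [mul_smul, mul_smul, smul_sub, smul_inv_smul]
  rw [this]
  exact hN τ _ (hσ _)

variable [SMulCommClass G F V]

/-- The stabilizer of a generator of a stable line is normal. -/
theorem stabilizer_normal (N : Submodule F V) (hN : ∀ σ : G, ∀ x ∈ N, σ • x ∈ N)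
    (t₀ : V) (ht₀ : t₀ ∈ N) (hline : ∀ x ∈ N, ∃ c : F, x = c • t₀) :
    (MulAction.stabilizer G t₀).Normal := by
  refine ⟨fun σ hσ τ => ?_⟩
  rw [MulAction.mem_stabilizer_iff] at hσ ⊢
  obtain ⟨c, hc⟩ := hline _ (hN τ⁻¹ t₀ ht₀)
  rw [mul_smul, mul_smul, hc, smul_comm σ c t₀, hσ, ← hc, smul_inv_smul]

/-- A unipotent element (`(σ - 1)² = 0`) fixes a stable line pointwise and acts trivially on the
quotient, in a `2`-generated space. -/
theorem unipotent (t₁ t₂ : V) (hgen : ∀ v : V, ∃ a b : F, v = a • t₁ + b • t₂)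
    (N : Submodule F V) (hN : ∀ σ : G, ∀ x ∈ N, σ • x ∈ N) (hNtop : N ≠ ⊤)
    (t₀ : V) (ht₀ : t₀ ∈ N) (ht₀0 : t₀ ≠ 0)
    (σ : G) (hσ : ∀ x : V, σ • (σ • x - x) = σ • x - x) :
    σ • t₀ = t₀ ∧ ∀ x : V, σ • x - x ∈ N := by
  have hline := exists_eq_smul_of_mem t₁ t₂ hgen N hNtop t₀ ht₀ ht₀0
  -- `σ t₀ = t₀`
  have h0 : σ • t₀ = t₀ := by
    obtain ⟨c, hc⟩ := hline _ (hN σ t₀ ht₀)
    have h1 := hσ t₀
    rw [hc, smul_sub, smul_comm σ c t₀, hc] at h1
    have h2 : ((c - 1) * (c - 1)) • t₀ = 0 := by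
      linear_combination (norm := module) h1
    have h3 : c - 1 = 0 := by
      rcases smul_eq_zero.mp h2 with h | h
      · exact mul_self_eq_zero.mp h
      · exact absurd h ht₀0
    rw [hc, sub_eq_zero.mp h3, one_smul]
  refine ⟨h0, ?_⟩
  -- pick `t ∉ N`
  obtain ⟨t, htN⟩ : ∃ t : V, t ∉ N := by
    by_contra hcon
    apply hNtop
    rw [eq_top_iff]
    intro v _
    by_contra hv
    exact hcon ⟨v, hv⟩
  have hspan := exists_eq_smul_add t₁ t₂ hgen t₀ t ht₀0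
    (fun c h => htN (h ▸ N.smul_mem c ht₀))
  -- `σ t - t ∈ N`
  have ht : σ • t - t ∈ N := by
    obtain ⟨a, b, hab⟩ := hspan (σ • t)
    have h1 := hσ t
    -- σ t - t = a t₀ + (b - 1) t
    have h2 : σ • t - t = a • t₀ + (b - 1) • t := by
      rw [hab, sub_smul, one_smul]; abel
    have h3 : σ • (σ • t - t) = a • t₀ + (b - 1) • (a • t₀ + b • t) := by
      rw [h2, smul_add, smul_comm σ a t₀, h0, smul_comm σ (b - 1) t, hab]
    rw [h3, h2] at h1
    have h4 : ((b - 1) * (b - 1)) • t = (-((b - 1) * a)) • t₀ := by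
      linear_combination (norm := module) h1
    have h5 : b - 1 = 0 := by
      by_contra hb
      have hb2 : (b - 1) * (b - 1) ≠ 0 := mul_ne_zero hb hb
      apply htN
      have : t = ((b - 1) * (b - 1))⁻¹ • ((-((b - 1) * a)) • t₀) := by
        rw [← h4, smul_smul, inv_mul_cancel₀ hb2, one_smul]
      rw [this]
      exact N.smul_mem _ (N.smul_mem _ ht₀)
    rw [h2, h5, zero_smul, add_zero]
    exact N.smul_mem a ht₀
  intro x
  obtain ⟨a, b, rfl⟩ := hspan x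
  have : σ • (a • t₀ + b • t) - (a • t₀ + b • t) = b • (σ • t - t) := by
    rw [smul_add, smul_comm σ a t₀, h0, smul_comm σ b t, smul_sub]
    abel
  rw [this]
  exact N.smul_mem b ht

end Abstract

/-- Integrality of the `b`-invariants of the Frey curve at a place over `p`. -/
theorem frey_b_ge (P : FreyPackage) (A : ValuationSubring Qb) (hA : A.LiesOverPrime P.p) :
    (ordOfSubring A).Ge (P.freyCurve⁄Qb).b₂ 0 ∧ (ordOfSubring A).Ge (P.freyCurve⁄Qb).b₄ 0 ∧
    (ordOfSubring A).Ge (P.freyCurve⁄Qb).b₆ 0 ∧ (ordOfSubring A).Ge (P.freyCurve⁄Qb).b₈ 0 := by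
  have hp5 := P.hp5
  have h2 : ¬ ((P.p : ℕ) : ℤ) ∣ 2 := by
    intro h
    have h' : P.p ∣ 2 := by exact_mod_cast h
    have := Nat.le_of_dvd (by norm_num) h'
    omega
  obtain ⟨h20, h2u⟩ := ordOfSubring_intCast_unit A P.pp hA h2
  have e2 : ((2 : ℤ) : Qb) = 2 := by norm_num
  rw [e2] at h20 h2u
  have hinv : (ordOfSubring A).Ge ((2 : Qb)⁻¹) 0 := Ge.inv_unit h20 h2u
  have hb₂ : (P.freyCurve⁄Qb).b₂ = ((P.b ^ P.p - P.a ^ P.p : ℤ) : Qb) := by
    simp [WeierstrassCurve.b₂, FreyPackage.freyCurve]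
    ring
  have hb₄ : (P.freyCurve⁄Qb).b₄ = ((-(P.a ^ P.p * P.b ^ P.p) : ℤ) : Qb) * (2 : Qb)⁻¹ ^ 3 := by
    simp [WeierstrassCurve.b₄, FreyPackage.freyCurve]
    ring
  have hb₆ : (P.freyCurve⁄Qb).b₆ = 0 := by
    simp [WeierstrassCurve.b₆, FreyPackage.freyCurve]
  have hb₈ : (P.freyCurve⁄Qb).b₈ = -((P.a ^ P.p * P.b ^ P.p : ℤ) : Qb) ^ 2 * (2 : Qb)⁻¹ ^ 8 := by
    simp [WeierstrassCurve.b₈, FreyPackage.freyCurve]
    ring
  refine ⟨?_, ?_, ?_, ?_⟩
  · rw [hb₂]; exact Ge.intCast _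
  · rw [hb₄]; exact (Ge.intCast _).mul0 (hinv.pow0 3)
  · rw [hb₆]; exact Ge.zero 0
  · rw [hb₈]; exact ((Ge.intCast _).pow0 2).neg.mul0 (hinv.pow0 8)

/-- If the Frey curve has a nonzero `p`-torsion point and its mod `p` representation is
reducible, it has a Galois-stable line with trivial action on the quotient. -/
theorem final_core (P : FreyPackage)
    (hex : ∃ T : (P.freyCurve⁄Qb).Point, T ≠ 0 ∧ P.p • T = 0)
    (hred : ¬ GaloisRepIsIrreducible (K := AlgebraicClosure ℚ) ℚ P.freyCurve P.p) :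
    HasGaloisStableCofixedLine (K := AlgebraicClosure ℚ) ℚ P.freyCurve P.p := by
  have : Fact P.p.Prime := ⟨P.pp⟩
  -- membership / torsion bookkeeping
  have hmem : ∀ T : (P.freyCurve⁄Qb).Point, P.p • T = 0 →
      T ∈ Submodule.torsionBy ℤ (P.freyCurve⁄Qb).Point P.p := by
    intro T hT
    rw [Submodule.mem_torsionBy_iff, natCast_zsmul]
    exact hT
  have htors : ∀ x : Submodule.torsionBy ℤ (P.freyCurve⁄Qb).Point P.p,
      P.p • (x : (P.freyCurve⁄Qb).Point) = 0 := by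
    intro x
    have := x.2
    rw [Submodule.mem_torsionBy_iff, natCast_zsmul] at this
    exact this
  -- the Galois action commutes with the `ZMod p`-action
  have hcomm : SMulCommClass (Qb ≃ₐ[ℚ] Qb) (ZMod P.p)
      (Submodule.torsionBy ℤ (P.freyCurve⁄Qb).Point P.p) := ⟨fun σ c x => by
    rw [← ZMod.natCast_zmod_val c, Nat.cast_smul_eq_nsmul, Nat.cast_smul_eq_nsmul]
    exact map_nsmul (DistribSMul.toAddMonoidHom
      (Submodule.torsionBy ℤ (P.freyCurve⁄Qb).Point P.p) σ) c.val x⟩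
  -- (1) `E[p] ≠ 0`
  obtain ⟨T, hT0, hT⟩ := hex
  have hnontriv : Nontrivial (Submodule.torsionBy ℤ (P.freyCurve⁄Qb).Point P.p) :=
    ⟨⟨⟨T, hmem T hT⟩, 0, fun h => hT0 (congrArg Subtype.val h)⟩⟩
  -- (2) a stable line
  obtain ⟨N, hNstab, hNbot, hNtop⟩ : ∃ N : Submodule (ZMod P.p)
      (Submodule.torsionBy ℤ (P.freyCurve⁄Qb).Point P.p),
      IsGaloisStable ℚ N ∧ N ≠ ⊥ ∧ N ≠ ⊤ := by
    by_contra hcon
    apply hred
    refine ⟨hnontriv, fun N hN => ?_⟩
    by_contra h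
    exact hcon ⟨N, hN, fun h1 => h (Or.inl h1), fun h1 => h (Or.inr h1)⟩
  obtain ⟨t₀, ht₀N, ht₀0⟩ := (Submodule.ne_bot_iff N).mp hNbot
  have hT₀0 : (t₀ : (P.freyCurve⁄Qb).Point) ≠ 0 := fun h => ht₀0 (Subtype.ext h)
  -- (3) two generators
  obtain ⟨T₁, T₂, hT₁, hT₂, hgenT⟩ := frey_dim_two P
  have hgen : ∀ v : Submodule.torsionBy ℤ (P.freyCurve⁄Qb).Point P.p, ∃ a b : ZMod P.p,
      v = a • (⟨T₁, hmem T₁ hT₁⟩ : Submodule.torsionBy ℤ (P.freyCurve⁄Qb).Point P.p) +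
        b • (⟨T₂, hmem T₂ hT₂⟩ : Submodule.torsionBy ℤ (P.freyCurve⁄Qb).Point P.p) := by
    intro v
    obtain ⟨i, j, hij⟩ := hgenT v (htors v)
    refine ⟨(i : ZMod P.p), (j : ZMod P.p), ?_⟩
    rw [Nat.cast_smul_eq_nsmul, Nat.cast_smul_eq_nsmul]
    apply Subtype.ext
    rw [hij]
    rfl
  -- the stable subspace is the line through `t₀`
  have hline : ∀ x ∈ N, ∃ c : ZMod P.p, x = c • t₀ :=
    exists_eq_smul_of_mem _ _ hgen N hNtop t₀ ht₀N ht₀0
  have hlineT : ∀ σ : Qb ≃ₐ[ℚ] Qb, ∃ k : ℕ,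
      σ • (t₀ : (P.freyCurve⁄Qb).Point) = k • (t₀ : (P.freyCurve⁄Qb).Point) := by
    intro σ
    obtain ⟨c, hc⟩ := hline _ (hNstab σ t₀ ht₀N)
    refine ⟨c.val, ?_⟩
    rw [← ZMod.natCast_zmod_val c, Nat.cast_smul_eq_nsmul] at hc
    exact congrArg Subtype.val hc
  -- `E[p]` is finite
  have hfinV : Finite (Submodule.torsionBy ℤ (P.freyCurve⁄Qb).Point P.p) :=
    Finite.of_surjective (fun ab : ZMod P.p × ZMod P.p =>
      ab.1 • (⟨T₁, hmem T₁ hT₁⟩ : Submodule.torsionBy ℤ (P.freyCurve⁄Qb).Point P.p) +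
        ab.2 • (⟨T₂, hmem T₂ hT₂⟩ : Submodule.torsionBy ℤ (P.freyCurve⁄Qb).Point P.p))
      (fun v => by
        obtain ⟨a, b, h⟩ := hgen v
        exact ⟨(a, b), h.symm⟩)
  -- the two subgroups `H₁ = Stab(t₀)` and `H₂ = ker (G → GL(V / N))`
  have hstab_open : ∀ x : Submodule.torsionBy ℤ (P.freyCurve⁄Qb).Point P.p,
      IsOpen ((MulAction.stabilizer (Qb ≃ₐ[ℚ] Qb) x : Subgroup (Qb ≃ₐ[ℚ] Qb)) :
        Set (Qb ≃ₐ[ℚ] Qb)) := by
    intro x
    have h := isOpen_stabilizer_point P.freyCurve (x : (P.freyCurve⁄Qb).Point)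
    convert h using 1
    ext σ
    change σ • x = x ↔ σ • (x : (P.freyCurve⁄Qb).Point) = (x : (P.freyCurve⁄Qb).Point)
    exact Subtype.ext_iff
  have hH1n : (MulAction.stabilizer (Qb ≃ₐ[ℚ] Qb) t₀).Normal :=
    stabilizer_normal N hNstab t₀ ht₀N hline
  have hH2n : (H2 N hNstab).Normal := H2_normal N hNstab
  have hH2open : IsOpen ((H2 N hNstab : Subgroup (Qb ≃ₐ[ℚ] Qb)) : Set (Qb ≃ₐ[ℚ] Qb)) := by
    refine Subgroup.isOpen_mono
      (H₁ := ⨅ x : Submodule.torsionBy ℤ (P.freyCurve⁄Qb).Point P.p,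
        MulAction.stabilizer (Qb ≃ₐ[ℚ] Qb) x) ?_ ?_
    · intro σ hσ x
      rw [Subgroup.mem_iInf] at hσ
      have := hσ x
      rw [MulAction.mem_stabilizer_iff] at this
      rw [this, sub_self]
      exact N.zero_mem
    · rw [Subgroup.coe_iInf]
      exact isOpen_iInter_of_finite hstab_open
  -- inertia at odd `ℓ ≠ p`
  have hodd : ∀ ℓ : ℕ, ℓ.Prime → ℓ ≠ 2 → ℓ ≠ P.p → ∃ A : ValuationSubring Qb,
      A.LiesOverPrime ℓ ∧ A.inertiaSubgroupIn ℚ ≤ MulAction.stabilizer (Qb ≃ₐ[ℚ] Qb) t₀ ∧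
        A.inertiaSubgroupIn ℚ ≤ H2 N hNstab := by
    intro ℓ hℓ hℓ2 hℓp
    obtain ⟨A, hA⟩ := Fermat.Agent.Common.exists_liesOverPrime ℓ hℓ
    have hunr := Fermat.Agent.S05.result P hℓ hℓ2 hℓp A hA
    refine ⟨A, hA, fun σ hσ => ?_, fun σ hσ x => ?_⟩
    · rw [MulAction.mem_stabilizer_iff]
      exact hunr σ hσ t₀
    · have h0 : σ • x - x = 0 := sub_eq_zero.mpr (hunr σ hσ x)
      rw [h0]
      exact N.zero_mem
  -- inertia at `2`
  obtain ⟨A₂, hA₂⟩ := Fermat.Agent.Common.exists_liesOverPrime 2 Nat.prime_two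
  have htwo : A₂.inertiaSubgroupIn ℚ ≤ MulAction.stabilizer (Qb ≃ₐ[ℚ] Qb) t₀ ∧
      A₂.inertiaSubgroupIn ℚ ≤ H2 N hNstab := by
    have key : ∀ σ ∈ A₂.inertiaSubgroupIn ℚ, σ • t₀ = t₀ ∧
        ∀ x : Submodule.torsionBy ℤ (P.freyCurve⁄Qb).Point P.p, σ • x - x ∈ N := by
      intro σ hσ
      refine unipotent _ _ hgen N hNstab hNtop t₀ ht₀N ht₀0 σ (fun x => ?_)
      apply Subtype.ext
      exact frey_inertia_two P A₂ hA₂ σ hσ (x : (P.freyCurve⁄Qb).Point) (htors x)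
    exact ⟨fun σ hσ => MulAction.mem_stabilizer_iff.mpr (key σ hσ).1, fun σ hσ => (key σ hσ).2⟩
  -- inertia at `p`
  obtain ⟨Ap, hAp⟩ := Fermat.Agent.Common.exists_liesOverPrime P.p P.pp
  by_cases hE : inE1 (ordOfSubring Ap) (t₀ : (P.freyCurve⁄Qb).Point)
  · -- `t₀ ∈ E₁`: then `H₂ = ⊤`
    have hp : Ap.inertiaSubgroupIn ℚ ≤ H2 N hNstab := by
      intro σ hσ x
      have h1 := frey_inertia_p P Ap hAp σ hσ (x : (P.freyCurve⁄Qb).Point) (htors x)
      have h2 : P.p • (σ • (x : (P.freyCurve⁄Qb).Point) - (x : (P.freyCurve⁄Qb).Point)) = 0 :=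
        htors (σ • x - x)
      obtain ⟨k, hk⟩ := frey_nstar P Ap hAp (t₀ : (P.freyCurve⁄Qb).Point) hT₀0 (htors t₀)
        hlineT hE _ h2 h1
      have h3 : σ • x - x = k • t₀ := Subtype.ext hk
      rw [h3]
      exact N.nsmul_mem ht₀N k
    have htop : H2 N hNstab = ⊤ := by
      refine eq_top_of_inertia_le _ hH2open (fun ℓ hℓ => ?_)
      by_cases h1 : ℓ = P.p
      · rw [h1]
        exact ⟨Ap, hAp, hp⟩
      · by_cases h2 : ℓ = 2
        · rw [h2]
          exact ⟨A₂, hA₂, htwo.2⟩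
        · obtain ⟨A, hA, -, hA2⟩ := hodd ℓ hℓ h2 h1
          exact ⟨A, hA, hA2⟩
    refine ⟨N, hNstab, hNbot, hNtop, fun σ x => ?_⟩
    have hσ : σ ∈ H2 N hNstab := by
      rw [htop]
      trivial
    exact hσ x
  · -- `t₀ ∉ E₁`: then `H₁ = ⊤`, so `t₀` is rational, which is impossible
    exfalso
    obtain ⟨hb₂, hb₄, hb₆, hb₈⟩ := frey_b_ge P Ap hAp
    have hp : Ap.inertiaSubgroupIn ℚ ≤ MulAction.stabilizer (Qb ≃ₐ[ℚ] Qb) t₀ := by
      intro σ hσ
      rw [MulAction.mem_stabilizer_iff]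
      obtain ⟨c, hc⟩ := hline _ (hNstab σ t₀ ht₀N)
      by_cases hc1 : c = 1
      · rw [hc, hc1, one_smul]
      · exfalso
        apply hE
        have h1 := frey_inertia_p P Ap hAp σ hσ (t₀ : (P.freyCurve⁄Qb).Point) (htors t₀)
        have hc1' : c - 1 ≠ 0 := sub_ne_zero.mpr hc1
        have h3 : t₀ = ((c - 1)⁻¹).val • (σ • t₀ - t₀) := by
          rw [← Nat.cast_smul_eq_nsmul (ZMod P.p), ZMod.natCast_zmod_val, hc]
          have h4 : c • t₀ - t₀ = (c - 1) • t₀ := by rw [sub_smul, one_smul]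
          rw [h4, smul_smul, inv_mul_cancel₀ hc1', one_smul]
        have h4 := (E1_nsmul' (ordOfSubring Ap) (P.freyCurve⁄Qb) two_ne_zero hb₂ hb₄ hb₆ hb₈ _ h1
          ((c - 1)⁻¹).val).1
        have h5 : (t₀ : (P.freyCurve⁄Qb).Point) = ((c - 1)⁻¹).val •
            (σ • (t₀ : (P.freyCurve⁄Qb).Point) - (t₀ : (P.freyCurve⁄Qb).Point)) :=
          congrArg Subtype.val h3
        rw [h5]
        exact h4
    have htop : MulAction.stabilizer (Qb ≃ₐ[ℚ] Qb) t₀ = ⊤ := by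
      refine eq_top_of_inertia_le _ (hstab_open t₀) (fun ℓ hℓ => ?_)
      by_cases h1 : ℓ = P.p
      · rw [h1]
        exact ⟨Ap, hAp, hp⟩
      · by_cases h2 : ℓ = 2
        · rw [h2]
          exact ⟨A₂, hA₂, htwo.1⟩
        · obtain ⟨A, hA, hA1, -⟩ := hodd ℓ hℓ h2 h1
          exact ⟨A, hA, hA1⟩
    refine frey_no_rational_torsion P (t₀ : (P.freyCurve⁄Qb).Point) hT₀0 (htors t₀) (fun σ => ?_)
    have hσ : σ ∈ MulAction.stabilizer (Qb ≃ₐ[ℚ] Qb) t₀ := by
      rw [htop]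
      trivial
    exact congrArg Subtype.val (MulAction.mem_stabilizer_iff.mp hσ)

end Final

end Fermat.Agent.S13
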