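import Mathlib
import Fermat.Agent.S13.PolyVal

/-!
# Values of split polynomials (alias module)

`TorsExists.eval_ge_of_roots` and `TorsExists.eval_unit_of_roots` live in
`Fermat.Agent.S13.PolyVal`; this module only re-imports it under the second agreed file name.
-/
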